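/-
P-SS / SSH-7 (helper41), block (C1): from a regular point to the tube coordinate (Mathlib +
`Fermat.Agent.H71.SS.RegPoint`).

`R` a noetherian local domain with fraction field `E`, maximal ideal `(p, u)`, `(p)` prime,
`p ≠ 0`, `u ∉ (p)` (the local ring of the normal model at a point of the special fibre lying on
one component, `p = π₀`).  Let `V` be a valuation subring of `E` containing `R` in which `p` is a
unit (a characteristic-zero place centred at the point) and `t = u - p c` a non-unit of `V`.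

* `regTube_centre_eq` : the centre of `V` on `R` is the principal prime `(t)`;
* `regTube_isUniformiser` : `t` is a uniformiser of `V` (`z ∈ 𝔪_V → z / t ∈ V`);
* `regTube_unique` : `V` is the only such valuation subring.
-/
import Mathlib
import Fermat.Agent.H71.SS.RegPoint

set_option autoImplicit false
set_option linter.style.haveILetI false
set_option linter.unusedSectionVars false

noncomputable section

namespace Fermat.Agent.H41.SS

open IsLocalRing

section Factor

variable {R : Type*} [CommRing R] [IsDomain R] [IsLocalRing R] [IsNoetherianRing R]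

/-- In a noetherian local domain every nonzero element is `t ^ n * w` with `w ∉ (t)`, for every
non-unit `t`. -/
theorem regTube_factor {t : R} (ht : t ∈ maximalIdeal R) {r : R} (hr : r ≠ 0) :
    ∃ (n : ℕ) (w : R), r = t ^ n * w ∧ w ∉ Ideal.span {t} := by
  classical
  have hne : Ideal.span {t} ≠ ⊤ := by
    intro h
    rw [Ideal.span_singleton_eq_top] at h
    exact (IsLocalRing.mem_maximalIdeal _).1 ht h
  have hK : ⨅ i : ℕ, Ideal.span {t} ^ i = ⊥ :=
    Ideal.iInf_pow_eq_bot_of_isLocalRing (Ideal.span {t}) hne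
  have hex : ∃ n : ℕ, r ∉ Ideal.span {t} ^ n := by
    by_contra hcon
    push Not at hcon
    have : r ∈ ⨅ i : ℕ, Ideal.span {t} ^ i := by
      rw [Ideal.mem_iInf]; exact hcon
    rw [hK] at this
    exact hr this
  have hn := Nat.find_spec hex
  have hpos : Nat.find hex ≠ 0 := by
    intro h0
    rw [h0, pow_zero, Ideal.one_eq_top] at hn
    exact hn Submodule.mem_top
  obtain ⟨n, hnn⟩ := Nat.exists_eq_succ_of_ne_zero hpos
  have hmem : r ∈ Ideal.span {t} ^ n := by
    by_contra hcon
    have := Nat.find_min' hex hcon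
    omega
  rw [Ideal.span_singleton_pow, Ideal.mem_span_singleton'] at hmem
  obtain ⟨w, hw⟩ := hmem
  refine ⟨n, w, by rw [← hw, mul_comm], ?_⟩
  intro hwt
  rw [Ideal.mem_span_singleton'] at hwt
  obtain ⟨w', hw'⟩ := hwt
  apply hn
  rw [hnn, Ideal.span_singleton_pow, Ideal.mem_span_singleton']
  refine ⟨w', ?_⟩
  rw [← hw, ← hw', pow_succ]
  ring

end Factor

section Centre

variable {R : Type*} [CommRing R] {E : Type*} [Field E] [Algebra R E]

/-- The centre on `R` of a valuation subring `V ⊇ R` of `E`. -/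
def regTubeCentre (V : ValuationSubring E) (hRV : ∀ r : R, algebraMap R E r ∈ V) : Ideal R where
  carrier := {r | algebraMap R E r ∈ V.nonunits}
  add_mem' := by
    intro a b ha hb
    simp only [Set.mem_ofPred_eq, ValuationSubring.mem_nonunits_iff, map_add] at ha hb ⊢
    exact lt_of_le_of_lt (V.valuation.map_add _ _) (max_lt ha hb)
  zero_mem' := by
    simp only [Set.mem_ofPred_eq, map_zero, ValuationSubring.mem_nonunits_iff]
    exact zero_lt_one
  smul_mem' := by
    intro c a ha
    simp only [Set.mem_ofPred_eq, ValuationSubring.mem_nonunits_iff, smul_eq_mul, map_mul] at ha ⊢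
    exact mul_lt_of_le_one_of_lt ((V.valuation_le_one_iff _).2 (hRV c)) ha

theorem mem_regTubeCentre (V : ValuationSubring E) (hRV : ∀ r : R, algebraMap R E r ∈ V)
    (r : R) : r ∈ regTubeCentre V hRV ↔ algebraMap R E r ∈ V.nonunits := Iff.rfl

theorem regTubeCentre_isPrime (V : ValuationSubring E) (hRV : ∀ r : R, algebraMap R E r ∈ V) :
    (regTubeCentre V hRV).IsPrime := by
  refine ⟨?_, ?_⟩
  · intro h
    have h1 : (1 : R) ∈ regTubeCentre V hRV := by rw [h]; exact Submodule.mem_top
    rw [mem_regTubeCentre, map_one, ValuationSubring.mem_nonunits_iff, map_one] at h1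
    exact lt_irrefl _ h1
  · intro a b hab
    rw [mem_regTubeCentre, map_mul, ValuationSubring.mem_nonunits_iff, map_mul] at hab
    by_contra hcon
    push Not at hcon
    obtain ⟨ha, hb⟩ := hcon
    rw [mem_regTubeCentre, ValuationSubring.mem_nonunits_iff, not_lt] at ha hb
    have ha1 := (V.valuation_le_one_iff _).2 (hRV a)
    have hb1 := (V.valuation_le_one_iff _).2 (hRV b)
    have ha2 : V.valuation (algebraMap R E a) = 1 := le_antisymm ha1 ha
    have hb2 : V.valuation (algebraMap R E b) = 1 := le_antisymm hb1 hb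
    rw [ha2, hb2, one_mul] at hab
    exact lt_irrefl _ hab

end Centre

section Order

variable {Γ : Type*} [LinearOrderedCommGroupWithZero Γ]

/-- bookkeeping in the value group: `a τ ^ n₂ = τ ^ n₁`, `0 < τ < 1`. -/
theorem regTube_order {a τ : Γ} (hτ0 : τ ≠ 0) (hτ1 : τ < 1) {n₁ n₂ : ℕ}
    (h : a * τ ^ n₂ = τ ^ n₁) :
    (a ≤ 1 → n₂ ≤ n₁) ∧ (n₂ ≤ n₁ → a ≤ 1) ∧ (a < 1 → a ≤ τ) := by
  have hpow : ∀ k : ℕ, τ ^ k ≠ 0 := fun k => pow_ne_zero k hτ0
  have hle1 : ∀ k : ℕ, τ ^ k ≤ 1 := fun k => pow_le_one₀ (zero_le) hτ1.le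
  rcases Nat.lt_or_ge n₁ n₂ with hlt | hge
  · -- `a = τ ^ -(n₂ - n₁) > 1`
    obtain ⟨k, rfl⟩ := Nat.exists_eq_add_of_lt hlt
    have h1 : a * τ ^ (k + 1) = 1 := by
      have h2 : a * τ ^ (k + 1) * τ ^ n₁ = 1 * τ ^ n₁ := by
        have h3 : τ ^ (n₁ + k + 1) = τ ^ (k + 1) * τ ^ n₁ := by
          rw [← pow_add]; congr 1; omega
        rw [one_mul, mul_assoc, ← h3, h]
      exact mul_right_cancel₀ (hpow n₁) h2
    have hk : τ ^ (k + 1) < 1 := by
      rw [pow_succ]
      exact mul_lt_of_le_one_of_lt (hle1 k) hτ1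
    have ha : 1 < a := by
      by_contra hcon
      rw [not_lt] at hcon
      have : a * τ ^ (k + 1) < 1 := mul_lt_of_le_one_of_lt hcon hk
      rw [h1] at this
      exact lt_irrefl _ this
    refine ⟨fun h' => absurd ha (not_lt.2 h'), fun h' => by omega,
      fun h' => absurd (lt_trans h' ha) (lt_irrefl _)⟩
  · obtain ⟨k, rfl⟩ := Nat.exists_eq_add_of_le hge
    have h1 : a = τ ^ k := by
      have h2 : a * τ ^ n₂ = τ ^ k * τ ^ n₂ := by rw [h, ← pow_add, add_comm]
      exact mul_right_cancel₀ (hpow n₂) h2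
    refine ⟨fun _ => by omega, fun _ => by rw [h1]; exact hle1 k, fun h' => ?_⟩
    rw [h1] at h' ⊢
    rcases Nat.eq_zero_or_pos k with rfl | hk
    · rw [pow_zero] at h'
      exact absurd h' (lt_irrefl _)
    · obtain ⟨j, rfl⟩ := Nat.exists_eq_succ_of_ne_zero (Nat.pos_iff_ne_zero.1 hk)
      rw [pow_succ]
      exact mul_le_of_le_one_left zero_le (hle1 j)

end Order

section RegTube

variable {R : Type*} [CommRing R] [IsDomain R] [IsLocalRing R] [IsNoetherianRing R]
variable {E : Type*} [Field E] [Algebra R E] [IsFractionRing R E]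
variable {p u : R} (hmax : maximalIdeal R = Ideal.span {p, u})
  (hprime : (Ideal.span {p}).IsPrime) (hp : p ≠ 0) (hu : u ∉ Ideal.span {p}) (c : R)

include hmax hprime hp hu in
/-- The centre of `V` on `R` is the principal prime `(u - p c)`. -/
theorem regTube_centre_eq (V : ValuationSubring E) (hRV : ∀ r : R, algebraMap R E r ∈ V)
    (hpV : algebraMap R E p ∉ V.nonunits)
    (htV : algebraMap R E (u - p * c) ∈ V.nonunits) :
    regTubeCentre V hRV = Ideal.span {u - p * c} :=
  Fermat.Agent.H71.SS.regPoint_eq_of_isPrime hmax hprime hp hu c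
    (regTubeCentre_isPrime V hRV) htV hpV

include hmax in
theorem regTube_t_mem : u - p * c ∈ maximalIdeal R :=
  (maximalIdeal R).sub_mem (Fermat.Agent.H71.SS.regPoint_u_mem hmax)
    ((maximalIdeal R).mul_mem_right c (Fermat.Agent.H71.SS.regPoint_p_mem hmax))

include hu in
theorem regTube_t_ne_zero : u - p * c ≠ 0 := by
  intro h0
  apply hu
  rw [sub_eq_zero] at h0
  rw [h0]
  exact Ideal.mul_mem_right _ _ (Ideal.mem_span_singleton_self p)

include hmax in
/-- Every nonzero element of `E` is a quotient `t ^ n₁ w₁ / t ^ n₂ w₂` with `w_i ∉ (t)`. -/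
theorem regTube_quot (z : E) (hz : z ≠ 0) :
    ∃ (n₁ n₂ : ℕ) (w₁ w₂ : R), w₁ ∉ Ideal.span {u - p * c} ∧ w₂ ∉ Ideal.span {u - p * c} ∧
      z * (algebraMap R E (u - p * c) ^ n₂ * algebraMap R E w₂)
        = algebraMap R E (u - p * c) ^ n₁ * algebraMap R E w₁ := by
  obtain ⟨r₁, r₂, hr₂, hz12⟩ := IsFractionRing.div_surjective (A := R) z
  have hr₂0 : r₂ ≠ 0 := nonZeroDivisors.ne_zero hr₂
  have hr₁0 : r₁ ≠ 0 := by
    rintro rfl
    rw [map_zero, zero_div] at hz12
    exact hz hz12.symm
  obtain ⟨n₁, w₁, h1, hw₁⟩ := regTube_factor (regTube_t_mem hmax c) hr₁0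
  obtain ⟨n₂, w₂, h2, hw₂⟩ := regTube_factor (regTube_t_mem hmax c) hr₂0
  refine ⟨n₁, n₂, w₁, w₂, hw₁, hw₂, ?_⟩
  have hr₂E : algebraMap R E r₂ ≠ 0 := by
    rw [Ne, map_eq_zero_iff _ (IsFractionRing.injective R E)]
    exact hr₂0
  rw [← map_pow, ← map_pow, ← map_mul, ← map_mul, ← h1, ← h2, ← hz12]
  field_simp

include hmax hprime hp hu in
/-- The valuation of `z` in terms of the factorisation. -/
theorem regTube_val (V : ValuationSubring E) (hRV : ∀ r : R, algebraMap R E r ∈ V)
    (hpV : algebraMap R E p ∉ V.nonunits)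
    (htV : algebraMap R E (u - p * c) ∈ V.nonunits)
    {z : E} {n₁ n₂ : ℕ} {w₁ w₂ : R}
    (hw₁ : w₁ ∉ Ideal.span {u - p * c}) (hw₂ : w₂ ∉ Ideal.span {u - p * c})
    (hrel : z * (algebraMap R E (u - p * c) ^ n₂ * algebraMap R E w₂)
        = algebraMap R E (u - p * c) ^ n₁ * algebraMap R E w₁) :
    V.valuation z * V.valuation (algebraMap R E (u - p * c)) ^ n₂
      = V.valuation (algebraMap R E (u - p * c)) ^ n₁ := by
  have hcen := regTube_centre_eq hmax hprime hp hu c V hRV hpV htV
  have hunit : ∀ w : R, w ∉ Ideal.span {u - p * c} →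
      V.valuation (algebraMap R E w) = 1 := by
    intro w hw
    rw [← hcen, mem_regTubeCentre, ValuationSubring.mem_nonunits_iff, not_lt] at hw
    exact le_antisymm ((V.valuation_le_one_iff _).2 (hRV w)) hw
  have h1 := congrArg V.valuation hrel
  rw [map_mul, map_mul, map_mul, map_pow, map_pow, hunit w₁ hw₁, hunit w₂ hw₂, mul_one,
    mul_one] at h1
  exact h1

include hmax hprime hp hu in
/-- **Uniformiser.**  `t = u - p c` is a uniformiser of `V`. -/
theorem regTube_isUniformiser (V : ValuationSubring E) (hRV : ∀ r : R, algebraMap R E r ∈ V)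
    (hpV : algebraMap R E p ∉ V.nonunits)
    (htV : algebraMap R E (u - p * c) ∈ V.nonunits) :
    ∀ z ∈ V.nonunits, z / algebraMap R E (u - p * c) ∈ V := by
  intro z hzV
  by_cases hz : z = 0
  · rw [hz, zero_div]; exact V.zero_mem
  obtain ⟨n₁, n₂, w₁, w₂, hw₁, hw₂, hrel⟩ := regTube_quot hmax c z hz
  have hval := regTube_val hmax hprime hp hu c V hRV hpV htV hw₁ hw₂ hrel
  have ht0 : algebraMap R E (u - p * c) ≠ 0 := by
    rw [Ne, map_eq_zero_iff _ (IsFractionRing.injective R E)]
    exact regTube_t_ne_zero hu c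
  have hτ0 : V.valuation (algebraMap R E (u - p * c)) ≠ 0 := by
    rw [Ne, map_eq_zero]; exact ht0
  have hτ1 : V.valuation (algebraMap R E (u - p * c)) < 1 :=
    (ValuationSubring.mem_nonunits_iff _).1 htV
  have hz1 : V.valuation z < 1 := (ValuationSubring.mem_nonunits_iff _).1 hzV
  have h3 := (regTube_order hτ0 hτ1 hval).2.2 hz1
  rw [← V.valuation_le_one_iff, map_div₀]
  exact (div_le_one₀ (lt_of_le_of_ne zero_le (Ne.symm hτ0))).2 h3

include hmax hprime hp hu in
/-- **Uniqueness of the place.**  Two valuation subrings containing `R`, with `p` a unit and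
`t = u - p c` a non-unit, are comparable; hence equal. -/
theorem regTube_le (V V' : ValuationSubring E)
    (hRV : ∀ r : R, algebraMap R E r ∈ V) (hRV' : ∀ r : R, algebraMap R E r ∈ V')
    (hpV : algebraMap R E p ∉ V.nonunits) (hpV' : algebraMap R E p ∉ V'.nonunits)
    (htV : algebraMap R E (u - p * c) ∈ V.nonunits)
    (htV' : algebraMap R E (u - p * c) ∈ V'.nonunits) : V ≤ V' := by
  intro z hzV
  by_cases hz : z = 0
  · rw [hz]; exact V'.zero_mem
  obtain ⟨n₁, n₂, w₁, w₂, hw₁, hw₂, hrel⟩ := regTube_quot hmax c z hz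
  have hval := regTube_val hmax hprime hp hu c V hRV hpV htV hw₁ hw₂ hrel
  have hval' := regTube_val hmax hprime hp hu c V' hRV' hpV' htV' hw₁ hw₂ hrel
  have ht0 : algebraMap R E (u - p * c) ≠ 0 := by
    rw [Ne, map_eq_zero_iff _ (IsFractionRing.injective R E)]
    exact regTube_t_ne_zero hu c
  have hτ0 : V.valuation (algebraMap R E (u - p * c)) ≠ 0 := by
    rw [Ne, map_eq_zero]; exact ht0
  have hτ0' : V'.valuation (algebraMap R E (u - p * c)) ≠ 0 := by
    rw [Ne, map_eq_zero]; exact ht0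
  have hτ1 : V.valuation (algebraMap R E (u - p * c)) < 1 :=
    (ValuationSubring.mem_nonunits_iff _).1 htV
  have hτ1' : V'.valuation (algebraMap R E (u - p * c)) < 1 :=
    (ValuationSubring.mem_nonunits_iff _).1 htV'
  have hn := (regTube_order hτ0 hτ1 hval).1 ((V.valuation_le_one_iff z).2 hzV)
  exact (V'.valuation_le_one_iff z).1 ((regTube_order hτ0' hτ1' hval').2.1 hn)

include hmax hprime hp hu in
theorem regTube_unique (V V' : ValuationSubring E)
    (hRV : ∀ r : R, algebraMap R E r ∈ V) (hRV' : ∀ r : R, algebraMap R E r ∈ V')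
    (hpV : algebraMap R E p ∉ V.nonunits) (hpV' : algebraMap R E p ∉ V'.nonunits)
    (htV : algebraMap R E (u - p * c) ∈ V.nonunits)
    (htV' : algebraMap R E (u - p * c) ∈ V'.nonunits) : V = V' :=
  le_antisymm (regTube_le hmax hprime hp hu c V V' hRV hRV' hpV hpV' htV htV')
    (regTube_le hmax hprime hp hu c V' V hRV' hRV hpV' hpV htV' htV)

end RegTube

end Fermat.Agent.H41.SS

end
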