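/-
P-SS / SSH-7 (helper41), block (C2): the tube coordinate at a regular point, in terms of a
domain `B` with fraction field `E` and a prime ideal `𝔪` (no localisation in the statement).

`B` a noetherian domain, `E = Frac B`, `𝔪` a prime ideal, `π, u ∈ 𝔪` with

* (REG) `𝔪 B_𝔪 = (π, u)` : for `z ∈ 𝔪` there is `s ∉ 𝔪` with `s z ∈ π B + u B`;
* (TF)  `u` is not nilpotent modulo `π B_𝔪` : `uⁿ b ∈ π B` implies `s b ∈ π B` for some `s ∉ 𝔪`.

Then for every valuation subring `V ⊇ B` of `E` centred in `𝔪` in which `π` is a unit, and every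
`c : B` with `u - π c ∈ 𝔪_V`:  `u - π c` is a uniformiser of `V` (`tubeLoc_isUniformiser`), and
`V` is the only such valuation subring (`tubeLoc_unique`).
-/
import Mathlib
import Fermat.Agent.H41.SS.RegTube

set_option autoImplicit false
set_option linter.style.haveILetI false
set_option linter.unusedSectionVars false

noncomputable section

namespace Fermat.Agent.H41.SS

open IsLocalRing

section QuotLocal

variable {R : Type*} [CommRing R] [IsLocalRing R]

/-- In a local ring with maximal ideal `(p, u)`, the maximal ideal of `R ⧸ (p)` is generated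
by the image of `u`. -/
theorem tubeLoc_maximalIdeal_quotient {p u : R}
    (hmax : maximalIdeal R = Ideal.span {p, u})
    [IsLocalRing (R ⧸ Ideal.span {p})] :
    maximalIdeal (R ⧸ Ideal.span {p}) =
      Ideal.span {Ideal.Quotient.mk (Ideal.span {p}) u} := by
  set I := Ideal.span {p}
  have hsurj : Function.Surjective (Ideal.Quotient.mk I) := Ideal.Quotient.mk_surjective
  apply le_antisymm
  · intro x hx
    obtain ⟨y, rfl⟩ := hsurj x
    have hy : y ∈ maximalIdeal R := by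
      rw [IsLocalRing.mem_maximalIdeal] at hx ⊢
      intro hyu
      exact hx (hyu.map (Ideal.Quotient.mk I))
    rw [hmax, Ideal.mem_span_pair] at hy
    obtain ⟨a, b, rfl⟩ := hy
    rw [map_add, map_mul, map_mul]
    have hp0 : Ideal.Quotient.mk I p = 0 :=
      Ideal.Quotient.eq_zero_iff_mem.2 (Ideal.mem_span_singleton_self p)
    rw [hp0, mul_zero, zero_add]
    exact Ideal.mul_mem_left _ _ (Ideal.mem_span_singleton_self _)
  · rw [Ideal.span_le]
    rintro x rfl
    show Ideal.Quotient.mk I u ∈ maximalIdeal (R ⧸ I)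
    rw [IsLocalRing.mem_maximalIdeal]
    intro hunit
    have hu : u ∈ maximalIdeal R := by
      rw [hmax]; exact Ideal.subset_span (by simp)
    obtain ⟨v, hv⟩ := hunit.exists_right_inv
    obtain ⟨w, rfl⟩ := hsurj v
    rw [← map_mul, ← map_one (Ideal.Quotient.mk I), Ideal.Quotient.eq] at hv
    have hIm : I ≤ maximalIdeal R := by
      rw [Ideal.span_le]
      rintro x rfl
      rw [hmax]; exact Ideal.subset_span (by simp)
    have h1 : u * w - 1 ∈ maximalIdeal R := hIm hv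
    have h2 : u * w ∈ maximalIdeal R := Ideal.mul_mem_right _ _ hu
    have h3 : (1 : R) ∈ maximalIdeal R := by
      have : (1 : R) = u * w - (u * w - 1) := by ring
      rw [this]; exact (maximalIdeal R).sub_mem h2 h1
    exact (IsLocalRing.mem_maximalIdeal _).1 h3 isUnit_one

end QuotLocal

section Prime

variable {R : Type*} [CommRing R] [IsDomain R] [IsLocalRing R] [IsNoetherianRing R]

/-- If the maximal ideal is `(p, u)` and `u` is not nilpotent modulo `p`, then `(p)` is prime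
and `u ∉ (p)`. -/
theorem tubeLoc_isPrime {p u : R} (hmax : maximalIdeal R = Ideal.span {p, u})
    (hnil : ∀ n : ℕ, u ^ n ∉ Ideal.span {p}) :
    (Ideal.span {p}).IsPrime ∧ u ∉ Ideal.span {p} := by
  set I := Ideal.span {p} with hI
  have hu : u ∉ I := by
    have := hnil 1
    rwa [pow_one] at this
  have hne : I ≠ ⊤ := by
    intro h
    have := hnil 0
    rw [h] at this
    exact this Submodule.mem_top
  haveI : Nontrivial (R ⧸ I) := Ideal.Quotient.nontrivial_iff.2 hne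
  haveI : IsLocalRing (R ⧸ I) :=
    IsLocalRing.of_surjective' (Ideal.Quotient.mk I) Ideal.Quotient.mk_surjective
  have hm := tubeLoc_maximalIdeal_quotient hmax
  have hnil' : ¬ IsNilpotent (Ideal.Quotient.mk I u) := by
    rintro ⟨n, hn⟩
    rw [← map_pow, Ideal.Quotient.eq_zero_iff_mem] at hn
    exact hnil n hn
  have hdom : IsDomain (R ⧸ I) :=
    Fermat.Agent.H71.SS.isDomain_of_maximalIdeal_eq_span hm hnil'
  exact ⟨(Ideal.Quotient.isDomain_iff_prime I).1 hdom, hu⟩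

end Prime

section Loc

variable {B : Type*} [CommRing B] [IsDomain B] [IsNoetherianRing B]
variable {E : Type*} [Field E] [Algebra B E] [IsFractionRing B E]
variable (𝔪 : Ideal B) [h𝔪 : 𝔪.IsPrime]

/-- The local ring `B_𝔪` as a subalgebra of `E`. -/
abbrev tubeLocRing : Subalgebra B E :=
  Localization.subalgebra.ofField E 𝔪.primeCompl 𝔪.primeCompl_le_nonZeroDivisors

theorem mem_tubeLocRing_iff (x : E) :
    x ∈ tubeLocRing (E := E) 𝔪 ↔
      ∃ (a s : B) (_ : s ∈ 𝔪.primeCompl), x = algebraMap B E a * (algebraMap B E s)⁻¹ :=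
  Iff.rfl

instance tubeLocRing_atPrime : IsLocalization.AtPrime ↥(tubeLocRing (E := E) 𝔪) 𝔪 :=
  Localization.subalgebra.isLocalization_ofField E 𝔪.primeCompl
    𝔪.primeCompl_le_nonZeroDivisors

theorem tubeLocRing_isLocalRing : IsLocalRing ↥(tubeLocRing (E := E) 𝔪) :=
  IsLocalization.AtPrime.isLocalRing _ 𝔪

theorem tubeLocRing_isNoetherianRing : IsNoetherianRing ↥(tubeLocRing (E := E) 𝔪) :=
  IsLocalization.isNoetherianRing 𝔪.primeCompl _ inferInstance

theorem tubeLocRing_algebraMap_injective :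
    Function.Injective (algebraMap B ↥(tubeLocRing (E := E) 𝔪)) :=
  IsLocalization.injective _ 𝔪.primeCompl_le_nonZeroDivisors

variable {𝔪}

/-- The regular-point hypotheses for the local ring `B_𝔪`. -/
theorem tubeLoc_regular (π u : B) (hπ𝔪 : π ∈ 𝔪) (hu𝔪 : u ∈ 𝔪) (hπ0 : π ≠ 0)
    (hreg : ∀ z ∈ 𝔪, ∃ s, s ∉ 𝔪 ∧ ∃ b₁ b₂ : B, s * z = π * b₁ + u * b₂)
    (htf : ∀ (n : ℕ) (b : B), (∃ b' : B, u ^ n * b = π * b') →
      ∃ s, s ∉ 𝔪 ∧ ∃ b' : B, s * b = π * b') :
    haveI := tubeLocRing_isLocalRing (E := E) 𝔪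
    maximalIdeal ↥(tubeLocRing (E := E) 𝔪)
        = Ideal.span {algebraMap B ↥(tubeLocRing (E := E) 𝔪) π,
            algebraMap B ↥(tubeLocRing (E := E) 𝔪) u} ∧
      (Ideal.span {algebraMap B ↥(tubeLocRing (E := E) 𝔪) π}).IsPrime ∧
      algebraMap B ↥(tubeLocRing (E := E) 𝔪) π ≠ 0 ∧
      algebraMap B ↥(tubeLocRing (E := E) 𝔪) u ∉
        Ideal.span {algebraMap B ↥(tubeLocRing (E := E) 𝔪) π} := by
  haveI := tubeLocRing_isLocalRing (E := E) 𝔪
  haveI := tubeLocRing_isNoetherianRing (E := E) 𝔪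
  set R := ↥(tubeLocRing (E := E) 𝔪) with hR
  have hinj := tubeLocRing_algebraMap_injective (E := E) 𝔪
  have hmax : maximalIdeal R = Ideal.span {algebraMap B R π, algebraMap B R u} := by
    rw [← IsLocalization.AtPrime.map_eq_maximalIdeal 𝔪 R]
    apply le_antisymm
    · rw [Ideal.map_le_iff_le_comap]
      intro z hz
      rw [Ideal.mem_comap]
      obtain ⟨s, hs, b₁, b₂, hsz⟩ := hreg z hz
      have hsu : IsUnit (algebraMap B R s) :=
        IsLocalization.map_units R (⟨s, hs⟩ : 𝔪.primeCompl)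
      rw [← Ideal.mul_unit_mem_iff_mem _ hsu, ← map_mul, mul_comm, hsz, map_add, map_mul,
        map_mul]
      exact Ideal.add_mem _
        (Ideal.mul_mem_right _ _ (Ideal.subset_span (by simp)))
        (Ideal.mul_mem_right _ _ (Ideal.subset_span (by simp)))
    · rw [Ideal.span_le]
      rintro x (rfl | rfl)
      · exact Ideal.mem_map_of_mem _ hπ𝔪
      · exact Ideal.mem_map_of_mem _ hu𝔪
  have hnil : ∀ n : ℕ, algebraMap B R u ^ n ∉ Ideal.span {algebraMap B R π} := by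
    intro n hn
    rw [Ideal.mem_span_singleton'] at hn
    obtain ⟨r, hr⟩ := hn
    obtain ⟨b, ⟨s, hs⟩, rfl⟩ := IsLocalization.exists_mk'_eq 𝔪.primeCompl r
    have hspec := IsLocalization.mk'_spec R b (⟨s, hs⟩ : 𝔪.primeCompl)
    have h1 : algebraMap B R (u ^ n * s) = algebraMap B R (π * b) := by
      rw [map_mul, map_pow, ← hr, map_mul, ← hspec]
      ring
    have h2 : u ^ n * s = π * b := hinj h1
    obtain ⟨s', hs', b', hb'⟩ := htf n s ⟨b, h2⟩
    have h3 : s' * s ∈ 𝔪 := by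
      rw [hb']; exact Ideal.mul_mem_right _ _ hπ𝔪
    rcases h𝔪.mem_or_mem h3 with h4 | h4
    · exact hs' h4
    · exact hs h4
  obtain ⟨hprime, hu⟩ := tubeLoc_isPrime hmax hnil
  refine ⟨hmax, hprime, ?_, hu⟩
  rw [Ne, map_eq_zero_iff _ hinj]
  exact hπ0

/-- `B_𝔪 ⊆ V` for a valuation subring `V ⊇ B` centred in `𝔪`. -/
theorem tubeLoc_mem_valuationSubring (V : ValuationSubring E)
    (hBV : ∀ b : B, algebraMap B E b ∈ V)
    (hcen : ∀ b : B, algebraMap B E b ∈ V.nonunits → b ∈ 𝔪)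
    (r : ↥(tubeLocRing (E := E) 𝔪)) :
    algebraMap ↥(tubeLocRing (E := E) 𝔪) E r ∈ V := by
  obtain ⟨a, s, hs, hr⟩ := (mem_tubeLocRing_iff 𝔪 (r : E)).1 r.2
  have hr' : algebraMap ↥(tubeLocRing (E := E) 𝔪) E r = (r : E) := rfl
  rw [hr', hr]
  refine V.mul_mem _ _ (hBV a) ?_
  have h1 : algebraMap B E s ∉ V.nonunits := fun h => hs (hcen s h)
  rw [ValuationSubring.mem_nonunits_iff, not_lt] at h1
  have h2 := (V.valuation_le_one_iff _).2 (hBV s)
  have h3 : V.valuation (algebraMap B E s) = 1 := le_antisymm h2 h1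
  rw [← V.valuation_le_one_iff, map_inv₀, h3, inv_one]

/-- **Tube coordinate: uniformiser.** -/
theorem tubeLoc_isUniformiser (π u : B) (hπ𝔪 : π ∈ 𝔪) (hu𝔪 : u ∈ 𝔪) (hπ0 : π ≠ 0)
    (hreg : ∀ z ∈ 𝔪, ∃ s, s ∉ 𝔪 ∧ ∃ b₁ b₂ : B, s * z = π * b₁ + u * b₂)
    (htf : ∀ (n : ℕ) (b : B), (∃ b' : B, u ^ n * b = π * b') →
      ∃ s, s ∉ 𝔪 ∧ ∃ b' : B, s * b = π * b')
    (V : ValuationSubring E) (hBV : ∀ b : B, algebraMap B E b ∈ V)
    (hcen : ∀ b : B, algebraMap B E b ∈ V.nonunits → b ∈ 𝔪)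
    (hπV : algebraMap B E π ∉ V.nonunits) (c : B)
    (htV : algebraMap B E (u - π * c) ∈ V.nonunits) :
    ∀ z ∈ V.nonunits, z / algebraMap B E (u - π * c) ∈ V := by
  haveI := tubeLocRing_isLocalRing (E := E) 𝔪
  haveI := tubeLocRing_isNoetherianRing (E := E) 𝔪
  obtain ⟨hmax, hprime, hp, hu⟩ := tubeLoc_regular (E := E) π u hπ𝔪 hu𝔪 hπ0 hreg htf
  have key := regTube_isUniformiser (E := E) hmax hprime hp hu
    (algebraMap B ↥(tubeLocRing (E := E) 𝔪) c) V
    (tubeLoc_mem_valuationSubring V hBV hcen) hπV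
    (by rw [← map_mul, ← map_sub]; exact htV)
  intro z hz
  have := key z hz
  rwa [← map_mul, ← map_sub] at this

/-- **Tube coordinate: uniqueness of the place.** -/
theorem tubeLoc_unique (π u : B) (hπ𝔪 : π ∈ 𝔪) (hu𝔪 : u ∈ 𝔪) (hπ0 : π ≠ 0)
    (hreg : ∀ z ∈ 𝔪, ∃ s, s ∉ 𝔪 ∧ ∃ b₁ b₂ : B, s * z = π * b₁ + u * b₂)
    (htf : ∀ (n : ℕ) (b : B), (∃ b' : B, u ^ n * b = π * b') →
      ∃ s, s ∉ 𝔪 ∧ ∃ b' : B, s * b = π * b')
    (V V' : ValuationSubring E)
    (hBV : ∀ b : B, algebraMap B E b ∈ V) (hBV' : ∀ b : B, algebraMap B E b ∈ V')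
    (hcen : ∀ b : B, algebraMap B E b ∈ V.nonunits → b ∈ 𝔪)
    (hcen' : ∀ b : B, algebraMap B E b ∈ V'.nonunits → b ∈ 𝔪)
    (hπV : algebraMap B E π ∉ V.nonunits) (hπV' : algebraMap B E π ∉ V'.nonunits) (c : B)
    (htV : algebraMap B E (u - π * c) ∈ V.nonunits)
    (htV' : algebraMap B E (u - π * c) ∈ V'.nonunits) : V = V' := by
  haveI := tubeLocRing_isLocalRing (E := E) 𝔪
  haveI := tubeLocRing_isNoetherianRing (E := E) 𝔪
  obtain ⟨hmax, hprime, hp, hu⟩ := tubeLoc_regular (E := E) π u hπ𝔪 hu𝔪 hπ0 hreg htf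
  exact regTube_unique (E := E) hmax hprime hp hu
    (algebraMap B ↥(tubeLocRing (E := E) 𝔪) c) V V'
    (tubeLoc_mem_valuationSubring V hBV hcen) (tubeLoc_mem_valuationSubring V' hBV' hcen')
    hπV hπV'
    (by rw [← map_mul, ← map_sub]; exact htV) (by rw [← map_mul, ← map_sub]; exact htV')

end Loc

end Fermat.Agent.H41.SS

end
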