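/-
P-SS / SSH-7 (helper41), block (C2'): the tube coordinate at a regular point in the chart
language of `H22.KL` (`chartClosure`, `H45.CentredAt`, `IsUniformiser`).

* `chartClosure_isNoetherianRing`, `chartClosure_isFractionRing` : `B(y)` is a noetherian domain
  with fraction field `E` (from `H85.chartBasics`).
* `IsRegularAt A E ϖ y 𝔪 u` : the point `𝔪` of the chart `y` is regular with parameters
  `(ϖ, u)` : (REG) `𝔪 B_𝔪 = (ϖ, u)` and (TF) `u` is not nilpotent modulo `ϖ B_𝔪`.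
* `IsTubeCoordAt A E ϖ y 𝔪 u` : **the output shape** : for every place `V` centred at `𝔪` and
  every `c : A` with `u - ϖ c ∈ 𝔪_V`, the function `u - ϖ c` is a uniformiser of `V`, and `V`
  is the only place centred at `𝔪` at which `u - ϖ c` vanishes.
* `isTubeCoordAt_of_isRegularAt` : regular ⟹ tube coordinate.
* `isRegularAt_of_etale` : the étale points of a chart with a good basis are regular with
  parameters `(ϖ, g(x))`.
-/
import Mathlib
import Fermat.Agent.H41.SS.TubeLoc
import Fermat.Agent.H41.SS.EtaleChart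
import Fermat.Agent.H31.SS.Separate

set_option autoImplicit false
set_option linter.style.haveILetI false
set_option linter.unusedSectionVars false

noncomputable section

open Polynomial

namespace Fermat.Agent.H41.SS

open Fermat.Agent.H22.KL Fermat.Agent.H45
open Fermat.Agent.H67.KLConn (PiDvd)

section Basics

variable (A : Type) [CommRing A] [IsDomain A] [IsDiscreteValuationRing A]
variable (E : Type) [Field E] [Algebra A E] [CharZero E]

/-- `B(y)` is a noetherian ring. -/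
theorem chartClosure_isNoetherianRing
    (hinj : Function.Injective (algebraMap A E))
    (ϖ : A) (hϖ : Irreducible ϖ) (y : E) (hy : Transcendental A y)
    (hfd : ∃ n : ℕ, Nonempty (Module.Basis (Fin n) (chartField A E y) E)) :
    IsNoetherianRing ↥(chartClosure A E y) := by
  classical
  obtain ⟨⟨s, hs, hspan⟩, -, -, -⟩ := Fermat.Agent.H85.chartBasics A E hinj ϖ hϖ y hy hfd
  have hyB : y ∈ chartClosure A E y := by
    have := etale_aeval_mem_chartClosure A E y (X : A[X])
    rwa [aeval_X] at this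
  have hfg : (chartClosure A E y).FG := by
    refine ⟨insert y s, le_antisymm ?_ ?_⟩
    · refine Algebra.adjoin_le ?_
      intro z hz
      rw [Finset.coe_insert, Set.mem_insert_iff] at hz
      rcases hz with rfl | hz
      · exact hyB
      · exact hs z hz
    · intro r hr
      obtain ⟨p, rfl⟩ := hspan r hr
      refine Subalgebra.sum_mem _ fun b hb => Subalgebra.mul_mem _ ?_ ?_
      · have h1 : aeval y (p b) ∈ Algebra.adjoin A ({y} : Set E) := by
          rw [Algebra.adjoin_singleton_eq_range_aeval]; exact ⟨p b, rfl⟩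
        exact Algebra.adjoin_mono (by simp) h1
      · exact Algebra.subset_adjoin (by simp [hb])
  haveI : Algebra.FiniteType A ↥(chartClosure A E y) :=
    (Subalgebra.fg_iff_finiteType _).1 hfg
  exact Algebra.FiniteType.isNoetherianRing A _

/-- `E` is the fraction field of `B(y)`. -/
theorem chartClosure_isFractionRing (y : E) (hy : Transcendental A y)
    (hfd : ∃ n : ℕ, Nonempty (Module.Basis (Fin n) (chartField A E y) E)) :
    IsFractionRing ↥(chartClosure A E y) E := by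
  letI := Fermat.Agent.H91.KLNorm.polyAlgE A E y
  letI := Fermat.Agent.H91.KLNorm.polyAlgK A E y
  haveI := Fermat.Agent.H91.KLNorm.polyAlg_isScalarTower A E y
  haveI hFR := Fermat.Agent.H91.KLNorm.polyAlg_isFractionRing A E hy
  haveI : FiniteDimensional ↥(chartField A E y) E := by
    obtain ⟨n, ⟨b⟩⟩ := hfd
    exact Module.Finite.of_basis b
  refine IsFractionRing.of_field ↥(chartClosure A E y) E fun z => ?_
  obtain ⟨h, hh0, hint⟩ := Fermat.Agent.H91.exists_ne_zero_isIntegral_smul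
    (R := A[X]) (K := ↥(chartField A E y)) z
  have hhB : aeval y h ∈ chartClosure A E y := etale_aeval_mem_chartClosure A E y h
  have hzB : aeval y h * z ∈ chartClosure A E y := by
    rw [Fermat.Agent.H87.KL.mem_chartClosure_iff]
    rw [Algebra.smul_def] at hint
    exact hint
  have hh0' : aeval y h ≠ 0 := by
    intro h0
    exact hh0 ((transcendental_iff_injective.1 hy) (by rw [h0, map_zero]))
  refine ⟨⟨aeval y h * z, hzB⟩, ⟨aeval y h, hhB⟩, ?_⟩
  show z = (aeval y h * z) / aeval y h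
  field_simp

end Basics

section Tube

variable (A : Type) [CommRing A] [IsDomain A] [IsDiscreteValuationRing A]
variable (E : Type) [Field E] [Algebra A E] [CharZero E]

/-- The point `𝔪` of the chart `y` is **regular with parameters `(ϖ, u)`**:
(REG) `𝔪 B_𝔪 = (ϖ, u) B_𝔪`, and (TF) `u` is not nilpotent modulo `ϖ B_𝔪`. -/
def IsRegularAt (ϖ : A) (y : E) (𝔪 : Ideal ↥(chartClosure A E y))
    (u : ↥(chartClosure A E y)) : Prop :=
  u ∈ 𝔪 ∧
  (∀ z ∈ 𝔪, ∃ s, s ∉ 𝔪 ∧ ∃ b₁ b₂ : ↥(chartClosure A E y),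
    s * z = algebraMap A ↥(chartClosure A E y) ϖ * b₁ + u * b₂) ∧
  (∀ (n : ℕ) (b : ↥(chartClosure A E y)),
    (∃ b' : ↥(chartClosure A E y), u ^ n * b = algebraMap A ↥(chartClosure A E y) ϖ * b') →
    ∃ s, s ∉ 𝔪 ∧ ∃ b' : ↥(chartClosure A E y),
      s * b = algebraMap A ↥(chartClosure A E y) ϖ * b')

/-- **Tube coordinate at `𝔪`** (output shape of SSH-7): for every place `V` centred at `𝔪` and
every `c : A` with `u - ϖ c ∈ 𝔪_V`, the function `u - ϖ c` is a uniformiser of `V`, and `V` is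
the only place centred at `𝔪` at which `u - ϖ c` vanishes. -/
def IsTubeCoordAt (ϖ : A) (y : E) (𝔪 : Ideal ↥(chartClosure A E y)) (u : E) : Prop :=
  ∀ V : ValuationSubring E, CentredAt A E y 𝔪 V →
    ∀ c : A, u - algebraMap A E (ϖ * c) ∈ V.nonunits →
      IsUniformiser E V (u - algebraMap A E (ϖ * c)) ∧
      ∀ V' : ValuationSubring E, CentredAt A E y 𝔪 V' →
        u - algebraMap A E (ϖ * c) ∈ V'.nonunits → V' = V

variable {A E}

theorem pi_not_mem_nonunits_of_isPlace (hinj : Function.Injective (algebraMap A E))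
    {V : ValuationSubring E} (hV : IsPlace A E V)
    {ϖ : A} (hϖ0 : ϖ ≠ 0) : algebraMap A E ϖ ∉ V.nonunits := by
  intro h
  obtain ⟨-, h2⟩ := hV.2.2 ϖ hϖ0
  rw [ValuationSubring.mem_nonunits_iff] at h
  rw [← V.valuation_le_one_iff, map_inv₀] at h2
  have hx0 : algebraMap A E ϖ ≠ 0 := fun h0 => hϖ0 (hinj (by rw [h0, map_zero]))
  have h3 : 0 < V.valuation (algebraMap A E ϖ) :=
    lt_of_le_of_ne zero_le (Ne.symm ((_root_.map_ne_zero _).2 hx0))
  exact absurd ((one_lt_inv₀ h3).2 h) (not_lt.2 h2)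

/-- **Regular point ⟹ tube coordinate.** -/
theorem isTubeCoordAt_of_isRegularAt
    (hinj : Function.Injective (algebraMap A E))
    (ϖ : A) (hϖ : Irreducible ϖ) (y : E) (hy : Transcendental A y)
    (hfd : ∃ n : ℕ, Nonempty (Module.Basis (Fin n) (chartField A E y) E))
    (𝔪 : Ideal ↥(chartClosure A E y)) (h𝔪 : 𝔪.IsPrime)
    (hϖ𝔪 : algebraMap A ↥(chartClosure A E y) ϖ ∈ 𝔪)
    (u : ↥(chartClosure A E y)) (hreg : IsRegularAt A E ϖ y 𝔪 u) :
    IsTubeCoordAt A E ϖ y 𝔪 (u : E) := by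
  haveI := chartClosure_isNoetherianRing A E hinj ϖ hϖ y hy hfd
  haveI := chartClosure_isFractionRing A E y hy hfd
  obtain ⟨hu𝔪, hREG, hTF⟩ := hreg
  have hϖ0 : algebraMap A ↥(chartClosure A E y) ϖ ≠ 0 := by
    intro h0
    have h1 := congrArg (Subtype.val) h0
    exact hϖ.ne_zero (hinj (by rw [map_zero]; exact h1))
  have hBV : ∀ V : ValuationSubring E, CentredAt A E y 𝔪 V →
      ∀ b : ↥(chartClosure A E y), algebraMap ↥(chartClosure A E y) E b ∈ V :=
    fun V hV b => Fermat.Agent.H31.SS.mem_of_mem_chartClosure hV.1 b.2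
  have hcen : ∀ V : ValuationSubring E, CentredAt A E y 𝔪 V →
      ∀ b : ↥(chartClosure A E y), algebraMap ↥(chartClosure A E y) E b ∈ V.nonunits → b ∈ 𝔪 :=
    fun V hV b hb => hV.2 b hb
  have hπV : ∀ V : ValuationSubring E, CentredAt A E y 𝔪 V →
      algebraMap ↥(chartClosure A E y) E (algebraMap A ↥(chartClosure A E y) ϖ) ∉ V.nonunits :=
    fun V hV => pi_not_mem_nonunits_of_isPlace hinj hV.1.1 hϖ.ne_zero
  have hcoe : ∀ c : A, algebraMap ↥(chartClosure A E y) E
      (u - algebraMap A ↥(chartClosure A E y) ϖ * algebraMap A ↥(chartClosure A E y) c)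
        = (u : E) - algebraMap A E (ϖ * c) := by
    intro c
    rw [map_mul]
    rfl
  intro V hV c htV
  have htV' : algebraMap ↥(chartClosure A E y) E
      (u - algebraMap A ↥(chartClosure A E y) ϖ * algebraMap A ↥(chartClosure A E y) c)
        ∈ V.nonunits := by rw [hcoe]; exact htV
  refine ⟨⟨?_, htV, ?_⟩, ?_⟩
  · -- `u - ϖ c ≠ 0`
    intro h0
    have h1 : u ^ 1 * 1 = algebraMap A ↥(chartClosure A E y) ϖ *
        algebraMap A ↥(chartClosure A E y) c := by
      apply Subtype.ext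
      rw [pow_one, mul_one]
      have := sub_eq_zero.1 h0
      rw [this, map_mul]
      rfl
    obtain ⟨s, hs, b', hb'⟩ := hTF 1 1 ⟨_, h1⟩
    apply hs
    rw [mul_one] at hb'
    rw [hb']
    exact Ideal.mul_mem_right _ _ hϖ𝔪
  · intro z hz
    have := tubeLoc_isUniformiser (E := E) (𝔪 := 𝔪) _ u hϖ𝔪 hu𝔪 hϖ0 hREG hTF V (hBV V hV)
      (hcen V hV) (hπV V hV) (algebraMap A ↥(chartClosure A E y) c) htV' z hz
    rwa [hcoe] at this
  · intro V' hV' htV''
    have htV3 : algebraMap ↥(chartClosure A E y) E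
        (u - algebraMap A ↥(chartClosure A E y) ϖ * algebraMap A ↥(chartClosure A E y) c)
          ∈ V'.nonunits := by rw [hcoe]; exact htV''
    exact tubeLoc_unique (E := E) (𝔪 := 𝔪) _ u hϖ𝔪 hu𝔪 hϖ0 hREG hTF V' V (hBV V' hV')
      (hBV V hV) (hcen V' hV') (hcen V hV) (hπV V' hV') (hπV V hV)
      (algebraMap A ↥(chartClosure A E y) c) htV3 htV'

/-- `ϖ` does not divide a monic polynomial. -/
theorem not_C_dvd_of_monic {ϖ : A} (hϖ : Irreducible ϖ) {g : A[X]} (hg : g.Monic) :
    ¬ (C ϖ ∣ g) := by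
  rintro ⟨q, hq⟩
  have h1 := congrArg (fun p => p.coeff g.natDegree) hq
  simp only [coeff_C_mul] at h1
  rw [hg.coeff_natDegree] at h1
  exact hϖ.not_isUnit (IsUnit.of_mul_eq_one _ h1.symm)

/-- **Étale points are regular**: in a chart with a good basis, at a maximal ideal `𝔪` over
`(ϖ, g(x))` with `UnramifiedNear` the point `𝔪` is regular with parameters `(ϖ, g(x))`. -/
theorem isRegularAt_of_etale
    (hinj : Function.Injective (algebraMap A E))
    (ϖ : A) (hϖ : Irreducible ϖ) (x : E) (hx : Transcendental A x)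
    (hGB : Fermat.Agent.H22.KL.GoodBasis A E ϖ x)
    (g : A[X]) (hgm : g.Monic) (hgirr : Irreducible (g.map (IsLocalRing.residue A)))
    (hUN : UnramifiedNear A E ϖ x g)
    (𝔪 : Ideal ↥(chartClosure A E x)) (h𝔪 : 𝔪.IsMaximal)
    (hg𝔪 : (⟨aeval x g, etale_aeval_mem_chartClosure A E x g⟩ : ↥(chartClosure A E x)) ∈ 𝔪) :
    IsRegularAt A E ϖ x 𝔪 ⟨aeval x g, etale_aeval_mem_chartClosure A E x g⟩ := by
  refine ⟨hg𝔪, ?_, ?_⟩
  · intro z hz
    obtain ⟨s, hs, b₁, hb₁, b₂, hb₂, h⟩ :=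
      etale_point_chart A E hinj ϖ hϖ x hx hGB g hgm hgirr hUN 𝔪 h𝔪 z hz
    refine ⟨s, hs, ⟨b₁, hb₁⟩, ⟨b₂, hb₂⟩, ?_⟩
    apply Subtype.ext
    exact h
  · intro n b hb
    obtain ⟨b', hb'⟩ := hb
    refine ⟨1, fun h1 => h𝔪.ne_top ((Ideal.eq_top_iff_one _).2 h1), ?_⟩
    have hE : aeval x (g ^ n) * (b : E) = algebraMap A E ϖ * (b' : E) := by
      have := congrArg Subtype.val hb'
      rw [map_pow]
      exact this
    have hu0 : aeval x (g ^ n) ≠ 0 := by
      intro h0
      have h1 : g ^ n = 0 := (transcendental_iff_injective.1 hx) (by rw [h0, map_zero])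
      exact (hgm.pow n).ne_zero h1
    have hGC : (b' : E) / aeval x (g ^ n) ∈ gaussClosure A E ϖ x := by
      refine ⟨aeval x (g ^ n), Fermat.Agent.H87.KL.aeval_mem_chartRing x _, ?_, ?_⟩
      · rw [Fermat.Agent.H87.KL.piDvd_aeval_iff hx]
        exact not_C_dvd_of_monic hϖ (hgm.pow n)
      · rw [mul_div_cancel₀ _ hu0]
        exact b'.2
    have hdvd : PiDvdSet A E ϖ (gaussClosure A E ϖ x) (b : E) := by
      refine ⟨_, hGC, ?_⟩
      field_simp
      rw [mul_comm]
      exact hE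
    obtain ⟨r, hr, hbr⟩ := Fermat.Agent.H34.lemmaT A E hinj ϖ hϖ x hx (b : E) b.2 hdvd
    refine ⟨⟨r, hr⟩, ?_⟩
    apply Subtype.ext
    rw [one_mul, hbr, pow_one, Algebra.smul_def]
    rfl

/-- **Tube coordinate at an étale point** (level-`M'` tube, `(LOC-a)` of SSH-9): in a chart with
a good basis, at a maximal ideal `𝔪 ∋ ϖ, g(x)` with `UnramifiedNear`, the function `g(x)` is a
tube coordinate.  For `g = X - C a₀` this is: for every place `V` centred at `𝔪` and every
`a = a₀ + ϖ c`, if `x - a ∈ 𝔪_V` then `x - a` is a uniformiser of `V` and `V` is the only place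
centred at `𝔪` with `x(V) = a`. -/
theorem isTubeCoordAt_of_etale
    (hinj : Function.Injective (algebraMap A E))
    (ϖ : A) (hϖ : Irreducible ϖ) (x : E) (hx : Transcendental A x)
    (hGB : Fermat.Agent.H22.KL.GoodBasis A E ϖ x)
    (g : A[X]) (hgm : g.Monic) (hgirr : Irreducible (g.map (IsLocalRing.residue A)))
    (hUN : UnramifiedNear A E ϖ x g)
    (𝔪 : Ideal ↥(chartClosure A E x)) (h𝔪 : 𝔪.IsMaximal)
    (hϖ𝔪 : algebraMap A ↥(chartClosure A E x) ϖ ∈ 𝔪)
    (hg𝔪 : (⟨aeval x g, etale_aeval_mem_chartClosure A E x g⟩ : ↥(chartClosure A E x)) ∈ 𝔪) :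
    IsTubeCoordAt A E ϖ x 𝔪 (aeval x g) := by
  have hfd : ∃ n : ℕ, Nonempty (Module.Basis (Fin n) (chartField A E x) E) := by
    obtain ⟨n, b, -, -⟩ := hGB
    exact ⟨n, ⟨b⟩⟩
  exact isTubeCoordAt_of_isRegularAt hinj ϖ hϖ x hx hfd 𝔪 h𝔪.isPrime hϖ𝔪 _
    (isRegularAt_of_etale hinj ϖ hϖ x hx hGB g hgm hgirr hUN 𝔪 h𝔪 hg𝔪)

end Tube


end Fermat.Agent.H41.SS

end
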