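/-
P-SS / SSH-7 ORDINARY POINTS (row 648, helper41): the two MODEL INPUTS of the row, exact Lean
form.

Level `M q`, `q` prime, `q ∤ M`; `E = ModelField K₁ (M q)`, `E' = ModelField K₁ M ⊆ E`
(`heckeAlphaBar` is the inclusion); `V_∞(E)`, `V_∞(E')` the Gauss valuation rings of
`q`-expansions (`Fermat.Agent.H7.SS.InV`, `InM`, `gaussVal`).

* `ModelFracStatement M q` (FRAC): the residue field of `V_∞(E)` is the residue field of
  `V_∞(E')`: for `z ∈ V_∞(E)` there is `z' ∈ V_∞(E')` with `z - z' ∈ 𝔪_∞(E)`.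
  (The component `∞` of the special fibre of `X₀(M q)` is birational to the special fibre of
  `X₀(M)`; residue degree `f(V_∞ / V'_∞) = 1`.)
* `ModelLevelRegStatement M q x₀ R` (REG'): level `M` is regular at every closed point of the
  special fibre of the chart `x`: every maximal ideal `𝔫 ∋ ϖ` of `B'(x)` is `(ϖ, U)` locally.
  (`R` is chosen by the provider; the consumer supplies a primitive `R`-th root of unity.)

Main theorem of the row (module `Fermat.Agent.H41.SS.OrdFinal`):
`ssPlaceGenOrd : ModelLevelRegStatement M q jq R → ModelFracStatement M q →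
  H45.SSPlaceGenOrdStatement M q jq R`.
-/
import Mathlib
import Fermat.Agent.H45.SS.Model
import Fermat.Agent.H7.SS.GaussSD

set_option autoImplicit false
set_option linter.style.haveILetI false
set_option linter.unusedSectionVars false

noncomputable section

namespace Fermat.Agent.H41.SS

open Polynomial ModularCurve AlgebraicCurve
open Fermat.Agent.H22.KL
open Fermat.Agent.H7.SS

/-- **FRAC** (model input of SSH-7 / SSH-8): the residue field of the Gauss valuation `V_∞` of
level `M q` equals the residue field of the Gauss valuation of level `M`: every `z ∈ V_∞(E)` is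
congruent modulo `𝔪_∞(E)` to some `z' ∈ V_∞(E')`.

(Proof sketch: `u' = j - j_q ^ q` is a unit of `V_∞` and lies in `𝔪_0`; for `N` large
`u' ^ N z ∈ V_∞ ∩ V_0 = C(x)`; expand it in the two-sided basis `u' θ ^ i`, `u θ_q ^ i j_q ^ m`
(`u = j_q - j ^ q ∈ 𝔪_∞`) with coefficients in `A₀[x]_(ϖ)`; modulo `𝔪_∞` only the terms
`u' θ ^ i` survive and `u' ≡ j - j ^ (q ^ 2)`.) -/
def ModelFracStatement (M q : ℕ) [NeZero M] [NeZero q] : Prop :=
  ∀ (K₁ : Type) [Field K₁] [Algebra ℚ K₁] [FiniteDimensional ℚ K₁]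
    (A₀ : Type) [CommRing A₀] [IsDomain A₀] [IsDiscreteValuationRing A₀]
    [Algebra A₀ K₁] [IsFractionRing A₀ K₁],
    ¬ IsUnit ((q : ℕ) : A₀) →
    ∀ z : LaurentSeries K₁,
      InV (A₀ := A₀) (laurentBaseChange K₁ (modularFunctionFieldFull (M * q))) z →
      ∃ z' : LaurentSeries K₁,
        InV (A₀ := A₀) (laurentBaseChange K₁ (modularFunctionFieldFull M)) z' ∧
        InM (A₀ := A₀) (laurentBaseChange K₁ (modularFunctionFieldFull (M * q))) (z - z')

/-- **REG'** (model input of SSH-7): level `M` is regular at the closed points of the special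
fibre: every maximal ideal `𝔫 ∋ ϖ` of `B'(x)` (chart `x` of level `M`, `q ∤ M`) is generated by
`ϖ` and one more element `U` after localisation at `𝔫`. -/
def ModelLevelRegStatement (M q : ℕ) [NeZero M] (x₀ : LaurentSeries ℚ) (R : ℕ) : Prop :=
  ∀ (K₁ : Type) [Field K₁] [Algebra ℚ K₁] [FiniteDimensional ℚ K₁]
    (A₀ : Type) [CommRing A₀] [IsDomain A₀] [IsDiscreteValuationRing A₀]
    [Algebra A₀ K₁] [IsFractionRing A₀ K₁]
    [Algebra A₀ (ModelField K₁ M)] [IsScalarTower A₀ K₁ (ModelField K₁ M)],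
    ¬ IsUnit ((q : ℕ) : A₀) →
    (∃ ζ : K₁, IsPrimitiveRoot ζ R) →
    ∀ (ϖ : A₀), Irreducible ϖ →
    ∀ (x : ModelField K₁ M), (x : LaurentSeries K₁) = coeffEmb K₁ x₀ →
    ∀ 𝔫 : Ideal (chartClosure A₀ (ModelField K₁ M) x), 𝔫.IsMaximal →
      algebraMap A₀ (chartClosure A₀ (ModelField K₁ M) x) ϖ ∈ 𝔫 →
      ∃ U : chartClosure A₀ (ModelField K₁ M) x, U ∈ 𝔫 ∧
        ∀ z ∈ 𝔫, ∃ s, s ∉ 𝔫 ∧ ∃ b₁ b₂ : chartClosure A₀ (ModelField K₁ M) x,
          s * z = algebraMap A₀ (chartClosure A₀ (ModelField K₁ M) x) ϖ * b₁ + U * b₂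

end Fermat.Agent.H41.SS

end
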