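/-
P-SS / SSH-7 (helper41): adapters around the Gauss valuation `V_∞` of `q`-expansions
(`Fermat.Agent.H7.SS.InV`, `InM`, `gaussVal`) used by the ordinary point theorem.

* `inV_of_quot`, `inM_of_quot`, `InM.exists_quot_pi` : quotient forms (the shapes of
  `H82.SS.ModelGaussConverseStatement` and `H45.SSMaxInfty`) versus `InV`, `InM`.
* `InV.mem`, `inV_of_le`, `inM_of_le`, `inV_of_inV_of_mem`, `inM_of_inM_of_mem` :
  comparison of two levels `E' ≤ E`.
* `gaussValM K₁ A₀ N` : the Gauss valuation subring of `ModelField K₁ N`;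
  `ssMaxInfty_iff` : `H45.SSMaxInfty` is its maximal ideal.
* `valuationSubring_ge_chartClosure` : a valuation subring containing `A` and `x` contains
  `B(x)`.
-/
import Mathlib
import Fermat.Agent.H45.SS.Model
import Fermat.Agent.H7.SS.GaussSD
import Fermat.Agent.H31.SS.Separate

set_option autoImplicit false
set_option linter.style.haveILetI false
set_option linter.unusedSectionVars false

noncomputable section

namespace Fermat.Agent.H41.SS

open Polynomial ModularCurve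
open Fermat.Agent.H22.KL Fermat.Agent.H45 Fermat.Agent.H7.SS Fermat.Agent.H48.QExp
open Fermat.Agent.H87.KL (evX IntX)

section Generic

variable {K₁ : Type} [Field K₁] {A₀ : Type} [CommRing A₀] [IsDomain A₀]
  [IsDiscreteValuationRing A₀] [Algebra A₀ K₁] [IsFractionRing A₀ K₁]
variable (E : IntermediateField K₁ (LaurentSeries K₁))

/-- Quotient form `⟹ InV`. -/
theorem inV_of_quot {z a b : LaurentSeries K₁} (ha : a ∈ E) (hb : b ∈ E)
    (hai : ∀ n : ℤ, a.coeff n ∈ (algebraMap A₀ K₁).range)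
    (hbi : ∀ n : ℤ, b.coeff n ∈ (algebraMap A₀ K₁).range)
    (hbu : ∃ (n : ℤ) (c : A₀), IsUnit c ∧ algebraMap A₀ K₁ c = b.coeff n)
    (h : z * b = a) : InV (A₀ := A₀) E z := by
  have hφ : Function.Injective (algebraMap A₀ K₁) := IsFractionRing.injective A₀ K₁
  obtain ⟨a₀, ha₀⟩ := exists_coeffMap_eq (algebraMap A₀ K₁) hφ a hai
  obtain ⟨b₀, hb₀⟩ := exists_coeffMap_eq (algebraMap A₀ K₁) hφ b hbi
  have ea : gIota K₁ A₀ a₀ = a := ha₀
  have eb : gIota K₁ A₀ b₀ = b := hb₀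
  refine ⟨a₀, b₀, by rw [ea]; exact ha, by rw [eb]; exact hb, ?_, by rw [ea, eb]; exact h⟩
  obtain ⟨n, c, hc, hcn⟩ := hbu
  apply coeffMap_ne_zero_of_coeff _ b₀ n
  have hcoe : b₀.coeff n = c := hφ (by rw [← coeffMap_coeff (algebraMap A₀ K₁) b₀ n, hb₀, hcn])
  rw [hcoe, Ne, IsLocalRing.residue_eq_zero_iff]
  exact fun hmem => (IsLocalRing.mem_maximalIdeal c).1 hmem hc

/-- Quotient form `⟹ InM`. -/
theorem inM_of_quot {ϖ : A₀} (hϖ : Irreducible ϖ) {z a b : LaurentSeries K₁}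
    (ha : a ∈ E) (hb : b ∈ E)
    (hai : ∀ n : ℤ, ∃ c : A₀, algebraMap A₀ K₁ (ϖ * c) = a.coeff n)
    (hbi : ∀ n : ℤ, b.coeff n ∈ (algebraMap A₀ K₁).range)
    (hbu : ∃ (n : ℤ) (c : A₀), IsUnit c ∧ algebraMap A₀ K₁ c = b.coeff n)
    (h : z * b = a) : InM (A₀ := A₀) E z := by
  have hφ : Function.Injective (algebraMap A₀ K₁) := IsFractionRing.injective A₀ K₁
  obtain ⟨a₀, ha₀⟩ := exists_coeffMap_eq (algebraMap A₀ K₁) hφ a
    (fun n => by obtain ⟨c, hc⟩ := hai n; exact ⟨ϖ * c, hc⟩)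
  obtain ⟨b₀, hb₀⟩ := exists_coeffMap_eq (algebraMap A₀ K₁) hφ b hbi
  have ea : gIota K₁ A₀ a₀ = a := ha₀
  have eb : gIota K₁ A₀ b₀ = b := hb₀
  refine ⟨a₀, b₀, by rw [ea]; exact ha, by rw [eb]; exact hb, ?_, ?_, by rw [ea, eb]; exact h⟩
  · ext n
    rw [coeffMap_coeff, HahnSeries.coeff_zero, IsLocalRing.residue_eq_zero_iff,
      hϖ.maximalIdeal_eq, Ideal.mem_span_singleton]
    obtain ⟨c, hc⟩ := hai n
    refine ⟨c, hφ ?_⟩
    rw [hc, ← ha₀, coeffMap_coeff]
  · obtain ⟨n, c, hc, hcn⟩ := hbu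
    apply coeffMap_ne_zero_of_coeff _ b₀ n
    have hcoe : b₀.coeff n = c :=
      hφ (by rw [← coeffMap_coeff (algebraMap A₀ K₁) b₀ n, hb₀, hcn])
    rw [hcoe, Ne, IsLocalRing.residue_eq_zero_iff]
    exact fun hmem => (IsLocalRing.mem_maximalIdeal c).1 hmem hc

/-- `InM ⟹` quotient form with numerator divisible by `ϖ`. -/
theorem InM.exists_quot_pi {ϖ : A₀} (hϖ : Irreducible ϖ) {z : E}
    (h : InM (A₀ := A₀) E (z : LaurentSeries K₁)) :
    ∃ a b : E, (∀ n : ℤ, ∃ c : A₀, algebraMap A₀ K₁ (ϖ * c) = (a : LaurentSeries K₁).coeff n) ∧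
      (∀ n : ℤ, (b : LaurentSeries K₁).coeff n ∈ (algebraMap A₀ K₁).range) ∧
      (∃ (n : ℤ) (c : A₀), IsUnit c ∧ algebraMap A₀ K₁ c = (b : LaurentSeries K₁).coeff n) ∧
      z * b = a := by
  obtain ⟨a, b, ha, hb, hra, hrb, h⟩ := h
  refine ⟨⟨_, ha⟩, ⟨_, hb⟩, fun n => ?_,
    fun n => ⟨b.coeff n, (coeffMap_coeff _ _ _).symm⟩, ?_, Subtype.ext h⟩
  · have h1 : IsLocalRing.residue A₀ (a.coeff n) = 0 := by
      rw [← coeffMap_coeff, show coeffMap (IsLocalRing.residue A₀) a = 0 from hra,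
        HahnSeries.coeff_zero]
    rw [IsLocalRing.residue_eq_zero_iff, hϖ.maximalIdeal_eq, Ideal.mem_span_singleton] at h1
    obtain ⟨t, ht⟩ := h1
    exact ⟨t, by rw [← ht]; exact (coeffMap_coeff _ _ _).symm⟩
  · by_contra hcon
    push Not at hcon
    apply hrb
    ext n
    rw [coeffMap_coeff, HahnSeries.coeff_zero, IsLocalRing.residue_eq_zero_iff,
      IsLocalRing.mem_maximalIdeal]
    intro hu
    exact hcon n (b.coeff n) hu (coeffMap_coeff _ _ _).symm

variable {E}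

theorem InV.mem {z : LaurentSeries K₁} (h : InV (A₀ := A₀) E z) : z ∈ E := by
  obtain ⟨a, b, ha, hb, hrb, h⟩ := h
  have hb0 := gIota_ne_zero_of_gRho (K₁ := K₁) hrb
  have e : z = gIota K₁ A₀ a / gIota K₁ A₀ b := by
    rw [eq_div_iff hb0]
    exact h
  rw [e]
  exact E.div_mem ha hb

theorem inV_of_le {E' : IntermediateField K₁ (LaurentSeries K₁)} (hle : E' ≤ E)
    {z : LaurentSeries K₁} (h : InV (A₀ := A₀) E' z) : InV (A₀ := A₀) E z := by
  obtain ⟨a, b, ha, hb, hrb, h⟩ := h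
  exact ⟨a, b, hle ha, hle hb, hrb, h⟩

theorem inM_of_le {E' : IntermediateField K₁ (LaurentSeries K₁)} (hle : E' ≤ E)
    {z : LaurentSeries K₁} (h : InM (A₀ := A₀) E' z) : InM (A₀ := A₀) E z := by
  obtain ⟨a, b, ha, hb, hra, hrb, h⟩ := h
  exact ⟨a, b, hle ha, hle hb, hra, hrb, h⟩

/-- The Gauss valuation ring of the smaller field is the trace of the Gauss valuation ring of
the bigger field. -/
theorem inV_of_inV_of_mem {E' : IntermediateField K₁ (LaurentSeries K₁)} (hG' : HasGNF A₀ E')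
    (hle : E' ≤ E) {z : LaurentSeries K₁} (hz : z ∈ E') (h : InV (A₀ := A₀) E z) :
    InV (A₀ := A₀) E' z := by
  by_cases hz0 : z = 0
  · rw [hz0]
    exact inV_zero E'
  rcases inM_or_inV_inv E' hG' (E'.inv_mem hz) (inv_ne_zero hz0) with h1 | h1
  · exfalso
    have h2 := InM.not_inV_inv E (inv_ne_zero hz0) (inM_of_le hle h1)
    rw [inv_inv] at h2
    exact h2 h
  · rwa [inv_inv] at h1

/-- The same for the maximal ideals. -/
theorem inM_of_inM_of_mem {E' : IntermediateField K₁ (LaurentSeries K₁)} (hG' : HasGNF A₀ E')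
    (hle : E' ≤ E) {z : LaurentSeries K₁} (hz : z ∈ E') (h : InM (A₀ := A₀) E z) :
    InM (A₀ := A₀) E' z := by
  by_cases hz0 : z = 0
  · rw [hz0]
    exact inM_zero E'
  rcases inM_or_inV_inv E' hG' hz hz0 with h1 | h1
  · exact h1
  · exact absurd (inV_of_le hle h1) (InM.not_inV_inv E hz0 h)

end Generic

section Chart

variable {A : Type} [CommRing A] {E : Type} [Field E] [Algebra A E]

/-- A valuation subring containing `A` and `x` contains `B(x)`. -/
theorem valuationSubring_ge_chartClosure {x : E} (V : ValuationSubring E)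
    (hA : ∀ a : A, algebraMap A E a ∈ V) (hx : x ∈ V) {s : E}
    (hs : s ∈ chartClosure A E x) : s ∈ V := by
  have haeval : ∀ H : A[X], aeval x H ∈ V := by
    intro H
    rw [aeval_eq_sum_range]
    refine V.toSubring.sum_mem fun i _ => ?_
    rw [Algebra.smul_def]
    exact V.mul_mem _ _ (hA _) (V.toSubring.pow_mem hx i)
  rw [Fermat.Agent.H87.KL.mem_chartClosure_iff] at hs
  obtain ⟨p, hp, hps⟩ := hs
  by_contra hsV
  have hlt : 1 < V.valuation s := by
    rw [← not_le]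
    exact fun h => hsV ((V.valuation_le_one_iff s).1 h)
  have hcoef : ∀ i, V.valuation (evX (A := A) x (p.coeff i)) ≤ 1 := fun i =>
    (V.valuation_le_one_iff _).2 (haeval _)
  have hn : p.natDegree ≠ 0 := by
    intro hn
    rw [Polynomial.natDegree_eq_zero] at hn
    obtain ⟨c, rfl⟩ := hn
    have h1 : c = 1 := by simpa using hp.leadingCoeff
    subst h1
    simp at hps
  rw [Polynomial.eval₂_eq_sum_range, Finset.sum_range_succ, hp.coeff_natDegree, map_one,
    one_mul, add_eq_zero_iff_eq_neg] at hps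
  have h2 := congrArg V.valuation hps
  rw [Valuation.map_neg, map_pow] at h2
  refine absurd h2 (ne_of_lt (V.valuation.map_sum_lt ?_ ?_))
  · exact pow_ne_zero _ (ne_of_gt (lt_trans zero_lt_one hlt))
  · intro i hi
    rw [Finset.mem_range] at hi
    rw [map_mul, map_pow]
    exact mul_lt_of_le_one_of_lt (hcoef i) (pow_lt_pow_right₀ hlt hi)

end Chart

section Model

variable (K₁ : Type) [Field K₁] [Algebra ℚ K₁] (A₀ : Type) [CommRing A₀] [IsDomain A₀]
  [IsDiscreteValuationRing A₀] [Algebra A₀ K₁] [IsFractionRing A₀ K₁] (N : ℕ)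

/-- The Gauss valuation subring `V_∞` of the model field of level `N`. -/
def gaussValM : ValuationSubring (ModelField K₁ N) :=
  gaussVal (laurentBaseChange K₁ (modularFunctionFieldFull N)) (hasGNF_model K₁ A₀ N)

variable {K₁ A₀ N}

theorem mem_gaussValM_iff (z : ModelField K₁ N) :
    z ∈ gaussValM K₁ A₀ N ↔
      InV (A₀ := A₀) (laurentBaseChange K₁ (modularFunctionFieldFull N))
        (z : LaurentSeries K₁) := Iff.rfl

theorem mem_nonunits_gaussValM_iff (z : ModelField K₁ N) :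
    z ∈ (gaussValM K₁ A₀ N).nonunits ↔
      InM (A₀ := A₀) (laurentBaseChange K₁ (modularFunctionFieldFull N))
        (z : LaurentSeries K₁) :=
  mem_nonunits_gaussVal_iff _ _ z

/-- `H45.SSMaxInfty` is the maximal ideal of `V_∞`. -/
theorem ssMaxInfty_iff {ϖ : A₀} (hϖ : Irreducible ϖ) (z : ModelField K₁ N) :
    SSMaxInfty K₁ N A₀ ϖ z ↔ z ∈ (gaussValM K₁ A₀ N).nonunits := by
  rw [mem_nonunits_gaussValM_iff]
  constructor
  · rintro ⟨a, b, hai, hbi, hbu, h⟩
    exact inM_of_quot _ hϖ a.2 b.2 hai hbi hbu (congrArg Subtype.val h)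
  · intro h
    exact InM.exists_quot_pi _ hϖ h

end Model

end Fermat.Agent.H41.SS

end
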