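/-
P-SS / SSH-7 (helper41), block (R1): TRANSFER of a regular parameter from level `M'` to level
`q M'` at a point lying on one component only (Mathlib only, no localisation in the statements).

Setting: `ι : B' → B` a ring homomorphism (`B'` = level `M'`, noetherian; `B` = level `q M'`),
`𝔪` a prime ideal of `B` (the point), `𝔮` a prime ideal of `B` (the component through the point,
`𝔮 = B ∩ 𝔪_{V_∞}`), `π, u ∈ B'` with `ι π, ι u ∈ 𝔪`, `ι π ∈ 𝔮`, `ι u ∉ 𝔮`, and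

* (SEP)  `𝔮 B_𝔪 = π B_𝔪` : for `z ∈ 𝔮` there is `s ∉ 𝔪` with `s z ∈ π B`
         (the point does not lie on the other component);
* (FRAC) `Frac (B / 𝔮) = Frac (B' / 𝔮 ∩ B')` : for `z ∈ B` there are `b₁, b₂ ∈ B'`, `ι b₂ ∉ 𝔮`,
         with `z ι b₂ - ι b₁ ∈ 𝔮` (the component is birational to level `M'`);
* (REG') `𝔫 B'_𝔫 = (π, u)` for `𝔫 = ι⁻¹ 𝔪` (level `M'` is regular at the image point).

Conclusions:

* `ordReg_transfer_reg` : (REG) `𝔪 B_𝔪 = (π, u) B_𝔪`;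
* `ordReg_transfer_tf`  : (TF) `uⁿ b ∈ π B` implies `s b ∈ π B` for some `s ∉ 𝔪`.

Auxiliary: `ordReg_krull` (elementwise Krull intersection theorem at a prime),
`ordReg_factor` (`u`-adic factorisation modulo `π` at a regular point).
-/
import Mathlib

set_option autoImplicit false
set_option linter.style.haveILetI false
set_option linter.unusedSectionVars false

noncomputable section

namespace Fermat.Agent.H41.SS

section Krull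

variable {B' : Type*} [CommRing B'] [IsNoetherianRing B']

/-- **Krull intersection, elementwise at a prime `𝔫`.**  If `u ∈ 𝔫` and for every `n` there is
`t ∉ 𝔫` with `t b ∈ (π, uⁿ)`, then there is `t ∉ 𝔫` with `t b ∈ (π)`. -/
theorem ordReg_krull (𝔫 : Ideal B') [h𝔫 : 𝔫.IsPrime] (π u : B') (hu : u ∈ 𝔫) (b : B')
    (h : ∀ n : ℕ, ∃ t, t ∉ 𝔫 ∧ ∃ a c : B', t * b = π * a + u ^ n * c) :
    ∃ t, t ∉ 𝔫 ∧ ∃ a : B', t * b = π * a := by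
  classical
  set R := Localization.AtPrime 𝔫 with hR
  haveI : IsNoetherianRing R := IsLocalization.isNoetherianRing 𝔫.primeCompl R inferInstance
  set P : Ideal R := Ideal.span {algebraMap B' R π} with hP
  set I : Ideal R := Ideal.span {algebraMap B' R u} with hI
  have hIne : I ≠ ⊤ := by
    intro htop
    rw [hI, Ideal.span_singleton_eq_top] at htop
    exact (IsLocalization.AtPrime.isUnit_to_map_iff R 𝔫 u).1 htop hu
  have hK : (⨅ i : ℕ, I ^ i • ⊤ : Submodule R (R ⧸ P)) = ⊥ :=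
    Ideal.iInf_pow_smul_eq_bot_of_isLocalRing I hIne
  have hmem : Ideal.Quotient.mk P (algebraMap B' R b) ∈
      (⨅ i : ℕ, I ^ i • ⊤ : Submodule R (R ⧸ P)) := by
    rw [Submodule.mem_iInf]
    intro n
    obtain ⟨t, ht, a, c, htb⟩ := h n
    have htu : IsUnit (algebraMap B' R t) :=
      IsLocalization.map_units R (⟨t, ht⟩ : 𝔫.primeCompl)
    obtain ⟨t', ht'⟩ := htu.exists_left_inv
    have h1 : algebraMap B' R b = algebraMap B' R π * (t' * algebraMap B' R a)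
        + (algebraMap B' R u) ^ n * (t' * algebraMap B' R c) := by
      have h0 := congrArg (algebraMap B' R) htb
      rw [map_mul, map_add, map_mul, map_mul, map_pow] at h0
      calc algebraMap B' R b = t' * algebraMap B' R t * algebraMap B' R b := by
            rw [ht', one_mul]
        _ = t' * (algebraMap B' R t * algebraMap B' R b) := by ring
        _ = _ := by rw [h0]; ring
    rw [h1, map_add]
    have h2 : Ideal.Quotient.mk P (algebraMap B' R π * (t' * algebraMap B' R a)) = 0 :=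
      Ideal.Quotient.eq_zero_iff_mem.2
        (Ideal.mul_mem_right _ _ (Ideal.mem_span_singleton_self _))
    rw [h2, zero_add]
    have h3 : Ideal.Quotient.mk P ((algebraMap B' R u) ^ n * (t' * algebraMap B' R c))
        = ((algebraMap B' R u) ^ n) • (Ideal.Quotient.mk P (t' * algebraMap B' R c)) := by
      rfl
    rw [h3]
    exact Submodule.smul_mem_smul (Ideal.pow_mem_pow (Ideal.mem_span_singleton_self _) n)
      Submodule.mem_top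
  rw [hK, Submodule.mem_bot, Ideal.Quotient.eq_zero_iff_mem, hP,
    Ideal.mem_span_singleton'] at hmem
  obtain ⟨r, hr⟩ := hmem
  obtain ⟨a, ⟨s, hs⟩, rfl⟩ := IsLocalization.exists_mk'_eq 𝔫.primeCompl r
  have hspec := IsLocalization.mk'_spec R a (⟨s, hs⟩ : 𝔫.primeCompl)
  have h1 : algebraMap B' R (s * b) = algebraMap B' R (π * a) := by
    rw [map_mul, ← hr, map_mul, ← hspec]
    ring
  obtain ⟨⟨s', hs'⟩, h2⟩ := (IsLocalization.eq_iff_exists 𝔫.primeCompl R).1 h1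
  refine ⟨s' * s, ?_, s' * a, ?_⟩
  · intro hmem
    rcases h𝔫.mem_or_mem hmem with h | h
    · exact hs' h
    · exact hs h
  · have h3 : s' * (s * b) = s' * (π * a) := h2
    rw [mul_assoc, h3]
    ring

/-- **`u`-adic factorisation modulo `π` at a regular point.**  If `𝔫 B'_𝔫 = (π, u)` and
`b ∉ π B'_𝔫`, then `t b = π a + uⁿ c` with `t, c ∉ 𝔫`. -/
theorem ordReg_factor (𝔫 : Ideal B') [h𝔫 : 𝔫.IsPrime] (π u : B') (hu : u ∈ 𝔫)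
    (hreg : ∀ z ∈ 𝔫, ∃ s, s ∉ 𝔫 ∧ ∃ b₁ b₂ : B', s * z = π * b₁ + u * b₂)
    (b : B') (hb : ¬ ∃ t, t ∉ 𝔫 ∧ ∃ a : B', t * b = π * a) :
    ∃ (n : ℕ) (t c : B'), t ∉ 𝔫 ∧ c ∉ 𝔫 ∧ ∃ a : B', t * b = π * a + u ^ n * c := by
  classical
  have hex : ∃ n : ℕ, ¬ ∃ t, t ∉ 𝔫 ∧ ∃ a c : B', t * b = π * a + u ^ n * c := by
    by_contra hcon
    apply hb
    refine ordReg_krull 𝔫 π u hu b fun n => ?_
    by_contra hn
    exact hcon ⟨n, hn⟩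
  have hn := Nat.find_spec hex
  have hone : (1 : B') ∉ 𝔫 := fun h1 => h𝔫.ne_top ((Ideal.eq_top_iff_one _).2 h1)
  have hpos : Nat.find hex ≠ 0 := by
    intro h0
    rw [h0] at hn
    exact hn ⟨1, hone, 0, b, by ring⟩
  obtain ⟨n, hnn⟩ := Nat.exists_eq_succ_of_ne_zero hpos
  have hmem : ∃ t, t ∉ 𝔫 ∧ ∃ a c : B', t * b = π * a + u ^ n * c := by
    by_contra hcon
    have := Nat.find_min' hex hcon
    omega
  obtain ⟨t, ht, a, c, htb⟩ := hmem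
  refine ⟨n, t, c, ht, ?_, a, htb⟩
  intro hc
  obtain ⟨s, hs, b₁, b₂, hsc⟩ := hreg c hc
  apply hn
  rw [hnn]
  refine ⟨s * t, ?_, s * a + u ^ n * b₁, b₂, ?_⟩
  · intro hmem
    rcases h𝔫.mem_or_mem hmem with h | h
    · exact hs h
    · exact ht h
  · calc s * t * b = s * (t * b) := by ring
      _ = s * (π * a + u ^ n * c) := by rw [htb]
      _ = π * (s * a) + u ^ n * (s * c) := by ring
      _ = π * (s * a) + u ^ n * (π * b₁ + u * b₂) := by rw [hsc]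
      _ = π * (s * a + u ^ n * b₁) + u ^ (n + 1) * b₂ := by ring

end Krull

section Transfer

variable {B' B : Type*} [CommRing B'] [CommRing B] [IsNoetherianRing B'] (ι : B' →+* B)

/-- (SEP) implies that the component `𝔮` passes through the point `𝔪`. -/
theorem ordReg_le (𝔪 𝔮 : Ideal B) [h𝔪 : 𝔪.IsPrime] (π' : B) (hπ𝔪 : π' ∈ 𝔪)
    (hSEP : ∀ z ∈ 𝔮, ∃ s, s ∉ 𝔪 ∧ ∃ b : B, s * z = π' * b) : 𝔮 ≤ 𝔪 := by
  intro z hz
  obtain ⟨s, hs, b, hsz⟩ := hSEP z hz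
  have h1 : s * z ∈ 𝔪 := by
    rw [hsz]
    exact Ideal.mul_mem_right _ _ hπ𝔪
  exact (h𝔪.mem_or_mem h1).resolve_left hs

/-- **(R1) TRANSFER, regular parameters**: `𝔪 B_𝔪 = (π, u) B_𝔪`. -/
theorem ordReg_transfer_reg (𝔪 𝔮 : Ideal B) [h𝔪 : 𝔪.IsPrime] [h𝔮 : 𝔮.IsPrime] (π u : B')
    (hπ𝔪 : ι π ∈ 𝔪) (hπ𝔮 : ι π ∈ 𝔮) (hu𝔪 : ι u ∈ 𝔪) (hu𝔮 : ι u ∉ 𝔮)
    (hSEP : ∀ z ∈ 𝔮, ∃ s, s ∉ 𝔪 ∧ ∃ b : B, s * z = ι π * b)
    (hFRAC : ∀ z ∈ 𝔪, ∃ b₁ b₂ : B', ι b₂ ∉ 𝔮 ∧ z * ι b₂ - ι b₁ ∈ 𝔮)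
    (hREG : ∀ z : B', ι z ∈ 𝔪 →
      ∃ s : B', ι s ∉ 𝔪 ∧ ∃ b₁ b₂ : B', s * z = π * b₁ + u * b₂) :
    ∀ z ∈ 𝔪, ∃ s, s ∉ 𝔪 ∧ ∃ b₁ b₂ : B, s * z = ι π * b₁ + ι u * b₂ := by
  have h𝔮𝔪 : 𝔮 ≤ 𝔪 := ordReg_le 𝔪 𝔮 (ι π) hπ𝔪 hSEP
  haveI h𝔫 : (𝔪.comap ι).IsPrime := Ideal.comap_isPrime ι 𝔪
  have hfac : ∀ b : B', ι b ∉ 𝔮 → ∃ (n : ℕ) (t c : B'), ι t ∉ 𝔪 ∧ ι c ∉ 𝔪 ∧
      ∃ a : B', t * b = π * a + u ^ n * c := by
    intro b hb
    refine ordReg_factor (𝔪.comap ι) π u hu𝔪 (fun z hz => hREG z hz) b ?_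
    rintro ⟨t, ht, a, hta⟩
    apply hb
    have h1 : ι t * ι b ∈ 𝔮 := by
      rw [← map_mul, hta, map_mul]
      exact Ideal.mul_mem_right _ _ hπ𝔮
    rcases h𝔮.mem_or_mem h1 with h | h
    · exact absurd (h𝔮𝔪 h) ht
    · exact h
  intro z hz
  obtain ⟨b₁, b₂, hb₂, hzb⟩ := hFRAC z hz
  by_cases hb₁ : ι b₁ ∈ 𝔮
  · have h1 : z * ι b₂ ∈ 𝔮 := by
      have := 𝔮.add_mem hzb hb₁
      rwa [sub_add_cancel] at this
    have h2 : z ∈ 𝔮 := (h𝔮.mem_or_mem h1).resolve_right hb₂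
    obtain ⟨s, hs, b, hsz⟩ := hSEP z h2
    exact ⟨s, hs, b, 0, by rw [hsz, mul_zero, add_zero]⟩
  · obtain ⟨n₁, t₁, c₁, ht₁, hc₁, a₁, h1⟩ := hfac b₁ hb₁
    obtain ⟨n₂, t₂, c₂, ht₂, hc₂, a₂, h2⟩ := hfac b₂ hb₂
    have h1' := congrArg ι h1
    have h2' := congrArg ι h2
    simp only [map_mul, map_add, map_pow] at h1' h2'
    have hP : ι t₁ * ι c₂ ∉ 𝔪 := fun h => (h𝔪.mem_or_mem h).elim ht₁ hc₂
    have hQ : ι t₂ * ι c₁ ∉ 𝔪 := fun h => (h𝔪.mem_or_mem h).elim ht₂ hc₁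
    have hkey : ι t₁ * ι c₂ * z * ι u ^ n₂ - ι t₂ * ι c₁ * ι u ^ n₁ ∈ 𝔮 := by
      have e : ι t₁ * ι c₂ * z * ι u ^ n₂ - ι t₂ * ι c₁ * ι u ^ n₁
          = ι t₁ * ι t₂ * (z * ι b₂ - ι b₁) - ι π * (ι t₁ * z * ι a₂ - ι t₂ * ι a₁) := by
        linear_combination (-(ι t₁ * z)) * h2' + ι t₂ * h1'
      rw [e]
      exact 𝔮.sub_mem (𝔮.mul_mem_left _ hzb) (𝔮.mul_mem_right _ hπ𝔮)
    have hupow : ∀ n : ℕ, ι u ^ n ∉ 𝔮 := fun n h => hu𝔮 (h𝔮.mem_of_pow_mem n h)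
    rcases le_or_gt n₁ n₂ with hle | hlt
    · exfalso
      obtain ⟨k, rfl⟩ := Nat.exists_eq_add_of_le hle
      have e2 : ι t₁ * ι c₂ * z * ι u ^ (n₁ + k) - ι t₂ * ι c₁ * ι u ^ n₁
          = ι u ^ n₁ * (ι t₁ * ι c₂ * z * ι u ^ k - ι t₂ * ι c₁) := by
        rw [pow_add]
        ring
      rw [e2] at hkey
      have h3 : ι t₁ * ι c₂ * z * ι u ^ k - ι t₂ * ι c₁ ∈ 𝔮 :=
        (h𝔮.mem_or_mem hkey).resolve_left (hupow n₁)
      have h4 : ι t₁ * ι c₂ * z * ι u ^ k ∈ 𝔪 := 𝔪.mul_mem_right _ (𝔪.mul_mem_left _ hz)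
      have h5 : ι t₂ * ι c₁ ∈ 𝔪 := by
        have := 𝔪.sub_mem h4 (h𝔮𝔪 h3)
        rwa [sub_sub_cancel] at this
      exact hQ h5
    · obtain ⟨k, hk⟩ := Nat.exists_eq_add_of_lt hlt
      have e2 : ι t₁ * ι c₂ * z * ι u ^ n₂ - ι t₂ * ι c₁ * ι u ^ n₁
          = ι u ^ n₂ * (ι t₁ * ι c₂ * z - ι t₂ * ι c₁ * ι u ^ (k + 1)) := by
        rw [hk, add_assoc, pow_add]
        ring
      rw [e2] at hkey
      have h3 : ι t₁ * ι c₂ * z - ι t₂ * ι c₁ * ι u ^ (k + 1) ∈ 𝔮 :=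
        (h𝔮.mem_or_mem hkey).resolve_left (hupow n₂)
      obtain ⟨s, hs, d, hsd⟩ := hSEP _ h3
      refine ⟨s * (ι t₁ * ι c₂), ?_, d, s * (ι t₂ * ι c₁) * ι u ^ k, ?_⟩
      · intro hmem
        rcases h𝔪.mem_or_mem hmem with h | h
        · exact hs h
        · exact hP h
      · linear_combination hsd

/-- **(R1) TRANSFER, torsion-freeness**: `uⁿ b ∈ π B` implies `s b ∈ π B` for some `s ∉ 𝔪`. -/
theorem ordReg_transfer_tf (𝔪 𝔮 : Ideal B) [h𝔮 : 𝔮.IsPrime] (π' u' : B)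
    (hπ𝔮 : π' ∈ 𝔮) (hu𝔮 : u' ∉ 𝔮)
    (hSEP : ∀ z ∈ 𝔮, ∃ s, s ∉ 𝔪 ∧ ∃ b : B, s * z = π' * b) :
    ∀ (n : ℕ) (b : B), (∃ b' : B, u' ^ n * b = π' * b') →
      ∃ s, s ∉ 𝔪 ∧ ∃ b' : B, s * b = π' * b' := by
  rintro n b ⟨b', hb'⟩
  have h1 : u' ^ n * b ∈ 𝔮 := by
    rw [hb']
    exact Ideal.mul_mem_right _ _ hπ𝔮
  have h2 : b ∈ 𝔮 :=
    (h𝔮.mem_or_mem h1).resolve_left (fun h => hu𝔮 (h𝔮.mem_of_pow_mem n h))
  exact hSEP b h2

end Transfer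

end Fermat.Agent.H41.SS

end
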