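/-
P-SS / SSH-7 (helper41): the ABSTRACT ORDINARY POINT THEOREM in the chart language of `H22.KL`.

Setting: `A` a DVR with uniformiser `ϖ`; `E' ⊆ E` fields of characteristic zero over `A`
(`E'` = level `M`, `E` = level `M q`); charts `x' ∈ E'`, `x ∈ E`; `B' = B(x') ⊆ E'`,
`B = B(x) ⊆ E` the integral closures of `A[x']`, `A[x]`, with `B' → B` integral;
`V₁, V₂` two valuation subrings of `E` containing `B` with uniformiser `ϖ` and
`V₁ ∩ V₂ ⊆ C(x)` (the two components of the special fibre); `C(x') = E' ∩ V₁`;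
(FRAC) the residue field of `V₁` is the residue field of `E' ∩ V₁`;
(REG') level `M` is regular at the closed points of its special fibre.

`ordPoint_isRegularAt` : at a maximal ideal `𝔪 ∋ ϖ` of `B` which does not contain the centre of
`V₂`, the point `𝔪` is regular with parameters `(ϖ, U)`, `U ∈ B'`.
`ordPoint_placeGenAt` : hence `H45.PlaceGenAt A E x 𝔪`.
-/
import Mathlib
import Fermat.Agent.H41.SS.OrdTransfer
import Fermat.Agent.H41.SS.TubeChart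
import Fermat.Agent.H45.SS.TubeAdapter
import Fermat.Agent.H33.KL.MaxIdeal
import Fermat.Agent.H87.KL.KumIdem

set_option autoImplicit false
set_option linter.style.haveILetI false
set_option linter.unusedSectionVars false

noncomputable section

open Polynomial

namespace Fermat.Agent.H41.SS

open Fermat.Agent.H91 Fermat.Agent.H91.KLNorm
open Fermat.Agent.H22.KL Fermat.Agent.H45
open Fermat.Agent.H87.KL (evX IntX GC)
open Fermat.Agent.H67.KLConn (PiDvd)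

section Monic

variable (A : Type) [CommRing A] [IsDomain A] [IsDiscreteValuationRing A]
variable (E : Type) [Field E] [Algebra A E] [CharZero E]

/-- Every maximal ideal of `B(x)` containing `ϖ` contains `g(x)` for some monic `g` with
irreducible reduction. -/
theorem ordPoint_exists_monic (ϖ : A) (hϖ : Irreducible ϖ) (x : E)
    (𝔫 : Ideal ↥(chartClosure A E x)) (h𝔫 : 𝔫.IsMaximal)
    (hϖ𝔫 : algebraMap A ↥(chartClosure A E x) ϖ ∈ 𝔫) :
    ∃ g : A[X], g.Monic ∧ Irreducible (g.map (IsLocalRing.residue A)) ∧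
      (⟨aeval x g, etale_aeval_mem_chartClosure A E x g⟩ : ↥(chartClosure A E x)) ∈ 𝔫 := by
  letI := polyAlgE A E x
  set e := etaleEquiv A E x with he
  set 𝔫' : Ideal ↥(integralClosure A[X] E) := 𝔫.comap (e.symm : _ →+* _) with h𝔫'
  haveI h𝔫'max : 𝔫'.IsMaximal :=
    Ideal.comap_isMaximal_of_surjective _ e.symm.surjective
  set I : Ideal A[X] := 𝔫'.comap (algebraMap A[X] ↥(integralClosure A[X] E)) with hI
  haveI hImax : I.IsMaximal := Ideal.isMaximal_comap_of_isIntegral_of_isMaximal 𝔫'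
  have hmemI : ∀ p : A[X], p ∈ I ↔
      (⟨aeval x p, etale_aeval_mem_chartClosure A E x p⟩ : ↥(chartClosure A E x)) ∈ 𝔫 := by
    intro p
    rw [hI, Ideal.mem_comap, h𝔫', Ideal.mem_comap]
    rfl
  have hϖI : C ϖ ∈ I := by
    rw [hmemI]
    have e1 : (⟨aeval x (C ϖ), etale_aeval_mem_chartClosure A E x (C ϖ)⟩ :
        ↥(chartClosure A E x)) = algebraMap A ↥(chartClosure A E x) ϖ := by
      apply Subtype.ext
      show aeval x (C ϖ) = algebraMap A E ϖ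
      exact aeval_C x ϖ
    rw [e1]
    exact hϖ𝔫
  obtain ⟨g, hgm, hgirr, hg⟩ :=
    Fermat.Agent.H33.KLGlue.exists_monic_of_ne_top hϖ I hImax.ne_top hϖI
  refine ⟨g, hgm, hgirr, (hmemI g).1 ?_⟩
  have hJ := isMaximal_span_pair A hϖ hgirr
  have hle : I ≤ Ideal.span {(C ϖ : A[X]), g} := by
    intro s hs
    obtain ⟨p, q, rfl⟩ := hg s hs
    exact Ideal.add_mem _ (Ideal.mul_mem_right _ _ (Ideal.subset_span (by simp)))
      (Ideal.mul_mem_right _ _ (Ideal.subset_span (by simp)))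
  have heq : I = Ideal.span {(C ϖ : A[X]), g} := hImax.eq_of_le hJ.ne_top hle
  rw [heq]
  exact Ideal.subset_span (by simp)

end Monic

section Tower

variable {A : Type} [CommRing A] [IsDomain A] [IsDiscreteValuationRing A]
variable {E' E : Type} [Field E'] [Field E] [Algebra A E'] [Algebra A E]
  [CharZero E'] [CharZero E] [Algebra E' E] [IsScalarTower A E' E]

/-- The restriction `B(x') → B(x)` of the inclusion `E' → E`. -/
def ordRestrict (x' : E') (x : E)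
    (hιB : ∀ b ∈ chartClosure A E' x', algebraMap E' E b ∈ chartClosure A E x) :
    ↥(chartClosure A E' x') →+* ↥(chartClosure A E x) where
  toFun b := ⟨algebraMap E' E b, hιB b b.2⟩
  map_one' := Subtype.ext (map_one _)
  map_mul' _ _ := Subtype.ext (map_mul _ _ _)
  map_zero' := Subtype.ext (map_zero _)
  map_add' _ _ := Subtype.ext (map_add _ _ _)

@[simp] theorem ordRestrict_coe (x' : E') (x : E)
    (hιB : ∀ b ∈ chartClosure A E' x', algebraMap E' E b ∈ chartClosure A E x)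
    (b : ↥(chartClosure A E' x')) :
    ((ordRestrict x' x hιB b : ↥(chartClosure A E x)) : E) = algebraMap E' E (b : E') := rfl

theorem ordRestrict_algebraMap (x' : E') (x : E)
    (hιB : ∀ b ∈ chartClosure A E' x', algebraMap E' E b ∈ chartClosure A E x) (a : A) :
    ordRestrict x' x hιB (algebraMap A ↥(chartClosure A E' x') a)
      = algebraMap A ↥(chartClosure A E x) a := by
  apply Subtype.ext
  rw [ordRestrict_coe]
  exact (IsScalarTower.algebraMap_apply A E' E a).symm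

/-- (INJ) an element of `B(x')` which is a non-unit of `V₁` is divisible by `ϖ` in `B(x')`. -/
theorem ordPoint_inj (hinj' : Function.Injective (algebraMap A E')) (ϖ : A) (hϖ : Irreducible ϖ)
    (x' : E') (hx' : Transcendental A x') (V₁ : ValuationSubring E)
    (hϖ₁ : ∀ z ∈ V₁.nonunits, z / algebraMap A E ϖ ∈ V₁)
    (hQ' : ∀ z' : E', algebraMap E' E z' ∈ V₁ → z' ∈ gaussClosure A E' ϖ x')
    (b : E') (hb : b ∈ chartClosure A E' x') (hbV : algebraMap E' E b ∈ V₁.nonunits) :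
    PiDvd ϖ (chartClosure A E' x') 1 b := by
  have hϖ0 : algebraMap A E' ϖ ≠ 0 := fun h => hϖ.ne_zero (hinj' (by rw [h, map_zero]))
  refine Fermat.Agent.H34.lemmaT A E' hinj' ϖ hϖ x' hx' b hb
    ⟨b / algebraMap A E' ϖ, hQ' _ ?_, ?_⟩
  · rw [map_div₀, ← IsScalarTower.algebraMap_apply]
    exact hϖ₁ _ hbV
  · field_simp

/-- A primitive element of `A[x']` is a unit of `V₁`. -/
theorem ordPoint_unit (ϖ : A) (x' : E') (V₁ : ValuationSubring E)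
    (hGC' : ∀ z' ∈ gaussClosure A E' ϖ x', algebraMap E' E z' ∈ V₁)
    (h : E') (hh : h ∈ chartRing A E' x') (hnd : ¬ PiDvd ϖ (chartRing A E' x') 1 h) :
    algebraMap E' E h ∉ V₁.nonunits := by
  have hh0 : h ≠ 0 := by
    rintro rfl
    exact hnd ⟨0, (chartRing A E' x').zero_mem, by simp⟩
  have h1 : h⁻¹ ∈ gaussClosure A E' ϖ x' :=
    ⟨h, hh, hnd, by rw [mul_inv_cancel₀ hh0]; exact (chartClosure A E' x').one_mem⟩
  have h2 := hGC' _ h1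
  rw [map_inv₀] at h2
  intro h3
  rw [ValuationSubring.mem_nonunits_iff_or] at h3
  rcases h3 with h3 | h3
  · exact hh0 ((map_eq_zero _).1 h3)
  · exact h3 h2

/-- **ABSTRACT ORDINARY POINT THEOREM.**  At a maximal ideal `𝔪 ∋ ϖ` of `B(x)` which does not
contain the centre of `V₂`, the point `𝔪` is regular, with parameters `ϖ` and `U ∈ B(x')`. -/
theorem ordPoint_isRegularAt
    (hinj : Function.Injective (algebraMap A E)) (hinj' : Function.Injective (algebraMap A E'))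
    (ϖ : A) (hϖ : Irreducible ϖ)
    (x : E) (x' : E') (hx' : Transcendental A x')
    (hfd' : ∃ n : ℕ, Nonempty (Module.Basis (Fin n) (chartField A E' x') E'))
    (hιB : ∀ b ∈ chartClosure A E' x', algebraMap E' E b ∈ chartClosure A E x)
    (hint : (ordRestrict x' x hιB).IsIntegral)
    (V₁ V₂ : ValuationSubring E)
    (hC : ∀ z : E, z ∈ V₁ → z ∈ V₂ → z ∈ gaussClosure A E ϖ x)
    (hϖ₁ : ∀ z ∈ V₁.nonunits, z / algebraMap A E ϖ ∈ V₁)
    (hϖ₂ : ∀ z ∈ V₂.nonunits, z / algebraMap A E ϖ ∈ V₂)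
    (hB₁ : ∀ s ∈ chartClosure A E x, s ∈ V₁) (hB₂ : ∀ s ∈ chartClosure A E x, s ∈ V₂)
    (hπ₁ : algebraMap A E ϖ ∈ V₁.nonunits)
    (hGC' : ∀ z' ∈ gaussClosure A E' ϖ x', algebraMap E' E z' ∈ V₁)
    (hQ' : ∀ z' : E', algebraMap E' E z' ∈ V₁ → z' ∈ gaussClosure A E' ϖ x')
    (hFRAC : ∀ z ∈ V₁, ∃ z' : E', algebraMap E' E z' ∈ V₁ ∧ z - algebraMap E' E z' ∈ V₁.nonunits)
    (hREG' : ∀ 𝔫 : Ideal ↥(chartClosure A E' x'), 𝔫.IsMaximal →
      algebraMap A ↥(chartClosure A E' x') ϖ ∈ 𝔫 →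
      ∃ U : ↥(chartClosure A E' x'), U ∈ 𝔫 ∧ ∀ z ∈ 𝔫, ∃ s, s ∉ 𝔫 ∧
        ∃ b₁ b₂ : ↥(chartClosure A E' x'),
          s * z = algebraMap A ↥(chartClosure A E' x') ϖ * b₁ + U * b₂)
    (hx : Transcendental A x)
    (𝔪 : Ideal ↥(chartClosure A E x)) (h𝔪 : 𝔪.IsMaximal)
    (hϖ𝔪 : algebraMap A ↥(chartClosure A E x) ϖ ∈ 𝔪)
    (s₀ : ↥(chartClosure A E x)) (hs₀ : (s₀ : E) ∈ V₂.nonunits) (hs₀𝔪 : s₀ ∉ 𝔪) :
    ∃ u : ↥(chartClosure A E x), IsRegularAt A E ϖ x 𝔪 u := by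
  classical
  haveI := chartClosure_isNoetherianRing A E' hinj' ϖ hϖ x' hx' hfd'
  haveI h𝔪p : 𝔪.IsPrime := h𝔪.isPrime
  set ιB := ordRestrict x' x hιB with hιBdef
  set πB' : ↥(chartClosure A E' x') := algebraMap A ↥(chartClosure A E' x') ϖ with hπB'
  have hιπ : ιB πB' = algebraMap A ↥(chartClosure A E x) ϖ := ordRestrict_algebraMap x' x hιB ϖ
  -- the point of level `M`
  set 𝔫 : Ideal ↥(chartClosure A E' x') := 𝔪.comap ιB with h𝔫
  haveI h𝔫max : 𝔫.IsMaximal := Ideal.isMaximal_comap_of_isIntegral_of_isMaximal' ιB hint 𝔪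
  have hπ𝔫 : πB' ∈ 𝔫 := by
    rw [h𝔫, Ideal.mem_comap, hιπ]
    exact hϖ𝔪
  obtain ⟨U, hU𝔫, hREG⟩ := hREG' 𝔫 h𝔫max hπ𝔫
  -- the component
  have hRV : ∀ r : ↥(chartClosure A E x), algebraMap ↥(chartClosure A E x) E r ∈ V₁ :=
    fun r => hB₁ _ r.2
  set 𝔮 : Ideal ↥(chartClosure A E x) := regTubeCentre V₁ hRV with h𝔮
  haveI h𝔮p : 𝔮.IsPrime := regTubeCentre_isPrime V₁ hRV
  have hmem𝔮 : ∀ r : ↥(chartClosure A E x), r ∈ 𝔮 ↔ (r : E) ∈ V₁.nonunits := fun r =>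
    mem_regTubeCentre V₁ hRV r
  have hπ𝔮 : ιB πB' ∈ 𝔮 := by
    rw [hιπ, hmem𝔮]
    exact hπ₁
  -- (SEP)
  have hSEP : ∀ z ∈ 𝔮, ∃ s, s ∉ 𝔪 ∧ ∃ b : ↥(chartClosure A E x), s * z = ιB πB' * b := by
    intro z hz
    obtain ⟨r, hr, hsz⟩ := Fermat.Agent.H31.SS.piDvd_mul_of_mem_centres hinj ϖ hϖ x hx V₁ V₂
      hC hϖ₁ hϖ₂ hB₁ hB₂ s₀ z hs₀ ((hmem𝔮 z).1 hz)
    refine ⟨s₀, hs₀𝔪, ⟨r, hr⟩, ?_⟩
    apply Subtype.ext
    rw [hιπ]
    rw [pow_one, Algebra.smul_def] at hsz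
    exact hsz
  -- a monic polynomial in the point
  obtain ⟨g, hgm, -, hg𝔫⟩ := ordPoint_exists_monic A E' ϖ hϖ x' 𝔫 h𝔫max hπ𝔫
  have hgunit : algebraMap E' E (aeval x' g) ∉ V₁.nonunits := by
    refine ordPoint_unit ϖ x' V₁ hGC' _ (Fermat.Agent.H87.KL.aeval_mem_chartRing x' g) ?_
    rw [Fermat.Agent.H87.KL.piDvd_aeval_iff hx']
    exact not_C_dvd_of_monic hϖ hgm
  -- (INJ), element form
  have hINJ : ∀ b : ↥(chartClosure A E' x'), ιB b ∈ 𝔮 →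
      ∃ r : ↥(chartClosure A E' x'), b = πB' * r := by
    intro b hb
    obtain ⟨r, hr, hbr⟩ := ordPoint_inj hinj' ϖ hϖ x' hx' V₁ hϖ₁ hQ' (b : E') b.2
      ((hmem𝔮 _).1 hb)
    refine ⟨⟨r, hr⟩, Subtype.ext ?_⟩
    rw [pow_one, Algebra.smul_def] at hbr
    exact hbr
  -- `U` is not zero on the component
  have hU𝔮 : ιB U ∉ 𝔮 := by
    intro hU
    obtain ⟨r, hr⟩ := hINJ U hU
    obtain ⟨s, hs, b₁, b₂, hsg⟩ := hREG _ hg𝔫
    have h1 : ιB (s * ⟨aeval x' g, etale_aeval_mem_chartClosure A E' x' g⟩) ∈ 𝔮 := by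
      rw [hsg, hr]
      have e1 : πB' * b₁ + πB' * r * b₂ = πB' * (b₁ + r * b₂) := by ring
      rw [e1, map_mul]
      exact Ideal.mul_mem_right _ _ hπ𝔮
    rw [map_mul] at h1
    rcases h𝔮p.mem_or_mem h1 with h2 | h2
    · obtain ⟨r', hr'⟩ := hINJ s h2
      apply hs
      rw [hr']
      exact Ideal.mul_mem_right _ _ hπ𝔫
    · exact hgunit ((hmem𝔮 _).1 h2)
  -- (FRAC)
  have hFR : ∀ z ∈ 𝔪, ∃ b₁ b₂ : ↥(chartClosure A E' x'), ιB b₂ ∉ 𝔮 ∧
      z * ιB b₂ - ιB b₁ ∈ 𝔮 := by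
    intro z _
    obtain ⟨z', hz'V, hzz'⟩ := hFRAC (z : E) (hB₁ _ z.2)
    obtain ⟨h, hh, hnd, hhz⟩ := hQ' z' hz'V
    have hhB : h ∈ chartClosure A E' x' := by
      obtain ⟨H, rfl⟩ := (Fermat.Agent.H87.KL.mem_chartRing_iff x' h).1 hh
      exact etale_aeval_mem_chartClosure A E' x' H
    refine ⟨⟨h * z', hhz⟩, ⟨h, hhB⟩, ?_, ?_⟩
    · rw [hmem𝔮]
      exact ordPoint_unit ϖ x' V₁ hGC' h hh hnd
    · rw [hmem𝔮]
      have e1 : ((z * ιB ⟨h, hhB⟩ - ιB ⟨h * z', hhz⟩ : ↥(chartClosure A E x)) : E)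
          = algebraMap E' E h * ((z : E) - algebraMap E' E z') := by
        rw [Subalgebra.coe_sub, Subalgebra.coe_mul, hιBdef, ordRestrict_coe, ordRestrict_coe,
          map_mul]
        ring
      rw [e1]
      exact Fermat.Agent.H31.SS.mul_mem_nonunits (hB₁ _ (hιB h hhB)) hzz'
  -- transfer
  have hU𝔪 : ιB U ∈ 𝔪 := hU𝔫
  have hπ𝔪 : ιB πB' ∈ 𝔪 := by rw [hιπ]; exact hϖ𝔪
  have hreg := ordReg_transfer_reg ιB 𝔪 𝔮 πB' U hπ𝔪 hπ𝔮 hU𝔪 hU𝔮 hSEP hFR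
    (fun z hz => hREG z hz)
  have htf := ordReg_transfer_tf 𝔪 𝔮 (ιB πB') (ιB U) hπ𝔮 hU𝔮 hSEP
  rw [hιπ] at hreg htf
  exact ⟨ιB U, hU𝔪, hreg, htf⟩

/-- **ABSTRACT ORDINARY POINT THEOREM, place generators.** -/
theorem ordPoint_placeGenAt
    (hinj : Function.Injective (algebraMap A E)) (hinj' : Function.Injective (algebraMap A E'))
    (ϖ : A) (hϖ : Irreducible ϖ)
    (x : E) (x' : E') (hx' : Transcendental A x')
    (hfd' : ∃ n : ℕ, Nonempty (Module.Basis (Fin n) (chartField A E' x') E'))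
    (hιB : ∀ b ∈ chartClosure A E' x', algebraMap E' E b ∈ chartClosure A E x)
    (hint : (ordRestrict x' x hιB).IsIntegral)
    (V₁ V₂ : ValuationSubring E)
    (hC : ∀ z : E, z ∈ V₁ → z ∈ V₂ → z ∈ gaussClosure A E ϖ x)
    (hϖ₁ : ∀ z ∈ V₁.nonunits, z / algebraMap A E ϖ ∈ V₁)
    (hϖ₂ : ∀ z ∈ V₂.nonunits, z / algebraMap A E ϖ ∈ V₂)
    (hB₁ : ∀ s ∈ chartClosure A E x, s ∈ V₁) (hB₂ : ∀ s ∈ chartClosure A E x, s ∈ V₂)
    (hπ₁ : algebraMap A E ϖ ∈ V₁.nonunits)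
    (hGC' : ∀ z' ∈ gaussClosure A E' ϖ x', algebraMap E' E z' ∈ V₁)
    (hQ' : ∀ z' : E', algebraMap E' E z' ∈ V₁ → z' ∈ gaussClosure A E' ϖ x')
    (hFRAC : ∀ z ∈ V₁, ∃ z' : E', algebraMap E' E z' ∈ V₁ ∧ z - algebraMap E' E z' ∈ V₁.nonunits)
    (hREG' : ∀ 𝔫 : Ideal ↥(chartClosure A E' x'), 𝔫.IsMaximal →
      algebraMap A ↥(chartClosure A E' x') ϖ ∈ 𝔫 →
      ∃ U : ↥(chartClosure A E' x'), U ∈ 𝔫 ∧ ∀ z ∈ 𝔫, ∃ s, s ∉ 𝔫 ∧
        ∃ b₁ b₂ : ↥(chartClosure A E' x'),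
          s * z = algebraMap A ↥(chartClosure A E' x') ϖ * b₁ + U * b₂)
    (hx : Transcendental A x)
    (hfd : ∃ n : ℕ, Nonempty (Module.Basis (Fin n) (chartField A E x) E))
    (𝔪 : Ideal ↥(chartClosure A E x)) (h𝔪 : 𝔪.IsMaximal)
    (hϖ𝔪 : algebraMap A ↥(chartClosure A E x) ϖ ∈ 𝔪)
    (s₀ : ↥(chartClosure A E x)) (hs₀ : (s₀ : E) ∈ V₂.nonunits) (hs₀𝔪 : s₀ ∉ 𝔪) :
    PlaceGenAt A E x 𝔪 := by
  obtain ⟨u, hu⟩ := ordPoint_isRegularAt hinj hinj' ϖ hϖ x x' hx' hfd' hιB hint V₁ V₂ hC hϖ₁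
    hϖ₂ hB₁ hB₂ hπ₁ hGC' hQ' hFRAC hREG' hx 𝔪 h𝔪 hϖ𝔪 s₀ hs₀ hs₀𝔪
  have htube := isTubeCoordAt_of_isRegularAt hinj ϖ hϖ x hx hfd 𝔪 h𝔪.isPrime hϖ𝔪 u hu
  exact placeGenAt_of_tube hinj ϖ hϖ x 𝔪 h𝔪 hϖ𝔪 u hu.1 htube

end Tower

end Fermat.Agent.H41.SS

end
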