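/-
P-SS / SSH-7 (helper41): the MODEL FACTS used by the ordinary point theorem.

`E = ModelField K₁ (M q)`, `E' = ModelField K₁ M`, `V_∞ = gaussValM`, `V_0 = W⁻¹ V_∞`.

* `algebraMap_mem_gaussValM`, `pi_mem_nonunits_gaussValM`, `div_pi_mem_gaussValM`,
  `int_mem_gaussValM`, `chartClosure_le_gaussValM` : basic properties of `V_∞` (any level).
* `gaussValZero`, and the same properties for `V_0`.
* `mem_gaussClosure_of_two` : `V_∞ ∩ V_0 ⊆ C(x)` (landed `H66.SS.modelQExp2`).
* `inV_of_mem_gaussClosure`, `mem_gaussClosure_of_inV_level` : `C(x') = V_∞(E')` at level `M`.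
* `chartClosure_le_of_mem`, `chartClosure_map` : integrality bookkeeping.
* `jq_mem_chartClosure`, `j_mem_chartClosure_jq` : `j_q ∈ B(j)` and `j ∈ B(j_q)`.
-/
import Mathlib
import Fermat.Agent.H41.SS.OrdGauss
import Fermat.Agent.H41.SS.OrdPoint
import Fermat.Agent.H55.SS.GaussConverse
import Fermat.Agent.H66.SS.ModelQExp2Final
import Fermat.Agent.H66.SS.ModelIntegral
import Fermat.Agent.H48.KL.QExpFinal
import Fermat.Agent.H57.SS.ModelFinite
import Fermat.Agent.H58.KL.ModelTr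

set_option autoImplicit false
set_option linter.style.haveILetI false
set_option linter.unusedSectionVars false

noncomputable section

namespace Fermat.Agent.H41.SS

open Polynomial ModularCurve
open Fermat.Agent.H22.KL Fermat.Agent.H45 Fermat.Agent.H7.SS Fermat.Agent.H48.QExp
open Fermat.Agent.H82.SS
open Fermat.Agent.H91 Fermat.Agent.H91.KLNorm
open Fermat.Agent.H87.KL (evX IntX)
open Fermat.Agent.H67.KLConn (PiDvd)

/-! ### Integrality bookkeeping -/

section Integral

variable {A : Type} [CommRing A] [IsDomain A] [IsDiscreteValuationRing A]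
variable {E : Type} [Field E] [Algebra A E] [CharZero E]

/-- `B(y) ⊆ B(x)` as soon as `y ∈ B(x)`. -/
theorem chartClosure_le_of_mem {x y : E} (hy : y ∈ chartClosure A E x) :
    chartClosure A E y ≤ chartClosure A E x := by
  intro z hz
  letI := polyAlgE A E x
  rw [Fermat.Agent.H87.KL.mem_chartClosure_iff] at hz hy ⊢
  obtain ⟨p, hp, hpz⟩ := hz
  have hyS : IsIntegral A[X] y := hy
  set S : Subalgebra A[X] E := integralClosure A[X] E with hS
  have hrange : ∀ H : A[X], evX (A := A) y H ∈ S.toSubring := by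
    intro H
    show aeval y H ∈ S
    rw [aeval_eq_sum_range]
    refine S.sum_mem fun i _ => ?_
    rw [Algebra.smul_def]
    refine S.mul_mem ?_ (S.pow_mem hyS i)
    have e1 : algebraMap A E (H.coeff i) = algebraMap A[X] E (C (H.coeff i)) := by
      rw [polyAlgE_algebraMap, aeval_C]
    rw [e1]
    exact S.algebraMap_mem _
  set g : A[X] →+* ↥S.toSubring := (evX (A := A) y).codRestrict S.toSubring hrange with hg
  have hzS : IsIntegral ↥S z := by
    refine ⟨p.map g, hp.map g, ?_⟩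
    rw [eval₂_map]
    have e2 : (algebraMap ↥S E).comp g = evX (A := A) y := by
      ext H <;> rfl
    rw [e2]
    exact hpz
  exact isIntegral_trans (R := A[X]) (A := ↥S) z hzS

/-- Ring homomorphisms over `A` preserve integrality over the chart ring. -/
theorem chartClosure_map {E₂ : Type} [Field E₂] [Algebra A E₂] (φ : E →+* E₂)
    (hφ : ∀ a : A, φ (algebraMap A E a) = algebraMap A E₂ a) {x b : E}
    (hb : b ∈ chartClosure A E x) : φ b ∈ chartClosure A E₂ (φ x) := by
  rw [Fermat.Agent.H87.KL.mem_chartClosure_iff] at hb ⊢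
  obtain ⟨p, hp, hpb⟩ := hb
  have hev : φ.comp (evX (A := A) x) = evX (A := A) (φ x) := by
    apply Polynomial.ringHom_ext
    · intro a
      show φ (aeval x (C a)) = aeval (φ x) (C a)
      rw [aeval_C, aeval_C, hφ]
    · show φ (aeval x X) = aeval (φ x) X
      rw [aeval_X, aeval_X]
  refine ⟨p, hp, ?_⟩
  have h1 := Polynomial.hom_eval₂ p (evX (A := A) x) φ b
  rw [hpb, map_zero, hev] at h1
  exact h1.symm

end Integral

section IntegralTower

variable {A : Type} [CommRing A] [IsDomain A] [IsDiscreteValuationRing A]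
variable {E' E : Type} [Field E'] [Field E] [Algebra A E'] [Algebra A E]
  [CharZero E'] [CharZero E] [Algebra E' E] [IsScalarTower A E' E]

/-- `B(x') → B(x)` is integral as soon as `B(x) ⊆ B(ι x')`. -/
theorem ordRestrict_isIntegral (x' : E') (x : E)
    (hιB : ∀ b ∈ chartClosure A E' x', algebraMap E' E b ∈ chartClosure A E x)
    (hxx : x ∈ chartClosure A E (algebraMap E' E x')) :
    (ordRestrict x' x hιB).IsIntegral := by
  intro b
  have hb : (b : E) ∈ chartClosure A E (algebraMap E' E x') := chartClosure_le_of_mem hxx b.2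
  rw [Fermat.Agent.H87.KL.mem_chartClosure_iff] at hb
  obtain ⟨p, hp, hpb⟩ := hb
  have hx'B : x' ∈ chartClosure A E' x' := by
    have := etale_aeval_mem_chartClosure A E' x' (X : A[X])
    rwa [aeval_X] at this
  set f : A[X] →+* ↥(chartClosure A E' x') :=
    (aeval (⟨x', hx'B⟩ : ↥(chartClosure A E' x')) : A[X] →ₐ[A] ↥(chartClosure A E' x')).toRingHom
    with hf
  refine ⟨p.map f, hp.map f, ?_⟩
  rw [eval₂_map]
  apply Subtype.ext
  have h1 := Polynomial.hom_eval₂ p ((ordRestrict x' x hιB).comp f)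
    ((chartClosure A E x).val.toRingHom) b
  have e2 : ((chartClosure A E x).val.toRingHom).comp ((ordRestrict x' x hιB).comp f)
      = evX (A := A) (algebraMap E' E x') := by
    apply Polynomial.ringHom_ext
    · intro a
      show algebraMap E' E ((aeval (⟨x', hx'B⟩ : ↥(chartClosure A E' x')) (C a) :
        ↥(chartClosure A E' x')) : E') = aeval (algebraMap E' E x') (C a)
      rw [aeval_C, aeval_C]
      exact (IsScalarTower.algebraMap_apply A E' E a).symm
    · show algebraMap E' E ((aeval (⟨x', hx'B⟩ : ↥(chartClosure A E' x')) X :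
        ↥(chartClosure A E' x')) : E') = aeval (algebraMap E' E x') X
      rw [aeval_X, aeval_X]
  rw [e2] at h1
  have h3 : ((chartClosure A E x).val.toRingHom) (eval₂ ((ordRestrict x' x hιB).comp f) b p)
      = 0 := by
    rw [h1]
    exact hpb
  exact h3

end IntegralTower

/-! ### The Gauss valuation `V_∞` at an arbitrary level -/

section Basics

variable {K₁ : Type} [Field K₁] [Algebra ℚ K₁] {A₀ : Type} [CommRing A₀] [IsDomain A₀]
  [IsDiscreteValuationRing A₀] [Algebra A₀ K₁] [IsFractionRing A₀ K₁] {N : ℕ}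

/-- Series with integer coefficients lie in the Gauss valuation ring. -/
theorem inV_of_int (E : IntermediateField K₁ (LaurentSeries K₁)) (Y : LaurentSeries ℤ)
    (hY : coeffMap (Int.castRingHom K₁) Y ∈ E) :
    InV (A₀ := A₀) E (coeffMap (Int.castRingHom K₁) Y) := by
  have e1 : gIota K₁ A₀ (coeffMap (Int.castRingHom A₀) Y) = coeffMap (Int.castRingHom K₁) Y := by
    show coeffMap (algebraMap A₀ K₁) (coeffMap (Int.castRingHom A₀) Y) = _
    rw [coeffMap_coeffMap, RingHom.ext_int ((algebraMap A₀ K₁).comp (Int.castRingHom A₀))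
      (Int.castRingHom K₁)]
  refine ⟨coeffMap (Int.castRingHom A₀) Y, 1, by rw [e1]; exact hY, ?_, ?_, ?_⟩
  · rw [map_one]
    exact E.one_mem
  · rw [map_one]
    exact one_ne_zero
  · rw [map_one, mul_one, e1]

theorem coeffEmb_jq_int : coeffEmb K₁ jq = coeffMap (Int.castRingHom K₁) (jqModC ℤ) := by
  rw [coeffMap_jqModC, coeffEmb, ← jqModC_rat, coeffMap_jqModC]

variable [Algebra A₀ (ModelField K₁ N)] [IsScalarTower A₀ K₁ (ModelField K₁ N)]

theorem coe_algebraMap_model (a : A₀) :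
    ((algebraMap A₀ (ModelField K₁ N) a : ModelField K₁ N) : LaurentSeries K₁) =
      algebraMap K₁ (LaurentSeries K₁) (algebraMap A₀ K₁ a) :=
  Fermat.Agent.H55.SS.gc_coe_algebraMap a

theorem algebraMap_mem_gaussValM (a : A₀) :
    algebraMap A₀ (ModelField K₁ N) a ∈ gaussValM K₁ A₀ N := by
  rw [mem_gaussValM_iff, coe_algebraMap_model]
  have e1 : gIota K₁ A₀ (algebraMap A₀ (LaurentSeries A₀) a)
      = algebraMap K₁ (LaurentSeries K₁) (algebraMap A₀ K₁ a) :=
    coeffMap_algebraMap_gen (algebraMap A₀ K₁) a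
  refine ⟨algebraMap A₀ (LaurentSeries A₀) a, 1, ?_, ?_, ?_, ?_⟩
  · rw [e1]
    exact IntermediateField.algebraMap_mem _ _
  · rw [map_one]
    exact IntermediateField.one_mem _
  · rw [map_one]
    exact one_ne_zero
  · rw [map_one, mul_one, e1]

theorem pi_mem_nonunits_gaussValM {ϖ : A₀} (hϖ : Irreducible ϖ) :
    algebraMap A₀ (ModelField K₁ N) ϖ ∈ (gaussValM K₁ A₀ N).nonunits := by
  rw [mem_nonunits_gaussValM_iff, coe_algebraMap_model]
  have e1 : gIota K₁ A₀ (algebraMap A₀ (LaurentSeries A₀) ϖ)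
      = algebraMap K₁ (LaurentSeries K₁) (algebraMap A₀ K₁ ϖ) :=
    coeffMap_algebraMap_gen (algebraMap A₀ K₁) ϖ
  refine ⟨algebraMap A₀ (LaurentSeries A₀) ϖ, 1, ?_, ?_, ?_, ?_, ?_⟩
  · rw [e1]
    exact IntermediateField.algebraMap_mem _ _
  · rw [map_one]
    exact IntermediateField.one_mem _
  · show coeffMap (IsLocalRing.residue A₀) (algebraMap A₀ (LaurentSeries A₀) ϖ) = 0
    rw [coeffMap_algebraMap_gen]
    have : IsLocalRing.residue A₀ ϖ = 0 := by
      rw [IsLocalRing.residue_eq_zero_iff]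
      exact (IsLocalRing.mem_maximalIdeal ϖ).2 hϖ.not_isUnit
    rw [this, map_zero]
  · rw [map_one]
    exact one_ne_zero
  · rw [map_one, mul_one, e1]

theorem div_pi_mem_gaussValM {ϖ : A₀} (hϖ : Irreducible ϖ) (z : ModelField K₁ N)
    (hz : z ∈ (gaussValM K₁ A₀ N).nonunits) :
    z / algebraMap A₀ (ModelField K₁ N) ϖ ∈ gaussValM K₁ A₀ N := by
  rw [mem_nonunits_gaussValM_iff] at hz
  rw [mem_gaussValM_iff]
  have h1 := InM.inV_div _ hz hϖ
  have e1 : ((z / algebraMap A₀ (ModelField K₁ N) ϖ : ModelField K₁ N) : LaurentSeries K₁)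
      = algebraMap K₁ (LaurentSeries K₁) (algebraMap A₀ K₁ ϖ)⁻¹ * (z : LaurentSeries K₁) := by
    rw [IntermediateField.coe_div, coe_algebraMap_model, map_inv₀, div_eq_mul_inv, mul_comm]
  rw [e1]
  exact h1

/-- An element of the model field with integer `q`-expansion lies in `V_∞`. -/
theorem int_mem_gaussValM (y : ModelField K₁ N) (Y : LaurentSeries ℤ)
    (hy : (y : LaurentSeries K₁) = coeffMap (Int.castRingHom K₁) Y) :
    y ∈ gaussValM K₁ A₀ N := by
  rw [mem_gaussValM_iff, hy]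
  exact inV_of_int _ Y (by rw [← hy]; exact y.2)

/-- `B(x) ⊆ V_∞` when `x` has an integer `q`-expansion. -/
theorem chartClosure_le_gaussValM (x : ModelField K₁ N) (Y : LaurentSeries ℤ)
    (hx : (x : LaurentSeries K₁) = coeffMap (Int.castRingHom K₁) Y)
    {s : ModelField K₁ N} (hs : s ∈ chartClosure A₀ (ModelField K₁ N) x) :
    s ∈ gaussValM K₁ A₀ N :=
  valuationSubring_ge_chartClosure _ algebraMap_mem_gaussValM (int_mem_gaussValM x Y hx) hs

end Basics

/-! ### The second Gauss valuation `V_0 = W⁻¹ V_∞` -/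

section Zero

variable (K₁ : Type) [Field K₁] [Algebra ℚ K₁] (A₀ : Type) [CommRing A₀] [IsDomain A₀]
  [IsDiscreteValuationRing A₀] [Algebra A₀ K₁] [IsFractionRing A₀ K₁] (N : ℕ)

/-- `V_0 = W⁻¹ V_∞`. -/
def gaussValZero (W : ModelField K₁ N ≃ₐ[K₁] ModelField K₁ N) :
    ValuationSubring (ModelField K₁ N) :=
  (gaussValM K₁ A₀ N).comap
    ((W.toRingEquiv : ModelField K₁ N ≃+* ModelField K₁ N) : ModelField K₁ N →+* ModelField K₁ N)

variable {K₁ A₀ N}

theorem mem_gaussValZero_iff (W : ModelField K₁ N ≃ₐ[K₁] ModelField K₁ N)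
    (z : ModelField K₁ N) :
    z ∈ gaussValZero K₁ A₀ N W ↔ W z ∈ gaussValM K₁ A₀ N := Iff.rfl

theorem mem_nonunits_gaussValZero_iff (W : ModelField K₁ N ≃ₐ[K₁] ModelField K₁ N)
    (z : ModelField K₁ N) :
    z ∈ (gaussValZero K₁ A₀ N W).nonunits ↔ W z ∈ (gaussValM K₁ A₀ N).nonunits :=
  ss_mem_nonunits_comap W.toRingEquiv _ z

variable [Algebra A₀ (ModelField K₁ N)] [IsScalarTower A₀ K₁ (ModelField K₁ N)]

theorem algEquiv_algebraMap_model (W : ModelField K₁ N ≃ₐ[K₁] ModelField K₁ N) (a : A₀) :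
    W (algebraMap A₀ (ModelField K₁ N) a) = algebraMap A₀ (ModelField K₁ N) a := by
  rw [IsScalarTower.algebraMap_apply A₀ K₁ (ModelField K₁ N), AlgEquiv.commutes]

theorem algebraMap_mem_gaussValZero (W : ModelField K₁ N ≃ₐ[K₁] ModelField K₁ N) (a : A₀) :
    algebraMap A₀ (ModelField K₁ N) a ∈ gaussValZero K₁ A₀ N W := by
  rw [mem_gaussValZero_iff, algEquiv_algebraMap_model]
  exact algebraMap_mem_gaussValM a

theorem pi_mem_nonunits_gaussValZero (W : ModelField K₁ N ≃ₐ[K₁] ModelField K₁ N)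
    {ϖ : A₀} (hϖ : Irreducible ϖ) :
    algebraMap A₀ (ModelField K₁ N) ϖ ∈ (gaussValZero K₁ A₀ N W).nonunits := by
  rw [mem_nonunits_gaussValZero_iff, algEquiv_algebraMap_model]
  exact pi_mem_nonunits_gaussValM hϖ

theorem div_pi_mem_gaussValZero (W : ModelField K₁ N ≃ₐ[K₁] ModelField K₁ N)
    {ϖ : A₀} (hϖ : Irreducible ϖ) (z : ModelField K₁ N)
    (hz : z ∈ (gaussValZero K₁ A₀ N W).nonunits) :
    z / algebraMap A₀ (ModelField K₁ N) ϖ ∈ gaussValZero K₁ A₀ N W := by
  rw [mem_nonunits_gaussValZero_iff] at hz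
  rw [mem_gaussValZero_iff, map_div₀, algEquiv_algebraMap_model]
  exact div_pi_mem_gaussValM hϖ _ hz

/-- `B(x) ⊆ V_0` when `W x` has an integer `q`-expansion. -/
theorem chartClosure_le_gaussValZero (W : ModelField K₁ N ≃ₐ[K₁] ModelField K₁ N)
    (x : ModelField K₁ N) (Y : LaurentSeries ℤ)
    (hx : (W x : LaurentSeries K₁) = coeffMap (Int.castRingHom K₁) Y)
    {s : ModelField K₁ N} (hs : s ∈ chartClosure A₀ (ModelField K₁ N) x) :
    s ∈ gaussValZero K₁ A₀ N W :=
  valuationSubring_ge_chartClosure _ (algebraMap_mem_gaussValZero W)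
    ((mem_gaussValZero_iff W x).2 (int_mem_gaussValM (W x) Y hx)) hs

end Zero

/-! ### The Gauss closure at level `N` (one Gauss valuation) and at level `M q` (two) -/

section Closure

variable {K₁ : Type} [Field K₁] [Algebra ℚ K₁] [FiniteDimensional ℚ K₁]
  {A₀ : Type} [CommRing A₀] [IsDomain A₀]
  [IsDiscreteValuationRing A₀] [Algebra A₀ K₁] [IsFractionRing A₀ K₁]

/-- `C(x) ⊆ V_∞` at any level. -/
theorem mem_gaussValM_of_mem_gaussClosure (N : ℕ) [NeZero N]
    [Algebra A₀ (ModelField K₁ N)] [IsScalarTower A₀ K₁ (ModelField K₁ N)]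
    {ϖ : A₀} (hϖ : Irreducible ϖ) (x : ModelField K₁ N)
    (hx : (x : LaurentSeries K₁) = coeffEmb K₁ jq) (z : ModelField K₁ N)
    (hz : z ∈ gaussClosure A₀ (ModelField K₁ N) ϖ x) : z ∈ gaussValM K₁ A₀ N := by
  have hxtr : Transcendental A₀ x := Fermat.Agent.H58.modelTranscendental_jq N K₁ A₀ x hx
  obtain ⟨H, hH, hint⟩ := (Fermat.Agent.H87.KL.mem_gaussClosure_iff hxtr ϖ z).mp hz
  have h1 := Fermat.Agent.H55.SS.gc_core hϖ x (jqModC _)
    (by rw [hx, Fermat.Agent.H65.mg_coeffEmb_jq]) (by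
      rw [Fermat.Agent.H65.mg_vRho_jq]
      exact Fermat.Agent.H65.mg_transcendental_jqModC _) z H hH hint
  obtain ⟨a, b, ha, hb, hbu, hab⟩ := Fermat.Agent.H55.SS.gc_exists z h1
  rw [mem_gaussValM_iff]
  exact inV_of_quot _ a.2 b.2 ha hb hbu (congrArg Subtype.val hab)

/-- `V_∞ ⊆ C(x)` at a level prime to `q` (the `q`-expansion principle). -/
theorem mem_gaussClosure_of_mem_gaussValM (N q : ℕ) [NeZero N] (hq : q.Prime) (hqN : ¬ q ∣ N)
    [Algebra A₀ (ModelField K₁ N)] [IsScalarTower A₀ K₁ (ModelField K₁ N)]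
    (hqA : ¬ IsUnit ((q : ℕ) : A₀))
    {ϖ : A₀} (hϖ : Irreducible ϖ) (x : ModelField K₁ N)
    (hx : (x : LaurentSeries K₁) = coeffEmb K₁ jq) (z : ModelField K₁ N)
    (hz : z ∈ gaussValM K₁ A₀ N) : z ∈ gaussClosure A₀ (ModelField K₁ N) ϖ x := by
  have hφ : Function.Injective (algebraMap A₀ K₁) := IsFractionRing.injective A₀ K₁
  obtain ⟨a, b, ha, hb, hbu, hab⟩ := InV.exists_quot _ ((mem_gaussValM_iff z).1 hz)
  have hb0 : b ≠ 0 := by
    rintro rfl
    obtain ⟨n, c, hc, hcn⟩ := hbu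
    have h0 : algebraMap A₀ K₁ c = 0 := by
      rw [hcn]
      rfl
    exact hc.ne_zero ((map_eq_zero_iff _ hφ).1 h0)
  have hzab : z = a / b := by
    rw [eq_div_iff hb0]
    exact hab
  rw [hzab]
  exact Fermat.Agent.H48.QExp.modelQExp_j N q hq hqN K₁ A₀ hqA ϖ hϖ x hx a b ha hb hbu

/-- `V_∞ ∩ V_0 ⊆ C(x)` at level `M q` (the two-sided `q`-expansion principle). -/
theorem mem_gaussClosure_of_two (M q : ℕ) [NeZero M] [NeZero q] (hq : q.Prime) (hqM : ¬ q ∣ M)
    [Algebra A₀ (ModelField K₁ (M * q))] [IsScalarTower A₀ K₁ (ModelField K₁ (M * q))]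
    (hqA : ¬ IsUnit ((q : ℕ) : A₀))
    {ϖ : A₀} (hϖ : Irreducible ϖ) (x : ModelField K₁ (M * q))
    (hx : (x : LaurentSeries K₁) = coeffEmb K₁ jq)
    (W : ModelField K₁ (M * q) ≃ₐ[K₁] ModelField K₁ (M * q)) (hW : IsAtkinLehnerModel K₁ M q W)
    (z : ModelField K₁ (M * q)) (h1 : z ∈ gaussValM K₁ A₀ (M * q))
    (h2 : z ∈ gaussValZero K₁ A₀ (M * q) W) :
    z ∈ gaussClosure A₀ (ModelField K₁ (M * q)) ϖ x :=
  mem_gaussClosure_of_inV M q jq (Fermat.Agent.H66.SS.modelQExp2 M q hq hqM) K₁ A₀ hqA ϖ hϖ x hx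
    W hW z h1 h2

end Closure

end Fermat.Agent.H41.SS

end
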