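/-
P-SS / SSH-7 ORDINARY POINTS (row 648, helper41): THE ROW THEOREM.

`ssPlaceGenOrd (hq : q.Prime) (hqM : ¬ q ∣ M) :
   ModelLevelRegStatement M q jq R → ModelFracStatement M q →
   Fermat.Agent.H45.SSPlaceGenOrdStatement M q jq R`

Inputs (module `OrdInterfaces`): (REG') level `M` is regular at the closed points of its special
fibre; (FRAC) the residue field of `V_∞` at level `M q` is the residue field of level `M`.
Everything else is landed and unconditional: the two-sided `q`-expansion principle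
(`H66.SS.modelQExp2`), the one-sided one at level `M` (`H48.QExp.modelQExp_j`), the Gauss
converse (`H55.SS.gc_core`), Lemma T (`H34.lemmaT`), integrality of `j_q` over `A₀[j]`
(`H66.SS.smi_gen`), finiteness and transcendence (`H57`, `H58`), the abstract ordinary point
theorem (`ordPoint_placeGenAt`).

The component `∞` is treated with the inclusion `α : E' → E` and `(V₁, V₂) = (V_∞, V_0)`, the
component `0` with `β : E' → E`, `f ↦ f(t^q)`, and `(V₁, V₂) = (V_0, V_∞)`.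
-/
import Mathlib
import Fermat.Agent.H41.SS.OrdInterfaces
import Fermat.Agent.H41.SS.OrdModel

set_option autoImplicit false
set_option linter.style.haveILetI false
set_option linter.unusedSectionVars false

noncomputable section

namespace Fermat.Agent.H41.SS

open Polynomial ModularCurve
open Fermat.Agent.H22.KL Fermat.Agent.H45 Fermat.Agent.H7.SS Fermat.Agent.H48.QExp
open Fermat.Agent.H82.SS
open Fermat.Agent.H87.KL (evX IntX)

section Cases

variable (M q : ℕ) [NeZero M] [NeZero q]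
variable (K₁ : Type) [Field K₁] [Algebra ℚ K₁] [FiniteDimensional ℚ K₁]
  (A₀ : Type) [CommRing A₀] [IsDomain A₀] [IsDiscreteValuationRing A₀]
  [Algebra A₀ K₁] [IsFractionRing A₀ K₁]
  [Algebra A₀ (ModelField K₁ (M * q))] [IsScalarTower A₀ K₁ (ModelField K₁ (M * q))]
  [Algebra A₀ (ModelField K₁ M)] [IsScalarTower A₀ K₁ (ModelField K₁ M)]

theorem laurentBaseChange_le_mul :
    laurentBaseChange K₁ (modularFunctionFieldFull M)
      ≤ laurentBaseChange K₁ (modularFunctionFieldFull (M * q)) := by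
  intro z hz
  have := (heckeAlphaBar K₁ M q ⟨z, hz⟩).2
  rwa [coe_heckeAlphaBar] at this

/-- `α z' ∈ V_∞(E) ↔ z' ∈ V_∞(E')`. -/
theorem alpha_mem_gaussValM_iff (z' : ModelField K₁ M) :
    heckeAlphaBar K₁ M q z' ∈ gaussValM K₁ A₀ (M * q) ↔ z' ∈ gaussValM K₁ A₀ M := by
  rw [mem_gaussValM_iff, mem_gaussValM_iff, coe_heckeAlphaBar]
  exact ⟨fun h => inV_of_inV_of_mem (hasGNF_model K₁ A₀ M) (laurentBaseChange_le_mul M q K₁)
    z'.2 h, fun h => inV_of_le (laurentBaseChange_le_mul M q K₁) h⟩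

/-- **Component `∞`.** -/
theorem ssPlaceGenOrd_infty (hq : q.Prime) (hqM : ¬ q ∣ M)
    (hqA : ¬ IsUnit ((q : ℕ) : A₀)) (ϖ : A₀) (hϖ : Irreducible ϖ)
    (x : ModelField K₁ (M * q)) (hx : (x : LaurentSeries K₁) = coeffEmb K₁ jq)
    (x' : ModelField K₁ M) (hx' : (x' : LaurentSeries K₁) = coeffEmb K₁ jq)
    (W : ModelField K₁ (M * q) ≃ₐ[K₁] ModelField K₁ (M * q)) (hW : IsAtkinLehnerModel K₁ M q W)
    (hFrac : ModelFracStatement M q)
    (hREG' : ∀ 𝔫 : Ideal ↥(chartClosure A₀ (ModelField K₁ M) x'), 𝔫.IsMaximal →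
      algebraMap A₀ ↥(chartClosure A₀ (ModelField K₁ M) x') ϖ ∈ 𝔫 →
      ∃ U : ↥(chartClosure A₀ (ModelField K₁ M) x'), U ∈ 𝔫 ∧ ∀ z ∈ 𝔫, ∃ s, s ∉ 𝔫 ∧
        ∃ b₁ b₂ : ↥(chartClosure A₀ (ModelField K₁ M) x'),
          s * z = algebraMap A₀ ↥(chartClosure A₀ (ModelField K₁ M) x') ϖ * b₁ + U * b₂)
    (𝔪 : Ideal ↥(chartClosure A₀ (ModelField K₁ (M * q)) x)) (h𝔪 : 𝔪.IsMaximal)
    (hϖ𝔪 : algebraMap A₀ ↥(chartClosure A₀ (ModelField K₁ (M * q)) x) ϖ ∈ 𝔪)
    (s₀ : ↥(chartClosure A₀ (ModelField K₁ (M * q)) x))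
    (hs₀ : SSMaxInfty K₁ (M * q) A₀ ϖ (W (s₀ : ModelField K₁ (M * q)))) (hs₀𝔪 : s₀ ∉ 𝔪) :
    PlaceGenAt A₀ (ModelField K₁ (M * q)) x 𝔪 := by
  classical
  haveI : NeZero (M * q) := ⟨Nat.mul_ne_zero (NeZero.ne M) (NeZero.ne q)⟩
  haveI : CharZero K₁ := charZero_of_injective_algebraMap (algebraMap ℚ K₁).injective
  haveI : CharZero (ModelField K₁ (M * q)) :=
    charZero_of_injective_algebraMap (algebraMap K₁ (ModelField K₁ (M * q))).injective
  haveI : CharZero (ModelField K₁ M) :=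
    charZero_of_injective_algebraMap (algebraMap K₁ (ModelField K₁ M)).injective
  have hinj : Function.Injective (algebraMap A₀ (ModelField K₁ (M * q))) := by
    rw [IsScalarTower.algebraMap_eq A₀ K₁ (ModelField K₁ (M * q))]
    exact (algebraMap K₁ (ModelField K₁ (M * q))).injective.comp (IsFractionRing.injective A₀ K₁)
  have hinj' : Function.Injective (algebraMap A₀ (ModelField K₁ M)) := by
    rw [IsScalarTower.algebraMap_eq A₀ K₁ (ModelField K₁ M)]
    exact (algebraMap K₁ (ModelField K₁ M)).injective.comp (IsFractionRing.injective A₀ K₁)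
  letI algT : Algebra (ModelField K₁ M) (ModelField K₁ (M * q)) :=
    (heckeAlphaBar K₁ M q).toRingHom.toAlgebra
  have halg : ∀ z' : ModelField K₁ M,
      algebraMap (ModelField K₁ M) (ModelField K₁ (M * q)) z' = heckeAlphaBar K₁ M q z' :=
    fun _ => rfl
  haveI towT : IsScalarTower A₀ (ModelField K₁ M) (ModelField K₁ (M * q)) :=
    IsScalarTower.of_algebraMap_eq (fun a => by
      rw [halg, IsScalarTower.algebraMap_apply A₀ K₁ (ModelField K₁ (M * q)),
        IsScalarTower.algebraMap_apply A₀ K₁ (ModelField K₁ M), AlgHom.commutes])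
  have hαx : algebraMap (ModelField K₁ M) (ModelField K₁ (M * q)) x' = x := by
    apply Subtype.ext
    rw [halg, coe_heckeAlphaBar, hx, hx']
  have hWx : ((W x : ModelField K₁ (M * q)) : LaurentSeries K₁)
      = coeffMap (Int.castRingHom K₁) (qExpand ℤ q (jqModC ℤ)) := by
    rw [← hαx, halg, hW.1, coe_heckeBetaBar, hx', coeffEmb_jq_int, coeffMap_qExpand]
  have hxtr := Fermat.Agent.H58.modelTranscendental_jq (M * q) K₁ A₀ x hx
  have hx'tr := Fermat.Agent.H58.modelTranscendental_jq M K₁ A₀ x' hx'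
  have hfd := Fermat.Agent.H57.SS.modelFinite (M * q) K₁ A₀ x hx
  have hfd' := Fermat.Agent.H57.SS.modelFinite M K₁ A₀ x' hx'
  have hιB : ∀ b ∈ chartClosure A₀ (ModelField K₁ M) x',
      algebraMap (ModelField K₁ M) (ModelField K₁ (M * q)) b
        ∈ chartClosure A₀ (ModelField K₁ (M * q)) x := by
    intro b hb
    rw [← hαx, Fermat.Agent.H87.KL.mem_chartClosure_iff]
    exact Fermat.Agent.H87.KL.IntX.map_tower ((Fermat.Agent.H87.KL.mem_chartClosure_iff _ _).1 hb)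
  have hxx : x ∈ chartClosure A₀ (ModelField K₁ (M * q))
      (algebraMap (ModelField K₁ M) (ModelField K₁ (M * q)) x') := by
    rw [hαx]
    have := etale_aeval_mem_chartClosure A₀ (ModelField K₁ (M * q)) x (X : A₀[X])
    rwa [aeval_X] at this
  refine ordPoint_placeGenAt hinj hinj' ϖ hϖ x x' hx'tr hfd' hιB
    (ordRestrict_isIntegral x' x hιB hxx)
    (gaussValM K₁ A₀ (M * q)) (gaussValZero K₁ A₀ (M * q) W)
    (fun z h1 h2 => mem_gaussClosure_of_two M q hq hqM hqA hϖ x hx W hW z h1 h2)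
    (div_pi_mem_gaussValM hϖ) (div_pi_mem_gaussValZero W hϖ)
    (fun s hs => chartClosure_le_gaussValM x (jqModC ℤ) (hx.trans coeffEmb_jq_int) hs)
    (fun s hs => chartClosure_le_gaussValZero W x _ hWx hs)
    (pi_mem_nonunits_gaussValM hϖ) ?_ ?_ ?_ hREG' hxtr hfd 𝔪 h𝔪 hϖ𝔪 s₀
    ((mem_nonunits_gaussValZero_iff W _).2 ((ssMaxInfty_iff hϖ _).1 hs₀)) hs₀𝔪
  · -- `C(x') ⊆ V_∞`
    intro z' hz'
    rw [halg, alpha_mem_gaussValM_iff]
    exact mem_gaussValM_of_mem_gaussClosure M hϖ x' hx' z' hz'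
  · -- `V_∞ ∩ E' ⊆ C(x')`
    intro z' hz'
    rw [halg, alpha_mem_gaussValM_iff] at hz'
    exact mem_gaussClosure_of_mem_gaussValM M q hq hqM hqA hϖ x' hx' z' hz'
  · -- (FRAC)
    intro z hz
    obtain ⟨z'', hz''V, hzz''⟩ := hFrac K₁ A₀ hqA (z : LaurentSeries K₁)
      ((mem_gaussValM_iff z).1 hz)
    refine ⟨⟨z'', InV.mem hz''V⟩, ?_, ?_⟩
    · rw [halg, alpha_mem_gaussValM_iff, mem_gaussValM_iff]
      exact hz''V
    · rw [mem_nonunits_gaussValM_iff, halg]
      exact hzz''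

/-- **Component `0`.** -/
theorem ssPlaceGenOrd_zero (hq : q.Prime) (hqM : ¬ q ∣ M)
    (hqA : ¬ IsUnit ((q : ℕ) : A₀)) (ϖ : A₀) (hϖ : Irreducible ϖ)
    (x : ModelField K₁ (M * q)) (hx : (x : LaurentSeries K₁) = coeffEmb K₁ jq)
    (x' : ModelField K₁ M) (hx' : (x' : LaurentSeries K₁) = coeffEmb K₁ jq)
    (W : ModelField K₁ (M * q) ≃ₐ[K₁] ModelField K₁ (M * q)) (hW : IsAtkinLehnerModel K₁ M q W)
    (hFrac : ModelFracStatement M q)
    (hREG' : ∀ 𝔫 : Ideal ↥(chartClosure A₀ (ModelField K₁ M) x'), 𝔫.IsMaximal →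
      algebraMap A₀ ↥(chartClosure A₀ (ModelField K₁ M) x') ϖ ∈ 𝔫 →
      ∃ U : ↥(chartClosure A₀ (ModelField K₁ M) x'), U ∈ 𝔫 ∧ ∀ z ∈ 𝔫, ∃ s, s ∉ 𝔫 ∧
        ∃ b₁ b₂ : ↥(chartClosure A₀ (ModelField K₁ M) x'),
          s * z = algebraMap A₀ ↥(chartClosure A₀ (ModelField K₁ M) x') ϖ * b₁ + U * b₂)
    (𝔪 : Ideal ↥(chartClosure A₀ (ModelField K₁ (M * q)) x)) (h𝔪 : 𝔪.IsMaximal)
    (hϖ𝔪 : algebraMap A₀ ↥(chartClosure A₀ (ModelField K₁ (M * q)) x) ϖ ∈ 𝔪)
    (s₀ : ↥(chartClosure A₀ (ModelField K₁ (M * q)) x))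
    (hs₀ : SSMaxInfty K₁ (M * q) A₀ ϖ (s₀ : ModelField K₁ (M * q))) (hs₀𝔪 : s₀ ∉ 𝔪) :
    PlaceGenAt A₀ (ModelField K₁ (M * q)) x 𝔪 := by
  classical
  haveI : NeZero (M * q) := ⟨Nat.mul_ne_zero (NeZero.ne M) (NeZero.ne q)⟩
  haveI : CharZero K₁ := charZero_of_injective_algebraMap (algebraMap ℚ K₁).injective
  haveI : CharZero (ModelField K₁ (M * q)) :=
    charZero_of_injective_algebraMap (algebraMap K₁ (ModelField K₁ (M * q))).injective
  haveI : CharZero (ModelField K₁ M) :=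
    charZero_of_injective_algebraMap (algebraMap K₁ (ModelField K₁ M)).injective
  have hinj : Function.Injective (algebraMap A₀ (ModelField K₁ (M * q))) := by
    rw [IsScalarTower.algebraMap_eq A₀ K₁ (ModelField K₁ (M * q))]
    exact (algebraMap K₁ (ModelField K₁ (M * q))).injective.comp (IsFractionRing.injective A₀ K₁)
  have hinj' : Function.Injective (algebraMap A₀ (ModelField K₁ M)) := by
    rw [IsScalarTower.algebraMap_eq A₀ K₁ (ModelField K₁ M)]
    exact (algebraMap K₁ (ModelField K₁ M)).injective.comp (IsFractionRing.injective A₀ K₁)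
  letI algT : Algebra (ModelField K₁ M) (ModelField K₁ (M * q)) :=
    (heckeBetaBar K₁ M q).toRingHom.toAlgebra
  have halg : ∀ z' : ModelField K₁ M,
      algebraMap (ModelField K₁ M) (ModelField K₁ (M * q)) z' = heckeBetaBar K₁ M q z' :=
    fun _ => rfl
  haveI towT : IsScalarTower A₀ (ModelField K₁ M) (ModelField K₁ (M * q)) :=
    IsScalarTower.of_algebraMap_eq (fun a => by
      rw [halg, IsScalarTower.algebraMap_apply A₀ K₁ (ModelField K₁ (M * q)),
        IsScalarTower.algebraMap_apply A₀ K₁ (ModelField K₁ M), AlgHom.commutes])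
  have hxα : x = heckeAlphaBar K₁ M q x' := by
    apply Subtype.ext
    rw [coe_heckeAlphaBar, hx, hx']
  have hWx : W x = heckeBetaBar K₁ M q x' := by rw [hxα, hW.1]
  have hWβ : W (heckeBetaBar K₁ M q x') = x := by rw [hW.2, hxα]
  have hβcoe : ((heckeBetaBar K₁ M q x' : ModelField K₁ (M * q)) : LaurentSeries K₁)
      = qExpand K₁ q (jqModC K₁) := by
    rw [coe_heckeBetaBar, hx', coeffEmb_jq_int, coeffMap_jqModC]
  have hxtr := Fermat.Agent.H58.modelTranscendental_jq (M * q) K₁ A₀ x hx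
  have hx'tr := Fermat.Agent.H58.modelTranscendental_jq M K₁ A₀ x' hx'
  have hfd := Fermat.Agent.H57.SS.modelFinite (M * q) K₁ A₀ x hx
  have hfd' := Fermat.Agent.H57.SS.modelFinite M K₁ A₀ x' hx'
  -- `j_q ∈ B(j)` and `j ∈ B(j_q)`
  have hβB : heckeBetaBar K₁ M q x' ∈ chartClosure A₀ (ModelField K₁ (M * q)) x :=
    (Fermat.Agent.H87.KL.mem_chartClosure_iff _ _).2
      (Fermat.Agent.H66.SS.smi_gen x hx (heckeBetaBar K₁ M q x') q hβcoe)
  have hxx : x ∈ chartClosure A₀ (ModelField K₁ (M * q))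
      (algebraMap (ModelField K₁ M) (ModelField K₁ (M * q)) x') := by
    have h1 := chartClosure_map (A := A₀)
      ((W.toRingEquiv : ModelField K₁ (M * q) ≃+* ModelField K₁ (M * q)) :
        ModelField K₁ (M * q) →+* ModelField K₁ (M * q))
      (fun a => algEquiv_algebraMap_model W a) hβB
    have e1 : ((W.toRingEquiv : ModelField K₁ (M * q) ≃+* ModelField K₁ (M * q)) :
        ModelField K₁ (M * q) →+* ModelField K₁ (M * q)) (heckeBetaBar K₁ M q x') = x := hWβ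
    have e2 : ((W.toRingEquiv : ModelField K₁ (M * q) ≃+* ModelField K₁ (M * q)) :
        ModelField K₁ (M * q) →+* ModelField K₁ (M * q)) x = heckeBetaBar K₁ M q x' := hWx
    rw [e1, e2] at h1
    rw [halg]
    exact h1
  have hιB : ∀ b ∈ chartClosure A₀ (ModelField K₁ M) x',
      algebraMap (ModelField K₁ M) (ModelField K₁ (M * q)) b
        ∈ chartClosure A₀ (ModelField K₁ (M * q)) x := by
    intro b hb
    have h1 : algebraMap (ModelField K₁ M) (ModelField K₁ (M * q)) b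
        ∈ chartClosure A₀ (ModelField K₁ (M * q))
          (algebraMap (ModelField K₁ M) (ModelField K₁ (M * q)) x') := by
      rw [Fermat.Agent.H87.KL.mem_chartClosure_iff]
      exact Fermat.Agent.H87.KL.IntX.map_tower
        ((Fermat.Agent.H87.KL.mem_chartClosure_iff _ _).1 hb)
    have h2 : algebraMap (ModelField K₁ M) (ModelField K₁ (M * q)) x'
        ∈ chartClosure A₀ (ModelField K₁ (M * q)) x := by
      rw [halg]
      exact hβB
    exact chartClosure_le_of_mem h2 h1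
  have hxint : (x : LaurentSeries K₁) = coeffMap (Int.castRingHom K₁) (jqModC ℤ) :=
    hx.trans coeffEmb_jq_int
  have hWxint : ((W x : ModelField K₁ (M * q)) : LaurentSeries K₁)
      = coeffMap (Int.castRingHom K₁) (qExpand ℤ q (jqModC ℤ)) := by
    rw [hWx, hβcoe, coeffMap_qExpand, coeffMap_jqModC]
  refine ordPoint_placeGenAt hinj hinj' ϖ hϖ x x' hx'tr hfd' hιB
    (ordRestrict_isIntegral x' x hιB hxx)
    (gaussValZero K₁ A₀ (M * q) W) (gaussValM K₁ A₀ (M * q))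
    (fun z h1 h2 => mem_gaussClosure_of_two M q hq hqM hqA hϖ x hx W hW z h2 h1)
    (div_pi_mem_gaussValZero W hϖ) (div_pi_mem_gaussValM hϖ)
    (fun s hs => chartClosure_le_gaussValZero W x _ hWxint hs)
    (fun s hs => chartClosure_le_gaussValM x (jqModC ℤ) hxint hs)
    (pi_mem_nonunits_gaussValZero W hϖ) ?_ ?_ ?_ hREG' hxtr hfd 𝔪 h𝔪 hϖ𝔪 s₀
    ((ssMaxInfty_iff hϖ _).1 hs₀) hs₀𝔪
  · -- `C(x') ⊆ β⁻¹ V_0`
    intro z' hz'
    rw [halg, mem_gaussValZero_iff, hW.2, alpha_mem_gaussValM_iff]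
    exact mem_gaussValM_of_mem_gaussClosure M hϖ x' hx' z' hz'
  · -- `β⁻¹ V_0 ⊆ C(x')`
    intro z' hz'
    rw [halg, mem_gaussValZero_iff, hW.2, alpha_mem_gaussValM_iff] at hz'
    exact mem_gaussClosure_of_mem_gaussValM M q hq hqM hqA hϖ x' hx' z' hz'
  · -- (FRAC)
    intro z hz
    obtain ⟨z'', hz''V, hzz''⟩ := hFrac K₁ A₀ hqA ((W z : ModelField K₁ (M * q)) :
      LaurentSeries K₁) ((mem_gaussValM_iff (W z)).1 ((mem_gaussValZero_iff W z).1 hz))
    refine ⟨⟨z'', InV.mem hz''V⟩, ?_, ?_⟩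
    · rw [halg, mem_gaussValZero_iff, hW.2, alpha_mem_gaussValM_iff, mem_gaussValM_iff]
      exact hz''V
    · rw [mem_nonunits_gaussValZero_iff, map_sub, halg, hW.2, mem_nonunits_gaussValM_iff]
      exact hzz''

end Cases

/-- **SSH-7, ORDINARY POINTS** (row 648): place generators at every maximal ideal `𝔪 ∋ ϖ` of
`B(j)` at level `M q` which does not lie on both components of the special fibre, from the
regularity of level `M` (REG') and the birationality of the components with level `M` (FRAC). -/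
theorem ssPlaceGenOrd (M q : ℕ) [NeZero M] [NeZero q] (hq : q.Prime) (hqM : ¬ q ∣ M) (R : ℕ)
    (hReg : ModelLevelRegStatement M q jq R) (hFrac : ModelFracStatement M q) :
    SSPlaceGenOrdStatement M q jq R := by
  intro K₁ _ _ _ A₀ _ _ _ _ _ _ _ hqA hζ ϖ hϖ x hx W hW 𝔪 h𝔪 hϖ𝔪 hnot
  classical
  letI algE' : Algebra A₀ (ModelField K₁ M) :=
    ((algebraMap K₁ (ModelField K₁ M)).comp (algebraMap A₀ K₁)).toAlgebra
  haveI towE' : IsScalarTower A₀ K₁ (ModelField K₁ M) :=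
    IsScalarTower.of_algebraMap_eq (fun _ => rfl)
  have hjq : jq ∈ modularFunctionFieldFull M := by
    have := jqd_mem_full M (one_dvd M)
    rwa [qExpand_one_apply] at this
  let x' : ModelField K₁ M := ⟨coeffEmb K₁ jq, coeffEmb_mem_laurentBaseChange K₁ hjq⟩
  have hx' : (x' : LaurentSeries K₁) = coeffEmb K₁ jq := rfl
  have hREG' := hReg K₁ A₀ hqA hζ ϖ hϖ x' hx'
  by_cases hZ : SSOnZero K₁ (M * q) A₀ ϖ W x 𝔪
  · have hI : ¬ SSOnInfty K₁ (M * q) A₀ ϖ x 𝔪 := fun h => hnot ⟨h, hZ⟩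
    unfold SSOnInfty at hI
    push Not at hI
    obtain ⟨s₀, hs₀, hs₀𝔪⟩ := hI
    exact ssPlaceGenOrd_zero M q K₁ A₀ hq hqM hqA ϖ hϖ x hx x' hx' W hW hFrac hREG' 𝔪 h𝔪 hϖ𝔪
      s₀ hs₀ hs₀𝔪
  · unfold SSOnZero at hZ
    push Not at hZ
    obtain ⟨s₀, hs₀, hs₀𝔪⟩ := hZ
    exact ssPlaceGenOrd_infty M q K₁ A₀ hq hqM hqA ϖ hϖ x hx x' hx' W hW hFrac hREG' 𝔪 h𝔪 hϖ𝔪
      s₀ hs₀ hs₀𝔪

end Fermat.Agent.H41.SS

end
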