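/-
P-SS / SSH-18 LEVELREG-GEN (row 1049, helper41): LEVEL-`M` REGULARITY at every closed point of
the special fibre, in a chart `x₀` with GoodBasis + BranchHyp + `q`-expansion principle.

`modelLevelReg_of_chart` : for a coordinate `x₀` with integral `q`-expansion `xZ` (nonzero order
in every characteristic),
  `ModelTranscendentalStatement M x₀ → ModelGoodBasisStatement M q x₀ →
   ModelBranchStatement M q x₀ R → ModelQExpStatement M q x₀ → ModelLevelRegStatement M q x₀ R`.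

Proof: every maximal ideal `𝔫 ∋ ϖ` of `B(x)` contains `g(x)` for a monic `g` with irreducible
reduction (`ordPoint_exists_monic`); tame normality at `g` (`H70.KL.normalityAtFull`, from
GoodBasis + BranchHypAt); `C(x) = V_∞` is a valuation ring with maximal ideal `ϖ C(x)`
(`q`-expansion principle + its converse); then helper67's `H67.SS.localDVR`.

Instances (module `LevelRegInst`): `x₀ = j` (`q ≥ 5`), `x₀ = t₂` (`q = 3`, `2 ∣ M`),
`x₀ = t₃` (`q = 2`, `3 ∣ M`).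
-/
import Mathlib
import Fermat.Agent.H41.SS.OrdInterfaces
import Fermat.Agent.H41.SS.OrdModel
import Fermat.Agent.H67.SS.LocalDVR
import Fermat.Agent.H70.KL.TameCover
import Fermat.Agent.H65.E6.ModelGaussGen

set_option autoImplicit false
set_option linter.style.haveILetI false
set_option linter.unusedSectionVars false

noncomputable section

namespace Fermat.Agent.H41.SS

open Polynomial ModularCurve
open Fermat.Agent.H22.KL Fermat.Agent.H45 Fermat.Agent.H7.SS Fermat.Agent.H48.QExp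
open Fermat.Agent.H82.SS
open Fermat.Agent.H91 Fermat.Agent.H91.KLNorm
open Fermat.Agent.H87.KL (evX IntX)
open Fermat.Agent.H67.KLConn (PiDvd)

section Gen

variable {K₁ : Type} [Field K₁] [Algebra ℚ K₁] [FiniteDimensional ℚ K₁]
  {A₀ : Type} [CommRing A₀] [IsDomain A₀]
  [IsDiscreteValuationRing A₀] [Algebra A₀ K₁] [IsFractionRing A₀ K₁]

/-- `C(x) ⊆ V_∞` for a coordinate with integral `q`-expansion of nonzero order. -/
theorem mem_gaussValM_of_mem_gaussClosure_gen (N : ℕ) [NeZero N]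
    [Algebra A₀ (ModelField K₁ N)] [IsScalarTower A₀ K₁ (ModelField K₁ N)]
    (x₀ : LaurentSeries ℚ) (xZ : LaurentSeries ℤ)
    (hxZ : coeffMap (Int.castRingHom ℚ) xZ = x₀)
    (hord : ∀ (k : Type) [Field k], (coeffMap (Int.castRingHom k) xZ).order ≠ 0)
    {ϖ : A₀} (hϖ : Irreducible ϖ) (x : ModelField K₁ N)
    (hx : (x : LaurentSeries K₁) = coeffEmb K₁ x₀) (hxtr : Transcendental A₀ x)
    (z : ModelField K₁ N)
    (hz : z ∈ gaussClosure A₀ (ModelField K₁ N) ϖ x) : z ∈ gaussValM K₁ A₀ N := by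
  obtain ⟨H, hH, hint⟩ := (Fermat.Agent.H87.KL.mem_gaussClosure_iff hxtr ϖ z).mp hz
  have h1 := Fermat.Agent.H55.SS.gc_core hϖ x (coeffMap (Int.castRingHom _) xZ)
    (by rw [hx]; exact Fermat.Agent.H65.mgg_coeffEmb _ hxZ) (by
      rw [Fermat.Agent.H65.mgg_vRho]
      exact Fermat.Agent.H58.kltr_transcendental_of_order_ne_zero _ (hord _)) z H hH hint
  obtain ⟨a, b, ha, hb, hbu, hab⟩ := Fermat.Agent.H55.SS.gc_exists z h1
  rw [mem_gaussValM_iff]
  exact inV_of_quot _ a.2 b.2 ha hb hbu (congrArg Subtype.val hab)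

/-- `V_∞ ⊆ C(x)` from the `q`-expansion principle in the chart `x₀`. -/
theorem mem_gaussClosure_of_mem_gaussValM_gen (N q : ℕ) [NeZero N]
    [Algebra A₀ (ModelField K₁ N)] [IsScalarTower A₀ K₁ (ModelField K₁ N)]
    (x₀ : LaurentSeries ℚ) (hQ : ModelQExpStatement N q x₀)
    (hqA : ¬ IsUnit ((q : ℕ) : A₀))
    {ϖ : A₀} (hϖ : Irreducible ϖ) (x : ModelField K₁ N)
    (hx : (x : LaurentSeries K₁) = coeffEmb K₁ x₀) (z : ModelField K₁ N)
    (hz : z ∈ gaussValM K₁ A₀ N) : z ∈ gaussClosure A₀ (ModelField K₁ N) ϖ x := by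
  have hφ : Function.Injective (algebraMap A₀ K₁) := IsFractionRing.injective A₀ K₁
  obtain ⟨a, b, ha, hb, hbu, hab⟩ := InV.exists_quot _ ((mem_gaussValM_iff z).1 hz)
  have hb0 : b ≠ 0 := by
    rintro rfl
    obtain ⟨n, c, hc, hcn⟩ := hbu
    have h0 : algebraMap A₀ K₁ c = 0 := by
      rw [hcn]
      rfl
    exact hc.ne_zero ((map_eq_zero_iff _ hφ).1 h0)
  have hzab : z = a / b := by
    rw [eq_div_iff hb0]
    exact hab
  rw [hzab]
  exact hQ K₁ A₀ hqA ϖ hϖ x hx a b ha hb hbu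

/-- **`C(x)` is a valuation ring with maximal ideal `ϖ C(x)`** (the special fibre of the chart is
irreducible): hypothesis `hMax` of `H67.SS.localDVR`. -/
theorem gaussClosure_inv_mem (N q : ℕ) [NeZero N]
    [Algebra A₀ (ModelField K₁ N)] [IsScalarTower A₀ K₁ (ModelField K₁ N)]
    (x₀ : LaurentSeries ℚ) (xZ : LaurentSeries ℤ)
    (hxZ : coeffMap (Int.castRingHom ℚ) xZ = x₀)
    (hord : ∀ (k : Type) [Field k], (coeffMap (Int.castRingHom k) xZ).order ≠ 0)
    (hQ : ModelQExpStatement N q x₀)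
    (hqA : ¬ IsUnit ((q : ℕ) : A₀))
    {ϖ : A₀} (hϖ : Irreducible ϖ) (x : ModelField K₁ N)
    (hx : (x : LaurentSeries K₁) = coeffEmb K₁ x₀) (hxtr : Transcendental A₀ x)
    (z : ModelField K₁ N) (hz : z ∈ gaussClosure A₀ (ModelField K₁ N) ϖ x)
    (hzπ : ¬ PiDvdSet A₀ (ModelField K₁ N) ϖ (gaussClosure A₀ (ModelField K₁ N) ϖ x) z) :
    z⁻¹ ∈ gaussClosure A₀ (ModelField K₁ N) ϖ x := by
  have hφ : Function.Injective (algebraMap A₀ (ModelField K₁ N)) := by
    rw [IsScalarTower.algebraMap_eq A₀ K₁ (ModelField K₁ N)]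
    exact (algebraMap K₁ (ModelField K₁ N)).injective.comp (IsFractionRing.injective A₀ K₁)
  have hϖ0 : algebraMap A₀ (ModelField K₁ N) ϖ ≠ 0 := fun h =>
    hϖ.ne_zero (hφ (by rw [h, map_zero]))
  have hzV : z ∈ gaussValM K₁ A₀ N :=
    mem_gaussValM_of_mem_gaussClosure_gen N x₀ xZ hxZ hord hϖ x hx hxtr z hz
  have hznu : z ∉ (gaussValM K₁ A₀ N).nonunits := by
    intro hnu
    apply hzπ
    refine ⟨z / algebraMap A₀ (ModelField K₁ N) ϖ,
      mem_gaussClosure_of_mem_gaussValM_gen N q x₀ hQ hqA hϖ x hx _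
        (div_pi_mem_gaussValM hϖ z hnu), ?_⟩
    rw [mul_div_cancel₀ _ hϖ0]
  have hinvV : z⁻¹ ∈ gaussValM K₁ A₀ N := by
    rw [ValuationSubring.mem_nonunits_iff, not_lt] at hznu
    rw [← ValuationSubring.valuation_le_one_iff, map_inv₀]
    exact inv_le_one_of_one_le₀ hznu
  exact mem_gaussClosure_of_mem_gaussValM_gen N q x₀ hQ hqA hϖ x hx _ hinvV

end Gen

/-- **SSH-18, generic theorem**: level-`M` regularity at every closed point of the special fibre
of the chart `x₀`. -/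
theorem modelLevelReg_of_chart (M q : ℕ) [NeZero M] (x₀ : LaurentSeries ℚ)
    (xZ : LaurentSeries ℤ) (hxZ : coeffMap (Int.castRingHom ℚ) xZ = x₀)
    (hord : ∀ (k : Type) [Field k], (coeffMap (Int.castRingHom k) xZ).order ≠ 0)
    (R : ℕ)
    (hTr : ModelTranscendentalStatement M x₀)
    (hGB : ModelGoodBasisStatement M q x₀)
    (hBr : ModelBranchStatement M q x₀ R)
    (hQ : ModelQExpStatement M q x₀) :
    ModelLevelRegStatement M q x₀ R := by
  intro K₁ _ _ _ A₀ _ _ _ _ _ _ _ hqA hζ ϖ hϖ x hx 𝔫 h𝔫 hϖ𝔫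
  haveI : CharZero K₁ := charZero_of_injective_algebraMap (algebraMap ℚ K₁).injective
  haveI : CharZero (ModelField K₁ M) :=
    charZero_of_injective_algebraMap (algebraMap K₁ (ModelField K₁ M)).injective
  have hinj : Function.Injective (algebraMap A₀ (ModelField K₁ M)) := by
    rw [IsScalarTower.algebraMap_eq A₀ K₁ (ModelField K₁ M)]
    exact (algebraMap K₁ (ModelField K₁ M)).injective.comp (IsFractionRing.injective A₀ K₁)
  have hxtr : Transcendental A₀ x := hTr K₁ A₀ x hx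
  have hGBx : Fermat.Agent.H22.KL.GoodBasis A₀ (ModelField K₁ M) ϖ x := hGB K₁ A₀ hqA ϖ hϖ x hx
  have hfd : ∃ n : ℕ, Nonempty (Module.Basis (Fin n) (chartField A₀ (ModelField K₁ M) x)
      (ModelField K₁ M)) := by
    obtain ⟨n, b, -, -⟩ := hGBx
    exact ⟨n, ⟨b⟩⟩
  obtain ⟨hBrAll, -⟩ := hBr K₁ A₀ hqA hζ ϖ hϖ x hx
  obtain ⟨g, hgm, hgirr, hg𝔫⟩ := ordPoint_exists_monic A₀ (ModelField K₁ M) ϖ hϖ x 𝔫 h𝔫 hϖ𝔫
  have hNorm := Fermat.Agent.H70.KL.normalityAtFull A₀ (ModelField K₁ M) hinj ϖ hϖ x hxtr hGBx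
    g hgm hgirr (hBrAll g hgm hgirr)
  have hMax : ∀ z ∈ gaussClosure A₀ (ModelField K₁ M) ϖ x,
      ¬ PiDvdSet A₀ (ModelField K₁ M) ϖ (gaussClosure A₀ (ModelField K₁ M) ϖ x) z →
      z⁻¹ ∈ gaussClosure A₀ (ModelField K₁ M) ϖ x := fun z hz hzπ =>
    gaussClosure_inv_mem M q x₀ xZ hxZ hord hQ hqA hϖ x hx hxtr z hz hzπ
  obtain ⟨U, hU, -, -⟩ := Fermat.Agent.H67.SS.localDVR hinj hϖ hxtr hfd hMax g hgm hgirr hNorm
    𝔫 h𝔫 hϖ𝔫 hg𝔫
  exact ⟨U, hU.1, hU.2⟩

end Fermat.Agent.H41.SS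

end
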