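/-
P-SS / SSH-7 (helper41), block (E3): the étale point in the chart language of `H22.KL`.

Setting of `Fermat.Agent.H22.KL`: `A` a DVR with uniformiser `ϖ`, `E` a field of characteristic
zero over `A`, `x : E` a transcendental coordinate with a good basis (`GoodBasis A E ϖ x`),
`g ∈ A[X]` monic with irreducible reduction such that all characteristic-zero places in the
residue disc of `(ϖ, g(x))` are unramified over `K₀(x)` (`UnramifiedNear`).

`etale_point_chart` : at EVERY maximal ideal `𝔪` of `B(x) = chartClosure A E x` the ideal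
`(ϖ, g(x))` generates the maximal ideal of the local ring: for `z ∈ 𝔪` there are `s ∉ 𝔪` and
`b₁, b₂ ∈ B(x)` with `s z = ϖ b₁ + g(x) b₂`.
(If `𝔪` does not contain `(ϖ, g(x))` the statement is trivially true.)

This is "level-`M'` normality in the chart `H`" of findings #438 (SSH-7) in its sharp form:
the normal model is étale over `Spec A[x]` at the point `(ϖ, g)`; together with
`Fermat.Agent.H71.SS.RegPoint` it gives the tube coordinate `x` at the points over `(ϖ, X - a)`.
-/
import Mathlib
import Fermat.Agent.H41.SS.EtalePoint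
import Fermat.Agent.H91.KLNorm.PurityFinal

set_option autoImplicit false
set_option linter.style.haveILetI false
set_option linter.unusedSectionVars false

noncomputable section

open Polynomial

namespace Fermat.Agent.H41.SS

open Fermat.Agent.H91 Fermat.Agent.H91.KLNorm
open Fermat.Agent.H22.KL
open Fermat.Agent.H87.KL (evX IntX GC)

section Chart

variable (A : Type) [CommRing A] [IsDomain A] [IsDiscreteValuationRing A]
variable (E : Type) [Field E] [Algebra A E] [CharZero E]

theorem etale_aeval_mem_chartClosure (x : E) (p : A[X]) : aeval x p ∈ chartClosure A E x :=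
  (Fermat.Agent.H87.KL.mem_chartClosure_iff x _).2
    (RingHom.isIntegralElem_map (f := evX (A := A) x) (x := p))

/-- Elements of `(ϖ, g) • B` are of the form `ϖ b₁ + g(x) b₂`. -/
theorem etale_decompose (ϖ : A) (x : E) (g : A[X]) (y : E)
    (hy : letI := polyAlgE A E x
      y ∈ (Ideal.span {(C ϖ : A[X]), g}) • (integralClosure A[X] E).toSubmodule) :
    ∃ b₁ ∈ chartClosure A E x, ∃ b₂ ∈ chartClosure A E x,
      y = algebraMap A E ϖ * b₁ + aeval x g * b₂ := by
  letI := polyAlgE A E x
  refine Submodule.smul_induction_on hy ?_ ?_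
  · intro r hr b hb
    obtain ⟨p, q, rfl⟩ := Ideal.mem_span_pair.1 hr
    have hbB : b ∈ chartClosure A E x := (Fermat.Agent.H87.KL.mem_chartClosure_iff x b).2 hb
    refine ⟨aeval x p * b, (chartClosure A E x).mul_mem (etale_aeval_mem_chartClosure A E x p) hbB,
      aeval x q * b, (chartClosure A E x).mul_mem (etale_aeval_mem_chartClosure A E x q) hbB, ?_⟩
    rw [Algebra.smul_def, polyAlgE_algebraMap, map_add, map_mul, map_mul, aeval_C]
    ring
  · rintro u v ⟨b₁, hb₁, b₂, hb₂, rfl⟩ ⟨c₁, hc₁, c₂, hc₂, rfl⟩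
    exact ⟨b₁ + c₁, (chartClosure A E x).add_mem hb₁ hc₁, b₂ + c₂,
      (chartClosure A E x).add_mem hb₂ hc₂, by ring⟩

/-- The chart closure and the integral closure of `A[X]` (acting through `X ↦ x`) are the same
ring. -/
def etaleEquiv (x : E) :
    letI := polyAlgE A E x
    ↥(chartClosure A E x) ≃+* ↥(integralClosure A[X] E) :=
  letI := polyAlgE A E x
  { toFun := fun b => ⟨b.1, (Fermat.Agent.H87.KL.mem_chartClosure_iff x b.1).1 b.2⟩
    invFun := fun b => ⟨b.1, (Fermat.Agent.H87.KL.mem_chartClosure_iff x b.1).2 b.2⟩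
    left_inv := fun _ => rfl
    right_inv := fun _ => rfl
    map_mul' := fun _ _ => rfl
    map_add' := fun _ _ => rfl }

/-- **Étale point, chart form.**  In the `H22.KL` setting with a good basis in the chart `x`,
if all characteristic-zero places in the residue disc of `(ϖ, g(x))` are unramified over
`K₀(x)`, then at every maximal ideal `𝔪` of `B(x)` the ideal `(ϖ, g(x))` generates the maximal
ideal of the local ring `B(x)_𝔪`. -/
theorem etale_point_chart
    (hinj : Function.Injective (algebraMap A E))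
    (ϖ : A) (hϖ : Irreducible ϖ) (x : E) (hx : Transcendental A x)
    (hGB : Fermat.Agent.H22.KL.GoodBasis A E ϖ x)
    (g : A[X]) (hgm : g.Monic) (hgirr : Irreducible (g.map (IsLocalRing.residue A)))
    (hUN : UnramifiedNear A E ϖ x g)
    (𝔪 : Ideal ↥(chartClosure A E x)) (h𝔪 : 𝔪.IsMaximal)
    (z : ↥(chartClosure A E x)) (hz : z ∈ 𝔪) :
    ∃ s : ↥(chartClosure A E x), s ∉ 𝔪 ∧
      ∃ b₁ ∈ chartClosure A E x, ∃ b₂ ∈ chartClosure A E x,
        (s : E) * z = algebraMap A E ϖ * b₁ + aeval x g * b₂ := by
  letI := polyAlgE A E x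
  letI := polyAlgK A E x
  haveI := polyAlg_isScalarTower A E x
  haveI hFR := polyAlg_isFractionRing A E hx
  haveI := finiteDimensional_of_goodBasis A E hGB
  have hp : Prime (C ϖ : A[X]) := prime_C_of_irreducible A hϖ
  haveI hPID := isPrincipalIdealRing_quot A hϖ
  haveI hmax := isMaximal_span_pair A hϖ hgirr
  have hp𝔪 : (C ϖ : A[X]) ∈ Ideal.span {(C ϖ : A[X]), g} :=
    Ideal.subset_span (Set.mem_insert _ _)
  have hgbp := hasGoodBasisAt_of_goodBasis A E hx hFR hGB
  have hnd := unramifiedAdapter A E hinj ϖ hϖ x hx hGB g hgm hgirr hUN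
  have hgb𝔪 : HasGoodBasisAt A[X] ↥(chartField A E x) E
      (Ideal.span {(C ϖ : A[X]), g}) :=
    hasGoodBasisAt_of_forall_prime' hp hp𝔪 hgbp hnd
  haveI hfin : Module.Finite A[X] ↥(integralClosure A[X] E) := hgb𝔪.finite
  have htr : TraceNondegAt A[X] ↥(chartField A E x) E (Ideal.span {(C ϖ : A[X]), g}) :=
    hgb𝔪.traceNondegAt_of_isMaximal
  haveI : CharZero ↥(chartField A E x) :=
    RingHom.charZero (algebraMap ↥(chartField A E x) E)
  haveI : Algebra.IsSeparable ↥(chartField A E x) E := inferInstance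
  -- transport the maximal ideal
  set e := etaleEquiv A E x with he
  set 𝔪' : Ideal ↥(integralClosure A[X] E) := 𝔪.comap (e.symm : _ →+* _) with h𝔪'
  haveI h𝔪'max : 𝔪'.IsMaximal :=
    Ideal.comap_isMaximal_of_surjective _ e.symm.surjective
  have hz' : e z ∈ 𝔪' := by
    rw [h𝔪', Ideal.mem_comap]
    simpa using hz
  obtain ⟨s', hs', hsz'⟩ := etale_point (K := ↥(chartField A E x)) htr 𝔪' (e z) hz'
  refine ⟨e.symm s', fun h => hs' (by rw [h𝔪', Ideal.mem_comap]; exact h), ?_⟩
  rw [etale_mem_map_iff] at hsz'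
  exact etale_decompose A E ϖ x g _ hsz'

end Chart

end Fermat.Agent.H41.SS

end
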