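/-
P-SS / SSH-7 (helper41), block (E1): traces of elements which are nilpotent modulo `𝔪 B`.

`R` an integrally closed domain, `K = Frac R`, `E / K` finite separable, `B` the integral closure
of `R` in `E`, `𝔪` a maximal ideal of `R`.

* `etale_trace_mem_of_pow_mem` : if `w ∈ B` and `w ^ N ∈ 𝔪 B` then `Tr_{E/K} w ∈ 𝔪`.
* `etale_mem_of_pow_mem` : if the trace form is nondegenerate modulo `𝔪`
  (`Fermat.Agent.H91.TraceNondegAt`), then `B / 𝔪 B` is reduced: `x ^ N ∈ 𝔪 B → x ∈ 𝔪 B`.
-/
import Mathlib
import Fermat.Agent.H91.PurityMain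

set_option autoImplicit false
set_option linter.style.haveILetI false
set_option linter.unusedSectionVars false

noncomputable section

namespace Fermat.Agent.H41.SS

open Fermat.Agent.H91

section Trace

variable {R : Type*} [CommRing R] [IsDomain R] [IsIntegrallyClosed R]
variable {K : Type*} [Field K] [Algebra R K] [IsFractionRing R K]
variable {E : Type*} [Field E] [Algebra K E] [Algebra R E] [IsScalarTower R K E]
  [FiniteDimensional K E] [Algebra.IsSeparable K E]

/-- The trace of an integral element which is nilpotent modulo `𝔪 B` lies in `𝔪`. -/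
theorem etale_trace_mem_of_pow_mem {𝔪 : Ideal R} [h𝔪 : 𝔪.IsMaximal] {w : E}
    (hw : IsIntegral R w) {N : ℕ}
    (hN : w ^ N ∈ 𝔪 • (integralClosure R E).toSubmodule) :
    ∃ a ∈ 𝔪, algebraMap R K a = Algebra.trace K E w := by
  classical
  obtain ⟨a, ha⟩ := exists_trace_eq (K := K) hw
  refine ⟨a, ?_, ha⟩
  have hinj : Function.Injective (algebraMap R (AlgebraicClosure K)) := by
    rw [IsScalarTower.algebraMap_eq R K (AlgebraicClosure K)]
    exact (algebraMap K (AlgebraicClosure K)).injective.comp (IsFractionRing.injective R K)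
  have hinjB : Function.Injective
      (algebraMap R ↥(integralClosure R (AlgebraicClosure K))) := by
    intro x y hxy
    apply hinj
    have := congrArg (algebraMap ↥(integralClosure R (AlgebraicClosure K))
      (AlgebraicClosure K)) hxy
    simpa [← IsScalarTower.algebraMap_apply] using this
  obtain ⟨𝔐, h𝔐max, h𝔐⟩ := Ideal.exists_ideal_over_maximal_of_isIntegral
    (S := ↥(integralClosure R (AlgebraicClosure K))) 𝔪 (by
      rw [(RingHom.injective_iff_ker_eq_bot _).1 hinjB]; exact bot_le)
  haveI := h𝔐max.isPrime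
  -- every embedding maps `𝔪 B` into `𝔐`
  have key : ∀ σ : E →ₐ[K] AlgebraicClosure K,
      ∀ x ∈ 𝔪 • (integralClosure R E).toSubmodule,
        ∃ h : IsIntegral R (σ x),
          (⟨σ x, h⟩ : ↥(integralClosure R (AlgebraicClosure K))) ∈ 𝔐 := by
    intro σ x hx
    refine Submodule.smul_induction_on hx ?_ ?_
    · intro r hr b hb
      have hb' : IsIntegral R (σ b) := IsIntegral.map (σ.restrictScalars R) hb
      have h1 : σ (r • b) = algebraMap R (AlgebraicClosure K) r * σ b := by
        rw [Algebra.smul_def, map_mul, IsScalarTower.algebraMap_apply R K E,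
          AlgHom.commutes, ← IsScalarTower.algebraMap_apply]
      have hrb : IsIntegral R (σ (r • b)) := by
        rw [h1]; exact isIntegral_algebraMap.mul hb'
      refine ⟨hrb, ?_⟩
      have h2 : (⟨σ (r • b), hrb⟩ : ↥(integralClosure R (AlgebraicClosure K)))
          = algebraMap R _ r * ⟨σ b, hb'⟩ := Subtype.ext h1
      rw [h2]
      refine 𝔐.mul_mem_right _ ?_
      have : r ∈ 𝔐.comap (algebraMap R ↥(integralClosure R (AlgebraicClosure K))) := by
        rw [h𝔐]; exact hr
      exact this
    · intro x y hx hy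
      obtain ⟨hx1, hx2⟩ := hx
      obtain ⟨hy1, hy2⟩ := hy
      have hxy : IsIntegral R (σ (x + y)) := by rw [map_add]; exact hx1.add hy1
      refine ⟨hxy, ?_⟩
      have h2 : (⟨σ (x + y), hxy⟩ : ↥(integralClosure R (AlgebraicClosure K)))
          = ⟨σ x, hx1⟩ + ⟨σ y, hy1⟩ := Subtype.ext (map_add σ x y)
      rw [h2]
      exact 𝔐.add_mem hx2 hy2
  have hσw : ∀ σ : E →ₐ[K] AlgebraicClosure K, IsIntegral R (σ w) :=
    fun σ => IsIntegral.map (σ.restrictScalars R) hw
  have hmem : ∀ σ : E →ₐ[K] AlgebraicClosure K,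
      (⟨σ w, hσw σ⟩ : ↥(integralClosure R (AlgebraicClosure K))) ∈ 𝔐 := by
    intro σ
    obtain ⟨h, hm⟩ := key σ _ hN
    have h2 : (⟨σ (w ^ N), h⟩ : ↥(integralClosure R (AlgebraicClosure K)))
        = ⟨σ w, hσw σ⟩ ^ N := Subtype.ext (map_pow σ w N)
    rw [h2] at hm
    exact Ideal.IsPrime.mem_of_pow_mem inferInstance N hm
  have hsum : (∑ σ : E →ₐ[K] AlgebraicClosure K,
      (⟨σ w, hσw σ⟩ : ↥(integralClosure R (AlgebraicClosure K)))) ∈ 𝔐 :=
    𝔐.sum_mem fun σ _ => hmem σ
  have heq : algebraMap R ↥(integralClosure R (AlgebraicClosure K)) a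
      = ∑ σ : E →ₐ[K] AlgebraicClosure K,
        (⟨σ w, hσw σ⟩ : ↥(integralClosure R (AlgebraicClosure K))) := by
    apply Subtype.ext
    have h3 := trace_eq_sum_embeddings (K := K) (L := E) (AlgebraicClosure K) (x := w)
    rw [← ha, ← IsScalarTower.algebraMap_apply] at h3
    have h4 : ((algebraMap R ↥(integralClosure R (AlgebraicClosure K)) a :
        ↥(integralClosure R (AlgebraicClosure K))) : AlgebraicClosure K)
        = algebraMap R (AlgebraicClosure K) a := rfl
    rw [h4, h3]
    simp
  have : a ∈ 𝔐.comap (algebraMap R ↥(integralClosure R (AlgebraicClosure K))) := by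
    rw [Ideal.mem_comap, heq]; exact hsum
  rwa [h𝔐] at this

/-- If the trace form is nondegenerate modulo the maximal ideal `𝔪`, then `B / 𝔪 B` is
reduced. -/
theorem etale_mem_of_pow_mem {𝔪 : Ideal R} [h𝔪 : 𝔪.IsMaximal]
    (hnd : TraceNondegAt R K E 𝔪) {x : E} (hx : IsIntegral R x) {N : ℕ}
    (hN : x ^ N ∈ 𝔪 • (integralClosure R E).toSubmodule) :
    x ∈ 𝔪 • (integralClosure R E).toSubmodule := by
  refine hnd x hx fun y hy => ?_
  refine etale_trace_mem_of_pow_mem (K := K) (hx.mul hy) (N := N) ?_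
  rw [mul_pow]
  -- `𝔪 B` is stable under multiplication by `B`
  have hyN : IsIntegral R (y ^ N) := hy.pow N
  refine Submodule.smul_induction_on hN ?_ ?_
  · intro r hr b hb
    have : r • b * y ^ N = r • (b * y ^ N) := by rw [smul_mul_assoc]
    rw [this]
    exact Submodule.smul_mem_smul hr (hb.mul hyN)
  · intro u v hu hv
    rw [add_mul]
    exact Submodule.add_mem _ hu hv

end Trace

end Fermat.Agent.H41.SS

end
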