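/-
P-SS / SSH-7 (helper41), block (E2): an étale point.

`R` an integrally closed domain, `K = Frac R`, `E / K` finite separable, `B` the integral closure
of `R` in `E`, finite over `R`; `𝔪` a maximal ideal of `R` at which the trace form of `B` is
nondegenerate (`Fermat.Agent.H91.TraceNondegAt`, e.g. from `HasGoodBasisAt` = purity).
Then `B` is étale over `R` at `𝔪`; in elementary terms:

* `etale_isReduced` : `B ⧸ 𝔪 B` is reduced;
* `etale_point` : for every maximal ideal `m` of `B` and every `z ∈ m` there is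
  `s ∈ B ∖ m` with `s z ∈ 𝔪 B`, i.e. `m B_m = 𝔪 B_m`.
-/
import Mathlib
import Fermat.Agent.H41.SS.EtaleTrace

set_option autoImplicit false
set_option linter.style.haveILetI false
set_option linter.unusedSectionVars false

noncomputable section

namespace Fermat.Agent.H41.SS

open Fermat.Agent.H91

section Etale

variable {R : Type*} [CommRing R] [IsDomain R] [IsIntegrallyClosed R]
variable {K : Type*} [Field K] [Algebra R K] [IsFractionRing R K]
variable {E : Type*} [Field E] [Algebra K E] [Algebra R E] [IsScalarTower R K E]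
  [FiniteDimensional K E] [Algebra.IsSeparable K E]

/-- `𝔪 B` as an ideal of `B` and as a submodule of `E`. -/
theorem etale_mem_map_iff (𝔪 : Ideal R) (x : ↥(integralClosure R E)) :
    x ∈ 𝔪.map (algebraMap R ↥(integralClosure R E)) ↔
      (x : E) ∈ 𝔪 • (integralClosure R E).toSubmodule := by
  constructor
  · intro hx
    rw [Ideal.map, Ideal.span] at hx
    refine Submodule.span_induction (p := fun (y : ↥(integralClosure R E)) _ =>
      (y : E) ∈ 𝔪 • (integralClosure R E).toSubmodule) ?_ ?_ ?_ ?_ hx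
    · rintro y ⟨r, hr, rfl⟩
      have h1 : ((algebraMap R ↥(integralClosure R E) r : ↥(integralClosure R E)) : E)
          = r • (1 : E) := by
        rw [Algebra.smul_def, mul_one]; rfl
      rw [h1]
      exact Submodule.smul_mem_smul hr (integralClosure R E).one_mem
    · simp
    · intro y z _ _ hy hz
      rw [Subalgebra.coe_add]
      exact Submodule.add_mem _ hy hz
    · intro b y _ hy
      rw [smul_eq_mul, Subalgebra.coe_mul, mul_comm]
      refine Submodule.smul_induction_on hy ?_ ?_
      · intro r hr c hc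
        rw [smul_mul_assoc]
        exact Submodule.smul_mem_smul hr ((integralClosure R E).mul_mem hc b.2)
      · intro u v hu hv
        rw [add_mul]
        exact Submodule.add_mem _ hu hv
  · intro hx
    obtain ⟨x, hxB⟩ := x
    change x ∈ 𝔪 • (integralClosure R E).toSubmodule at hx
    suffices h : ∀ y ∈ 𝔪 • (integralClosure R E).toSubmodule,
        ∃ hy : y ∈ integralClosure R E,
          (⟨y, hy⟩ : ↥(integralClosure R E)) ∈ 𝔪.map (algebraMap R ↥(integralClosure R E)) by
      obtain ⟨_, h2⟩ := h x hx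
      exact h2
    intro y hy
    refine Submodule.smul_induction_on hy ?_ ?_
    · intro r hr c hc
      have hrc : r • c ∈ integralClosure R E := (integralClosure R E).smul_mem hc r
      refine ⟨hrc, ?_⟩
      have h1 : (⟨r • c, hrc⟩ : ↥(integralClosure R E))
          = algebraMap R ↥(integralClosure R E) r * ⟨c, hc⟩ := by
        apply Subtype.ext
        show r • c = algebraMap R E r * c
        rw [Algebra.smul_def]
      rw [h1]
      exact Ideal.mul_mem_right _ _ (Ideal.mem_map_of_mem _ hr)
    · rintro u v ⟨hu1, hu2⟩ ⟨hv1, hv2⟩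
      refine ⟨(integralClosure R E).add_mem hu1 hv1, ?_⟩
      have h1 : (⟨u + v, (integralClosure R E).add_mem hu1 hv1⟩ : ↥(integralClosure R E))
          = ⟨u, hu1⟩ + ⟨v, hv1⟩ := rfl
      rw [h1]
      exact Ideal.add_mem _ hu2 hv2

/-- `B ⧸ 𝔪 B` is reduced when the trace form is nondegenerate modulo `𝔪`. -/
theorem etale_isReduced {𝔪 : Ideal R} [h𝔪 : 𝔪.IsMaximal] (hnd : TraceNondegAt R K E 𝔪) :
    IsReduced (↥(integralClosure R E) ⧸ 𝔪.map (algebraMap R ↥(integralClosure R E))) := by
  refine ⟨fun q hq => ?_⟩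
  obtain ⟨x, rfl⟩ := Ideal.Quotient.mk_surjective q
  obtain ⟨N, hN⟩ := hq
  rw [← map_pow, Ideal.Quotient.eq_zero_iff_mem, etale_mem_map_iff] at hN
  rw [Ideal.Quotient.eq_zero_iff_mem, etale_mem_map_iff]
  rw [Subalgebra.coe_pow] at hN
  exact etale_mem_of_pow_mem (K := K) hnd x.2 hN

/-- **Étale point.**  If `B` is finite over `R` and the trace form is nondegenerate modulo the
maximal ideal `𝔪` of `R`, then at every maximal ideal `m` of `B` over `𝔪` the maximal ideal of
`B_m` is generated by `𝔪`: for `z ∈ m` there is `s ∉ m` with `s z ∈ 𝔪 B`. -/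
theorem etale_point [Module.Finite R ↥(integralClosure R E)]
    {𝔪 : Ideal R} [h𝔪 : 𝔪.IsMaximal] (hnd : TraceNondegAt R K E 𝔪)
    (m : Ideal ↥(integralClosure R E)) [hm : m.IsMaximal]
    (z : ↥(integralClosure R E)) (hz : z ∈ m) :
    ∃ s : ↥(integralClosure R E), s ∉ m ∧
      s * z ∈ 𝔪.map (algebraMap R ↥(integralClosure R E)) := by
  classical
  set I := 𝔪.map (algebraMap R ↥(integralClosure R E)) with hI
  haveI hred : IsReduced (↥(integralClosure R E) ⧸ I) := etale_isReduced (K := K) hnd
  letI : Field (R ⧸ 𝔪) := Ideal.Quotient.field 𝔪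
  haveI hfin : Module.Finite R (↥(integralClosure R E) ⧸ I) :=
    Module.Finite.of_surjective (Ideal.Quotient.mkₐ R I).toLinearMap
      (Ideal.Quotient.mkₐ_surjective R I)
  haveI hfin' : Module.Finite (R ⧸ 𝔪) (↥(integralClosure R E) ⧸ I) :=
    Module.Finite.of_restrictScalars_finite R (R ⧸ 𝔪) _
  haveI hart : IsArtinianRing (↥(integralClosure R E) ⧸ I) :=
    IsArtinianRing.of_finite (R ⧸ 𝔪) _
  -- the maximal ideals of `B ⧸ I` other than `m`
  have hfinite := IsArtinianRing.setOfPred_isMaximal_finite (↥(integralClosure R E) ⧸ I)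
  set f : Ideal (↥(integralClosure R E) ⧸ I) → Ideal ↥(integralClosure R E) :=
    fun P => P.comap (Ideal.Quotient.mk I) with hf
  set S : Finset (Ideal (↥(integralClosure R E) ⧸ I)) :=
    hfinite.toFinset.filter fun P => f P ≠ m with hS
  have hfmax : ∀ P : Ideal (↥(integralClosure R E) ⧸ I), P.IsMaximal → (f P).IsMaximal :=
    fun P hP => Ideal.comap_isMaximal_of_surjective _ Ideal.Quotient.mk_surjective
  have hnot : ¬ S.inf f ≤ m := by
    intro hle
    obtain ⟨P, hPS, hPm⟩ := (Ideal.IsPrime.inf_le' hm.isPrime).1 hle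
    have hPmax : P.IsMaximal := by
      have := (Finset.mem_filter.1 hPS).1
      rwa [Set.Finite.mem_toFinset] at this
    have h1 : f P = m := (hfmax P hPmax).eq_of_le hm.ne_top hPm
    exact (Finset.mem_filter.1 hPS).2 h1
  obtain ⟨s, hsS, hsm⟩ := Set.not_subset.1 hnot
  refine ⟨s, hsm, ?_⟩
  rw [← Ideal.Quotient.eq_zero_iff_mem]
  have hjac : Ideal.Quotient.mk I (s * z) ∈
      (⊥ : Ideal (↥(integralClosure R E) ⧸ I)).jacobson := by
    rw [Ideal.jacobson, Ideal.mem_sInf]
    rintro P ⟨-, hPmax⟩
    by_cases hP : f P = m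
    · have hzP : z ∈ f P := by rw [hP]; exact hz
      rw [map_mul]
      exact Ideal.mul_mem_left _ _ hzP
    · have hPS : P ∈ S :=
        Finset.mem_filter.2 ⟨(Set.Finite.mem_toFinset _).2 hPmax, hP⟩
      have hsP : s ∈ f P := (Submodule.mem_finsetInf.1 hsS) P hPS
      rw [map_mul]
      exact Ideal.mul_mem_right _ _ hsP
  rw [IsArtinianRing.jacobson_eq_radical] at hjac
  have h0 : (⊥ : Ideal (↥(integralClosure R E) ⧸ I)).radical = ⊥ := nilradical_eq_zero _
  rw [h0] at hjac
  exact hjac

end Etale

end Fermat.Agent.H41.SS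

end
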