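/-
P-SS / SSH-18 LEVELREG-GEN (row 1049, helper41): the INSTANCES of `modelLevelReg_of_chart`.

* `modelLevelReg_j`  : chart `j`,  `q ≥ 5`, `q ∤ M`, `R = 3 M`;
* `modelLevelReg_t2` : chart `t₂`, `q` odd, `q ∤ M`, `2 ∣ M`, `R = 2 M`;
* `modelLevelReg_t3` : chart `t₃`, `q ≠ 3`, `q ∤ M`, `3 ∣ M`, `R = 3 M`.
-/
import Mathlib
import Fermat.Agent.H41.SS.LevelReg
import Fermat.Agent.H22.ES.KLFinal
import Fermat.Agent.H65.E6.ModelGaussInst

set_option autoImplicit false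
set_option linter.style.haveILetI false
set_option linter.unusedSectionVars false

noncomputable section

namespace Fermat.Agent.H41.SS

open Polynomial ModularCurve
open Fermat.Agent.H22.KL

/-- **Level-`M` regularity, chart `j`, `q ≥ 5`.** -/
theorem modelLevelReg_j (M q : ℕ) [NeZero M] (hq : q.Prime) (h5 : 5 ≤ q) (hqM : ¬ q ∣ M) :
    ModelLevelRegStatement M q jq (3 * M) :=
  modelLevelReg_of_chart M q jq (jqModC ℤ) (by rw [coeffMap_jqModC, jqModC_rat])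
    (fun k _ => by
      rw [coeffMap_jqModC]
      have hc : (jqModC k).coeff (-1 : ℤ) ≠ 0 := by
        rw [ModularCurve.coeff_jqModC_neg_one]
        exact one_ne_zero
      have := HahnSeries.order_le_of_coeff_ne_zero hc
      omega)
    (3 * M)
    (Fermat.Agent.H58.modelTranscendental_jq M)
    (Fermat.Agent.H27.KLGB.modelGoodBasis_j M q hq hqM)
    (Fermat.Agent.H2.klbr_model_j_three M q hq h5 hqM)
    (Fermat.Agent.H48.QExp.modelQExp_j M q hq hqM)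

/-- **Level-`M` regularity, chart `t₂`** (`q` odd, `2 ∣ M`). -/
theorem modelLevelReg_t2 (M q : ℕ) [NeZero M] (hq : q.Prime) (hq2 : q ≠ 2) (hqM : ¬ q ∣ M)
    (h2 : 2 ∣ M) :
    ModelLevelRegStatement M q (Fermat.Agent.H17.ESD.t2S ℚ) (2 * M) :=
  modelLevelReg_of_chart M q (Fermat.Agent.H17.ESD.t2S ℚ) (Fermat.Agent.H17.ESD.t2S ℤ)
    (Fermat.Agent.H17.ESD.coeffMap_t2S _)
    (fun k _ => by
      rw [Fermat.Agent.H17.ESD.coeffMap_t2S, Fermat.Agent.H17.ESD.t2S_order]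
      norm_num)
    (2 * M)
    (Fermat.Agent.H87.KL.modelTranscendental_t2S M)
    (Fermat.Agent.H27.KLGB.modelGoodBasis_t2 M q hq hqM hq2)
    (Fermat.Agent.H2.klbr_model_t2_all M h2 q
      ((Nat.coprime_primes Nat.prime_two hq).2 (Ne.symm hq2))
      (((Nat.Prime.coprime_iff_not_dvd hq).mpr hqM).symm) (2 * M)
      (mul_ne_zero (by norm_num) (NeZero.ne M)) (dvd_mul_right 2 M) (dvd_mul_left M 2))
    (Fermat.Agent.H87.KL.modelQExp_t2S M q hq hqM)

/-- **Level-`M` regularity, chart `t₃`** (`q ≠ 3`, `3 ∣ M`). -/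
theorem modelLevelReg_t3 (M q : ℕ) [NeZero M] (hq : q.Prime) (hq3 : q ≠ 3) (hqM : ¬ q ∣ M)
    (h3 : 3 ∣ M) :
    ModelLevelRegStatement M q (Fermat.Agent.H1.ESD.t3 ℚ) (3 * M) :=
  modelLevelReg_of_chart M q (Fermat.Agent.H1.ESD.t3 ℚ) (Fermat.Agent.H1.ESD.t3 ℤ)
    (Fermat.Agent.H1.ESD.coeffMap_t3 _)
    (fun k _ => by
      rw [Fermat.Agent.H1.ESD.coeffMap_t3, Fermat.Agent.H1.ESD.order_t3]
      norm_num)
    (3 * M)
    (Fermat.Agent.H87.KL.modelTranscendental_t3S M)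
    (Fermat.Agent.H27.KLGB.modelGoodBasis_t3 M q hq hqM hq3)
    (Fermat.Agent.H2.klbr_model_t3_all M h3 q
      ((Nat.coprime_primes Nat.prime_three hq).2 (Ne.symm hq3))
      (((Nat.Prime.coprime_iff_not_dvd hq).mpr hqM).symm) (3 * M)
      (mul_ne_zero (by norm_num) (NeZero.ne M)) (dvd_mul_right 3 M) (dvd_mul_left M 3))
    (Fermat.Agent.H87.KL.modelQExp_t3S M q hq hqM)

end Fermat.Agent.H41.SS

end
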