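/-
P-SS / SSH-7 ORDINARY POINTS (row 648, helper41): the UNCONDITIONAL forms of the row theorem.

* `ssPlaceGenOrd_of_reg` : `SSPlaceGenOrdStatement M q jq R` from level-`M` regularity alone
  (FRAC = `H66.SS.modelFrac41` plugged in).
* `ssPlaceGenOrd_odd` : for `q` odd, `q ∤ M`, `4 ∣ M` (level-`M` regularity in the chart `H` of
  level 4: `H22.SS.modelLevelReg_h4`, helper22).
* `ssPlaceGenOrd_five` : for `q ≥ 5`, `q ∤ M` (no auxiliary level; chart `j`, `R = 3 M`).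
-/
import Mathlib
import Fermat.Agent.H41.SS.OrdFinal
import Fermat.Agent.H41.SS.LevelRegInst
import Fermat.Agent.H66.SS.Frac41
import Fermat.Agent.H22.SS.LevelRegH4

set_option autoImplicit false
set_option linter.style.haveILetI false
set_option linter.unusedSectionVars false

noncomputable section

namespace Fermat.Agent.H41.SS

open Polynomial ModularCurve
open Fermat.Agent.H22.KL

/-- **Row 648 from level-`M` regularity alone.** -/
theorem ssPlaceGenOrd_of_reg (M q : ℕ) [NeZero M] [NeZero q] (hq : q.Prime) (hqM : ¬ q ∣ M)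
    (R : ℕ) (hReg : ModelLevelRegStatement M q jq R) :
    Fermat.Agent.H45.SSPlaceGenOrdStatement M q jq R :=
  ssPlaceGenOrd M q hq hqM R hReg (Fermat.Agent.H66.SS.modelFrac41 M q hq hqM)

/-- **Row 648, `q` odd, `4 ∣ M`** (unconditional). -/
theorem ssPlaceGenOrd_odd (M q : ℕ) [NeZero M] [NeZero q] (hq : q.Prime) (hqM : ¬ q ∣ M)
    (hq2 : q ≠ 2) (h4 : 4 ∣ M) :
    ∃ R, 0 < R ∧ Fermat.Agent.H45.SSPlaceGenOrdStatement M q jq R := by
  obtain ⟨R, hR, hReg⟩ := Fermat.Agent.H22.SS.modelLevelReg_h4 M q hq hq2 hqM h4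
  exact ⟨R, hR, ssPlaceGenOrd_of_reg M q hq hqM R hReg⟩

/-- **Row 648, `q ≥ 5`** (unconditional, no auxiliary level, `R = 3 M`). -/
theorem ssPlaceGenOrd_five (M q : ℕ) [NeZero M] [NeZero q] (hq : q.Prime) (hqM : ¬ q ∣ M)
    (h5 : 5 ≤ q) :
    Fermat.Agent.H45.SSPlaceGenOrdStatement M q jq (3 * M) :=
  ssPlaceGenOrd_of_reg M q hq hqM (3 * M) (modelLevelReg_j M q hq h5 hqM)

/-- **Row 648 at all auxiliary pairs**, from the level-`M` regularity at `q = 2`. -/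
theorem ssPlaceGenOrd_of_two
    (hTwo : ∀ (M : ℕ) [NeZero M], 9 ∣ M → ¬ 2 ∣ M → ∃ R, 0 < R ∧ ModelLevelRegStatement M 2 jq R)
    (M q : ℕ) [NeZero M] [NeZero q] (hq : q.Prime) (hqM : ¬ q ∣ M)
    (h4 : q ≠ 2 → 4 ∣ M) (h9 : q = 2 → 9 ∣ M) :
    ∃ R, 0 < R ∧ Fermat.Agent.H45.SSPlaceGenOrdStatement M q jq R := by
  by_cases hq2 : q = 2
  · subst hq2
    obtain ⟨R, hR, hReg⟩ := hTwo M (h9 rfl) hqM
    exact ⟨R, hR, ssPlaceGenOrd_of_reg M 2 hq hqM R hReg⟩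
  · exact ssPlaceGenOrd_odd M q hq hqM hq2 (h4 hq2)

end Fermat.Agent.H41.SS

end
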