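/-
P-SS / SSH-7 ORDINARY POINTS (row 648, helper41): **the row theorem at ALL auxiliary pairs**,
UNCONDITIONAL.

`ssPlaceGenOrd_all (M q) (hq : q.Prime) (hqM : ¬ q ∣ M) (h4 : q ≠ 2 → 4 ∣ M) (h9 : q = 2 → 9 ∣ M) :
   ∃ R, 0 < R ∧ H45.SSPlaceGenOrdStatement M q jq R`.

Level-`M` regularity in the chart `j`:
* `q` odd, `4 ∣ M` : chart `H` of level 4 (`H22.SS.modelLevelReg_h4`, helper22), `R = 1`;
* `q ≠ 3`, `3 ∣ M` (in particular `q = 2`, `9 ∣ M`) : chart `t₃` (`modelLevelReg_t3`, `R = 3 M`)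
  + chart change `t₃ → j` (`H9.SS.modelLevelReg_j_of_t3`, helper9).
-/
import Mathlib
import Fermat.Agent.H41.SS.OrdFinal2
import Fermat.Agent.H9.SS.LevelRegChart

set_option autoImplicit false
set_option linter.style.haveILetI false
set_option linter.unusedSectionVars false

noncomputable section

namespace Fermat.Agent.H41.SS

open Polynomial ModularCurve
open Fermat.Agent.H22.KL

/-- **Level-`M` regularity in the chart `j`, `q ≠ 3`, `3 ∣ M`** (through the chart `t₃`). -/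
theorem modelLevelReg_j_of_three_dvd (M q : ℕ) [NeZero M] (hq : q.Prime) (hq3 : q ≠ 3)
    (hqM : ¬ q ∣ M) (h3 : 3 ∣ M) : ModelLevelRegStatement M q jq (3 * M) :=
  Fermat.Agent.H9.SS.modelLevelReg_j_of_t3 M q hq hq3 h3 (3 * M)
    (modelLevelReg_t3 M q hq hq3 hqM h3)

/-- **Level-`M` regularity in the chart `j`, `q` odd, `2 ∣ M`** (through the chart `t₂`). -/
theorem modelLevelReg_j_of_two_dvd (M q : ℕ) [NeZero M] (hq : q.Prime) (hq2 : q ≠ 2)
    (hqM : ¬ q ∣ M) (h2 : 2 ∣ M) : ModelLevelRegStatement M q jq (2 * M) :=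
  Fermat.Agent.H9.SS.modelLevelReg_j_of_t2S M q hq hq2 h2 (2 * M)
    (modelLevelReg_t2 M q hq hq2 hqM h2)

/-- **Level-`M` regularity in the chart `j` at all auxiliary pairs.** -/
theorem modelLevelReg_all (M q : ℕ) [NeZero M] [NeZero q] (hq : q.Prime) (hqM : ¬ q ∣ M)
    (h4 : q ≠ 2 → 4 ∣ M) (h9 : q = 2 → 9 ∣ M) :
    ∃ R, 0 < R ∧ ModelLevelRegStatement M q jq R := by
  by_cases hq2 : q = 2
  · have h3 : 3 ∣ M := dvd_trans (by norm_num) (h9 hq2)
    have hq3 : q ≠ 3 := by rw [hq2]; norm_num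
    exact ⟨3 * M, Nat.mul_pos (by norm_num) (Nat.pos_of_ne_zero (NeZero.ne M)),
      modelLevelReg_j_of_three_dvd M q hq hq3 hqM h3⟩
  · exact Fermat.Agent.H22.SS.modelLevelReg_h4 M q hq hq2 hqM (h4 hq2)

/-- **ROW 648 (SSH-7), final form**: the ordinary-point statement at every auxiliary pair
`(M, q)`, `q` prime, `q ∤ M`, `4 ∣ M` for `q` odd, `9 ∣ M` for `q = 2`. -/
theorem ssPlaceGenOrd_all (M q : ℕ) [NeZero M] [NeZero q] (hq : q.Prime) (hqM : ¬ q ∣ M)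
    (h4 : q ≠ 2 → 4 ∣ M) (h9 : q = 2 → 9 ∣ M) :
    ∃ R, 0 < R ∧ Fermat.Agent.H45.SSPlaceGenOrdStatement M q jq R := by
  obtain ⟨R, hR, hReg⟩ := modelLevelReg_all M q hq hqM h4 h9
  exact ⟨R, hR, ssPlaceGenOrd_of_reg M q hq hqM R hReg⟩

/-- Variant with `R` prime to `q` (for consumers over an unramified base). -/
theorem ssPlaceGenOrd_all_coprime (M q : ℕ) [NeZero M] [NeZero q] (hq : q.Prime) (hqM : ¬ q ∣ M)
    (h4 : q ≠ 2 → 4 ∣ M) (h9 : q = 2 → 9 ∣ M) :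
    ∃ R, 0 < R ∧ Nat.Coprime R q ∧ ModelLevelRegStatement M q jq R ∧
      Fermat.Agent.H45.SSPlaceGenOrdStatement M q jq R := by
  by_cases hq2 : q = 2
  · have h3 : 3 ∣ M := dvd_trans (by norm_num) (h9 hq2)
    have hq3 : q ≠ 3 := by rw [hq2]; norm_num
    have hReg := modelLevelReg_j_of_three_dvd M q hq hq3 hqM h3
    refine ⟨3 * M, Nat.mul_pos (by norm_num) (Nat.pos_of_ne_zero (NeZero.ne M)), ?_, hReg,
      ssPlaceGenOrd_of_reg M q hq hqM _ hReg⟩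
    refine Nat.Coprime.mul_left ?_ (((Nat.Prime.coprime_iff_not_dvd hq).mpr hqM).symm)
    exact (Nat.coprime_primes Nat.prime_three hq).2 (Ne.symm hq3)
  · have h2 : 2 ∣ M := dvd_trans (by norm_num) (h4 hq2)
    have hReg := modelLevelReg_j_of_two_dvd M q hq hq2 hqM h2
    refine ⟨2 * M, Nat.mul_pos (by norm_num) (Nat.pos_of_ne_zero (NeZero.ne M)), ?_, hReg,
      ssPlaceGenOrd_of_reg M q hq hqM _ hReg⟩
    refine Nat.Coprime.mul_left ?_ (((Nat.Prime.coprime_iff_not_dvd hq).mpr hqM).symm)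
    exact (Nat.coprime_primes Nat.prime_two hq).2 (Ne.symm hq2)

end Fermat.Agent.H41.SS

end
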